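/-
Row 37 (S43), block FREE, node (A) (helper124): ADJUNCTION for the Weil pairing.
For a finite extension `F ⊆ F'` of function fields over an algebraically closed field of characteristic
zero:  `e_n(π^* x, y) = e_n(x, π_* y)`  for `x ∈ Pic⁰(F)[n]`, `y ∈ Pic⁰(F')[n]`.
-/
import Fermat.Agent.S19.Weil.Norm
import Fermat.Agent.S19.Weil.Pairing
import Fermat.Agent.S37.HeckeInputs.FundId

set_option autoImplicit false
set_option linter.unusedSectionVars false

noncomputable section

namespace Fermat.Agent.S43.Free

open AlgebraicCurve Fermat.Agent.S24.FF Fermat.Agent.S27 Fermat.Agent.S19.Weil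
open Fermat.Agent.S37.HeckeInputs

variable {K F F' : Type*} [Field K] [Field F] [Field F'] [Algebra K F] [Algebra K F']
  [Algebra F F'] [IsScalarTower K F F'] [IsAlgClosed K] [CharZero K] [IsFF1 K F] [IsFF1 K F']
  [Module.Finite F F'] [NonConst K F] [NonConst K F'] [HasPrincipalDivisors K F']
  [FundamentalIdentity K F F']

theorem cls_pullback {D : Divisor K F} (hD : Divisor.degree D = 0) :
    cls (Divisor.pullback F' D) = Pic0.pullbackHom F' (cls D) := by
  rw [cls_eq_mk hD, Pic0.pullbackHom_mk,
    cls_eq_mk (by rw [Divisor.degree_pullback, hD, mul_zero])]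
  rfl

theorem cls_pushforward (H : Divisor.PushforwardNormFormula K F F') {D : Divisor K F'}
    (hD : Divisor.degree D = 0) :
    cls (Divisor.pushforward F D) = Pic0.pushforwardHom K F F' H (cls D) := by
  rw [cls_eq_mk hD, Pic0.pushforwardHom_mk,
    cls_eq_mk (by rw [Divisor.degree_pushforward, hD])]
  rfl

/-- The pull-back of a representative. -/
def torsRepPull {n : ℕ} {x : Pic0 K F} (a : TorsRep n x) : TorsRep n (Pic0.pullbackHom F' x) where
  D := Divisor.pullback F' a.D
  f := algebraMap F F' a.f
  deg := by rw [Divisor.degree_pullback, a.deg, mul_zero]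
  cls_eq := by rw [cls_pullback a.deg, a.cls_eq]
  div := by
    rw [← map_zsmul]
    exact isDivOf_pullback a.div

/-- The push-forward of a representative. -/
def torsRepPush (H : Divisor.PushforwardNormFormula K F F') {n : ℕ} {y : Pic0 K F'}
    (b : TorsRep n y) : TorsRep n (Pic0.pushforwardHom K F F' H y) where
  D := Divisor.pushforward F b.D
  f := Algebra.norm F b.f
  deg := by rw [Divisor.degree_pushforward, b.deg]
  cls_eq := by rw [cls_pushforward H b.deg, b.cls_eq]
  div := by
    rw [← map_zsmul]
    exact isDivOf_pushforward b.div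

/-- **Adjunction**: `e_n(π^* x, y) = e_n(x, π_* y)`. -/
theorem weil_adj (H : Divisor.PushforwardNormFormula K F F') {n : ℕ} (hn : 0 < n)
    {x : Pic0 K F} {y : Pic0 K F'} (hx : (n : ℤ) • x = 0) (hy : (n : ℤ) • y = 0) :
    weil n (Pic0.pullbackHom F' x) y = weil n x (Pic0.pushforwardHom K F F' H y) := by
  classical
  obtain ⟨b, -⟩ := exists_torsRep hy ∅
  obtain ⟨a, ha⟩ := exists_torsRep hx (b.D.support.image fun w => w.restrict F)
  -- disjointness upstairs
  have d1 : Disjoint (torsRepPull (F' := F') a).D.support b.D.support := by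
    rw [Finset.disjoint_left]
    intro w hw hwb
    have h1 : a.D (w.restrict F) = 0 := ha _ (Finset.mem_image_of_mem _ hwb)
    rw [Finsupp.mem_support_iff] at hw
    apply hw
    show Divisor.pullback F' a.D w = 0
    rw [Divisor.pullback_apply, h1, mul_zero]
  -- disjointness downstairs
  have d2 : Disjoint a.D.support (torsRepPush H b).D.support := by
    rw [Finset.disjoint_left]
    intro v hv hvb
    rw [Finsupp.mem_support_iff] at hv hvb
    apply hvb
    show Divisor.pushforward F b.D v = 0
    rw [Divisor.pushforward_apply]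
    refine Finset.sum_eq_zero fun w hw => ?_
    split_ifs with hwv
    · exact absurd (ha v (Finset.mem_image.2 ⟨w, hw, hwv⟩)) hv
    · rfl
  rw [weil_eq hn _ _ d1, weil_eq hn _ _ d2, weilRep, weilRep]
  have e1 : evDiv a.f (torsRepPush H b).D = evDiv (torsRepPull (F' := F') a).f b.D :=
    evDiv_pushforward a.f b.D ((torsRepPull (F' := F') a).unitOn b d1)
  have e2 : evDiv (torsRepPush H b).f a.D = evDiv b.f (torsRepPull (F' := F') a).D :=
    evDiv_norm b.f a.D (b.unitOn (torsRepPull (F' := F') a) d1.symm)
  rw [e1, e2]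

end Fermat.Agent.S43.Free

end
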