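/-
Row 37 (S43), block FREE (architect helper176).  DEFINITIONS.

Generic setting: `L0 ⊆ L1` function fields in one variable over `ℚ̄` (`L0 = FB F0`, `L1 = FB F1`),
`W L n` the Kummer module of `S48/BB/M/Kum.lean` (`= Pic⁰(L)[n]`).

* `upW n : W L0 n →+ W L1 n`   : `π^*` (inclusion of functions);
* `dnW n : W L1 n →+ W L0 n`   : `π_*` (norm of functions);
* `auW D n : W L1 n →+ W L1 n` : action of a `ℚ̄`-automorphism (`= S48.BB.E.autW D n` for `L1 = FB F₀`, by `rfl`).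
-/
import Fermat.Agent.S48.BB.M.Kum
import Fermat.Agent.S48.BB.T.KumNorm
import Fermat.Agent.S27.Defs

set_option autoImplicit false

noncomputable section

namespace Fermat.Agent.S43.Free

open AlgebraicCurve Fermat.Agent.S24 Fermat.Agent.S24.FF Fermat.Agent.S27 Fermat.Agent.S48.BB.M

section Aut

variable {L : Type} [Field L] [Algebra Kbar L]

theorem isKum_aut {n : ℕ} (D : L ≃ₐ[Kbar] L) {u : L} (hu : IsKum L n u) : IsKum L n (D u) := by
  intro v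
  have h := Place.ord_smul D (D⁻¹ • v) u
  rw [smul_inv_smul] at h
  rw [h]
  exact hu _

/-- The action of an automorphism on units. -/
def auU (D : L ≃ₐ[Kbar] L) : Lˣ →* Lˣ := Units.map ((D : L →+* L) : L →* L)

theorem coe_auU (D : L ≃ₐ[Kbar] L) (u : Lˣ) : ((auU D u : Lˣ) : L) = D u := rfl

theorem auU_mem_kum {n : ℕ} (D : L ≃ₐ[Kbar] L) (u : Lˣ) (hu : u ∈ kum L n) :
    auU D u ∈ kum L n := isKum_aut D hu

/-- The endomorphism of the Kummer module induced by a `ℚ̄`-automorphism. -/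
def auW (D : L ≃ₐ[Kbar] L) (n : ℕ) : W L n →+ W L n := mapW (auU D) (auU_mem_kum D)

theorem auW_cls {n : ℕ} (D : L ≃ₐ[Kbar] L) (u : kum L n) :
    auW D n (cls u) = cls (⟨auU D (u : Lˣ), auU_mem_kum D (u : Lˣ) u.2⟩ : kum L n) :=
  mapW_cls (auU D) (auU_mem_kum D) u

/-- The constants, as units. -/
def constU (L : Type) [Field L] [Algebra Kbar L] : Kbarˣ →* Lˣ :=
  Units.map ((algebraMap Kbar L : Kbar →+* L) : Kbar →* L)

theorem coe_constU (a : Kbarˣ) : ((constU L a : Lˣ) : L) = algebraMap Kbar L a := rfl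

end Aut

variable {L0 L1 : Type} [Field L0] [Field L1] [Algebra Kbar L0] [Algebra Kbar L1]
  [Algebra L0 L1] [IsScalarTower Kbar L0 L1]

variable (L0 L1) in
/-- `π^*` on units. -/
def upU : L0ˣ →* L1ˣ := Units.map ((algebraMap L0 L1 : L0 →+* L1) : L0 →* L1)

theorem coe_upU (u : L0ˣ) : ((upU L0 L1 u : L1ˣ) : L1) = algebraMap L0 L1 u := rfl

variable (L0 L1) in
/-- `π_*` on units. -/
def dnU : L1ˣ →* L0ˣ := Units.map (Algebra.norm L0 : L1 →* L0)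

theorem coe_dnU (u : L1ˣ) : ((dnU L0 L1 u : L0ˣ) : L0) = Algebra.norm L0 (u : L1) := rfl

theorem isKum_up [IsFF1 Kbar L1] [NonConst Kbar L0] {n : ℕ} {u : L0} (hu : IsKum L0 n u) :
    IsKum L1 n (algebraMap L0 L1 u) := by
  obtain ⟨x, hx⟩ := NonConst.out (K := Kbar) (F := L0)
  exact fun w => Fermat.Agent.S48.BB.T.dvd_ord_map (IsScalarTower.toAlgHom Kbar L0 L1) x hx n u hu w

theorem isKum_dn [IsFF1 Kbar L0] [IsFF1 Kbar L1] [Module.Finite L0 L1] {n : ℕ} {u : L1}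
    (hu : IsKum L1 n u) : IsKum L0 n (Algebra.norm L0 u) :=
  fun v => Fermat.Agent.S48.BB.T.dvd_ord_norm' (K := Kbar) (n : ℤ) u hu v

theorem upU_mem_kum [IsFF1 Kbar L1] [NonConst Kbar L0] {n : ℕ} (u : L0ˣ) (hu : u ∈ kum L0 n) :
    upU L0 L1 u ∈ kum L1 n := isKum_up (L1 := L1) hu

theorem dnU_mem_kum [IsFF1 Kbar L0] [IsFF1 Kbar L1] [Module.Finite L0 L1] {n : ℕ} (u : L1ˣ)
    (hu : u ∈ kum L1 n) : dnU L0 L1 u ∈ kum L0 n := isKum_dn (L0 := L0) hu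

variable (L0 L1) in
/-- `π^*` on Kummer modules. -/
def upW [IsFF1 Kbar L1] [NonConst Kbar L0] (n : ℕ) : W L0 n →+ W L1 n :=
  mapW (upU L0 L1) upU_mem_kum

variable (L0 L1) in
/-- `π_*` on Kummer modules. -/
def dnW [IsFF1 Kbar L0] [IsFF1 Kbar L1] [Module.Finite L0 L1] (n : ℕ) : W L1 n →+ W L0 n :=
  mapW (dnU L0 L1) dnU_mem_kum

theorem upW_cls [IsFF1 Kbar L1] [NonConst Kbar L0] {n : ℕ} (u : kum L0 n) :
    upW L0 L1 n (cls u) = cls (⟨upU L0 L1 (u : L0ˣ), upU_mem_kum (u : L0ˣ) u.2⟩ : kum L1 n) :=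
  mapW_cls _ _ u

theorem dnW_cls [IsFF1 Kbar L0] [IsFF1 Kbar L1] [Module.Finite L0 L1] {n : ℕ} (u : kum L1 n) :
    dnW L0 L1 n (cls u) = cls (⟨dnU L0 L1 (u : L1ˣ), dnU_mem_kum (u : L1ˣ) u.2⟩ : kum L0 n) :=
  mapW_cls _ _ u

end Fermat.Agent.S43.Free

end
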