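/-
Row 37 (S43), block FREE (architect helper176).  THE CONTRACT (definitions only, no proofs).

GOAL OF THE BLOCK (fields `T_pow`, `H1`, `pr_surj`, `ker_pr` of `Deform.Data` / `Deform2.Data`):
`W = (W1 F1 p)` localised at `(m, U_q - u, δ - 1)` is free over `𝔽_p[Δ]`, and `π_* : W → W0` is onto with kernel `T W`.

PAPER PROOF.  `L0 = FB F0 ⊆ L1 = FB F1`, cyclic with group `G_q = ⟨D⟩` of order `P h`, `P = p ^ a`, `p ∤ h`;
`up = π^*`, `dn = π_*` (norm), `δ = auW D`, `t = T_l` (one prime `l ∤ N p` with `a_l ≠ l + 1` in `𝔽_p`), `c = l + 1`.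
 (UPDN)  `up ∘ dn = ∑_{j < P h} δ ^ j`, `dn ∘ δ = dn`                                  [Galois theory]
 (KERUP) `up x = 0 → t x = c x`.   `u₀ = g ^ n`, `D g = ζ g`, `D (τ g / g ^ c) = τ g / g ^ c`.     [Kummer]
 (INV)   `δ x = x → t x - c x ∈ im up`.  `D f = f g ^ n`, `N g = ζ`; `f' = τ f / f ^ c`, `g' = τ g / g ^ c` has
         norm `τ ζ / ζ ^ c = 1`, Hilbert 90: `g' = D h / h`, `f' / h ^ n ∈ L0`; it is a Kummer element of `L0` by (RAM).
 (COKER) `t y - c y ∈ im dn`.  Weil pairing: `(im dn)^⊥ = ker up` (adjunction + nondegeneracy on `L1`),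
         `t` selfadjoint on `L0`, so `t y - c y ⊥ ker up` by (KERUP); `(im dn)^⊥⊥ = im dn`.
 (ABS)   linear algebra: on the generalised eigenspaces `t - c` is bijective, so `ker (δ - 1) = up W0`, `dn W = W0`,
         `ker T = up dn W = h T^(P-1) W`; `dn x = 0 → T^(P-1) x = 0 → x ∈ T W`.
-/
import Fermat.Agent.S43.Free.Defs
import Fermat.Agent.S48.BB.N.CardWG
import Fermat.Agent.S19.Weil.Defs

set_option autoImplicit false

noncomputable section

namespace Fermat.Agent.S43.Free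

open AlgebraicCurve Fermat.Agent.S24 Fermat.Agent.S24.FF Fermat.Agent.S27 Fermat.Agent.S48.BB.M

/-- `L1 / L0` is cyclic, generated by the `ℚ̄`-automorphism `D` (a generator of the diamond operators). -/
structure Cyc (L0 L1 : Type) [Field L0] [Field L1] [Algebra Kbar L0] [Algebra Kbar L1]
    [Algebra L0 L1] where
  /-- the generator -/
  D : L1 ≃ₐ[Kbar] L1
  D_base : ∀ x : L0, D (algebraMap L0 L1 x) = algebraMap L0 L1 x
  fixed : ∀ y : L1, D y = y → ∃ x : L0, algebraMap L0 L1 x = y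

/-- A multiplicative Hecke operator `T_l` on both levels (`c = l + 1` is its degree). -/
structure EisOp {L0 L1 : Type} [Field L0] [Field L1] [Algebra Kbar L0] [Algebra Kbar L1]
    [Algebra L0 L1] (C : Cyc L0 L1) (n c : ℕ) where
  /-- `T_l` on `L1` -/
  τ1 : L1ˣ →* L1ˣ
  /-- `T_l` on `L0` -/
  τ0 : L0ˣ →* L0ˣ
  kum1 : ∀ u ∈ kum L1 n, τ1 u ∈ kum L1 n
  kum0 : ∀ u ∈ kum L0 n, τ0 u ∈ kum L0 n
  const : ∀ a : Kbarˣ, τ1 (constU L1 a) = constU L1 (a ^ c)
  comm_D : ∀ u : L1ˣ, τ1 (auU C.D u) = auU C.D (τ1 u)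
  comm_up : ∀ u : L0ˣ, τ1 (upU L0 L1 u) = upU L0 L1 (τ0 u)

namespace EisOp

variable {L0 L1 : Type} [Field L0] [Field L1] [Algebra Kbar L0] [Algebra Kbar L1]
  [Algebra L0 L1] {C : Cyc L0 L1} {n c : ℕ}

/-- `T_l` on `W L1 n` -/
def t1 (E : EisOp C n c) : W L1 n →+ W L1 n := mapW E.τ1 E.kum1

/-- `T_l` on `W L0 n` -/
def t0 (E : EisOp C n c) : W L0 n →+ W L0 n := mapW E.τ0 E.kum0

end EisOp

/-- (RAM) the ramification of `L1 / L0` is prime to `n`, in the only form we need. -/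
def Ram (L0 L1 : Type) [Field L0] [Field L1] [Algebra Kbar L0] [Algebra Kbar L1]
    [Algebra L0 L1] (n : ℕ) : Prop :=
  ∀ f : L0, IsKum L1 n (algebraMap L0 L1 f) → IsKum L0 n f

section Pairing

variable {L : Type} [Field L] [Algebra Kbar L]

/-- The Kummer class `w` corresponds to the divisor class `c`: `w = [u]`, `div u = n D`, `c = [D]`. -/
def IsPic (n : ℕ) (w : W L n) (c : Pic0 Kbar L) : Prop :=
  Fermat.Agent.S48.BB.N.KRelG (K := Kbar) (kum L n) (cls (F := L) (n := n)) n w c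

open Classical in
/-- The dictionary `W L n → Pic⁰(L)[n]` (junk value `0`). -/
def picW (n : ℕ) (w : W L n) : Pic0 Kbar L := if h : ∃ c, IsPic n w c then h.choose else 0

/-- The Weil pairing on Kummer classes. -/
def weilW (n : ℕ) (x y : W L n) : Kbar := Fermat.Agent.S19.Weil.weil n (picW n x) (picW n y)

end Pairing

end Fermat.Agent.S43.Free

end
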