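/-
Row 37 (S43), block FREE, leaf DICT (task 3729, helper7).  The dictionary `picW : W L n → Pic⁰(L)[n]`.
`IsPic` is `S48.BB.N.KRelG (kum L n) cls n`: everything follows from
`KRelG.exists_right / unique_right / exists_left / unique_left`.
-/
import Fermat.Agent.S43.Free.Contract
import Fermat.Agent.S27.General
import Fermat.Agent.S19.Weil.Rep

set_option autoImplicit false

namespace Fermat.Agent.S43.Free

open AlgebraicCurve Fermat.Agent.S24 Fermat.Agent.S24.FF Fermat.Agent.S27 Fermat.Agent.S48.BB.M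
open Fermat.Agent.S19.Weil

variable {L : Type} [Field L] [Algebra Kbar L] [IsFF1 Kbar L]

omit [IsFF1 Kbar L] in
theorem dict_hkum {n : ℕ} (u : Lˣ) :
    u ∈ kum L n ↔ ∀ v : Place Kbar L, (n : ℤ) ∣ v.ord (u : L) := Iff.rfl

omit [IsFF1 Kbar L] in
theorem dict_hcls {n : ℕ} (u u' : kum L n) :
    Fermat.Agent.S48.BB.M.cls u = Fermat.Agent.S48.BB.M.cls u' ↔
      ∃ s : Lˣ, (u' : Lˣ) = u * s ^ n := by
  have h1 : Fermat.Agent.S48.BB.M.cls u = Fermat.Agent.S48.BB.M.cls u' ↔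
      (QuotientGroup.mk u : Wm L n) = QuotientGroup.mk u' := Iff.rfl
  rw [h1, QuotientGroup.eq, Subgroup.mem_subgroupOf]
  constructor
  · rintro ⟨s, hs⟩
    refine ⟨s, ?_⟩
    have h2 : s ^ n = (u : Lˣ)⁻¹ * (u' : Lˣ) := by
      simpa using hs
    rw [h2, mul_inv_cancel_left]
  · rintro ⟨s, hs⟩
    refine ⟨s, ?_⟩
    show s ^ n = ((u⁻¹ * u' : kum L n) : Lˣ)
    rw [Subgroup.coe_mul, Subgroup.coe_inv, hs, inv_mul_cancel_left]

theorem dict_exists_right {n : ℕ} (hn : 0 < n) (w : W L n) :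
    ∃ c ∈ Pic0.torsion Kbar L n, IsPic n w c :=
  Fermat.Agent.S48.BB.N.KRelG.exists_right (K := Kbar) (kum L n) dict_hkum
    (Fermat.Agent.S48.BB.M.cls (F := L) (n := n)) Fermat.Agent.S48.BB.M.cls_surjective hn w

theorem dict_unique_right {n : ℕ} (hn : 0 < n) {w : W L n} {c c' : Pic0 Kbar L}
    (h : IsPic n w c) (h' : IsPic n w c') : c = c' :=
  Fermat.Agent.S48.BB.N.KRelG.unique_right (K := Kbar) (kum L n)
    (Fermat.Agent.S48.BB.M.cls (F := L) (n := n)) dict_hcls hn h h'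

theorem dict_unique_left {n : ℕ} (hn : 0 < n) {w w' : W L n} {c : Pic0 Kbar L}
    (h : IsPic n w c) (h' : IsPic n w' c) : w = w' :=
  Fermat.Agent.S48.BB.N.KRelG.unique_left (K := Kbar) (kum L n)
    (Fermat.Agent.S48.BB.M.cls (F := L) (n := n)) dict_hcls hn h h'

theorem isPic_picW {n : ℕ} (hn : 0 < n) (w : W L n) : IsPic n w (picW n w) := by
  have h : ∃ c, IsPic n w c := by
    obtain ⟨c, -, hc⟩ := dict_exists_right hn w
    exact ⟨c, hc⟩
  rw [picW, dif_pos h]
  exact h.choose_spec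

theorem picW_eq {n : ℕ} (hn : 0 < n) {w : W L n} {c : Pic0 Kbar L} (h : IsPic n w c) :
    picW n w = c :=
  dict_unique_right hn (isPic_picW hn w) h

theorem picW_add {n : ℕ} (hn : 0 < n) (w w' : W L n) :
    picW n (w + w') = picW n w + picW n w' := by
  apply picW_eq hn
  obtain ⟨u, D, hD, hu, hc, hord⟩ := isPic_picW hn w
  obtain ⟨u', D', hD', hu', hc', hord'⟩ := isPic_picW hn w'
  refine ⟨u * u', D + D', by rw [map_add, hD, hD', add_zero], ?_, ?_, fun v => ?_⟩
  · rw [Fermat.Agent.S48.BB.M.cls_mul, hu, hu']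
  · rw [Fermat.Agent.S27.cls_add hD hD', hc, hc']
  · rw [Subgroup.coe_mul, Units.val_mul, v.ord_mul (Units.ne_zero _) (Units.ne_zero _), hord v,
      hord' v, Finsupp.add_apply, mul_add]

theorem picW_injective {n : ℕ} (hn : 0 < n) : Function.Injective (picW (L := L) n) := by
  intro w w' h
  have h1 := isPic_picW hn w
  rw [h] at h1
  exact dict_unique_left hn h1 (isPic_picW hn w')

theorem zsmul_picW {n : ℕ} (hn : 0 < n) (w : W L n) : (n : ℤ) • picW n w = 0 := by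
  obtain ⟨c, hc, hw⟩ := dict_exists_right hn w
  rw [picW_eq hn hw]
  exact Pic0.mem_torsion.mp hc

theorem exists_picW_eq {n : ℕ} (hn : 0 < n) (c : Pic0 Kbar L) (hc : (n : ℤ) • c = 0) :
    ∃ w : W L n, picW n w = c := by
  obtain ⟨w, hw⟩ := Fermat.Agent.S48.BB.N.KRelG.exists_left (K := Kbar) (kum L n) dict_hkum
    (Fermat.Agent.S48.BB.M.cls (F := L) (n := n)) c (Pic0.mem_torsion.mpr hc)
  exact ⟨w, picW_eq hn hw⟩

theorem finite_W [NonConst Kbar L] {n : ℕ} (hn : 0 < n) : Finite (W L n) := by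
  have h1 : Nat.card (W L n) = Nat.card (Pic0.torsion Kbar L n) :=
    Fermat.Agent.S48.BB.N.card_eq_card_torsion (K := Kbar) (kum L n) dict_hkum
      (Fermat.Agent.S48.BB.M.cls (F := L) (n := n)) Fermat.Agent.S48.BB.M.cls_surjective
      dict_hcls hn
  rw [card_torsion_general Kbar L n hn] at h1
  exact Nat.finite_of_card_ne_zero (by rw [h1]; exact (pow_pos hn _).ne')

/-- a representative of `picW n (cls u)` with function `u` -/
theorem exists_torsRep_cls {n : ℕ} (hn : 0 < n) (u : kum L n) :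
    ∃ a : TorsRep n (picW n (cls u)), a.f = ((u : Lˣ) : L) := by
  have hu0 : (((u : Lˣ) : L)) ≠ 0 := Units.ne_zero _
  obtain ⟨D0, hD0⟩ := exists_isDivOf (K := Kbar) (((u : Lˣ) : L)) hu0
  have hk : ∀ v : Place Kbar L, (n : ℤ) ∣ v.ord ((u : Lˣ) : L) := u.2
  let D : Divisor Kbar L := D0.mapRange (fun a : ℤ => a / n) (by simp)
  have hDv : ∀ v, (n : ℤ) * D v = D0 v := by
    intro v
    show (n : ℤ) * (D0 v / n) = D0 v
    rw [hD0.2 v]
    exact Int.mul_ediv_cancel' (hk v)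
  have hnD : (n : ℤ) • D = D0 := by
    ext v
    rw [Finsupp.smul_apply, smul_eq_mul, hDv]
  have hdeg : Divisor.degree D = 0 := by
    have h1 : Divisor.degree ((n : ℤ) • D) = 0 := by rw [hnD]; exact hD0.degree
    rw [map_zsmul, smul_eq_mul] at h1
    rcases mul_eq_zero.mp h1 with h | h
    · exact absurd h (by exact_mod_cast hn.ne')
    · exact h
  have hpic : IsPic n (cls u) (Fermat.Agent.S27.cls D) :=
    ⟨u, D, hdeg, rfl, rfl, fun v => by rw [hDv, hD0.2 v]⟩
  exact ⟨⟨D, ((u : Lˣ) : L), hdeg, (picW_eq hn hpic).symm, by rw [hnD]; exact hD0⟩, rfl⟩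

/-- the function of a representative of `picW n w` is a Kummer element of class `w` -/
theorem cls_of_torsRep {n : ℕ} (hn : 0 < n) (w : W L n) (a : TorsRep n (picW n w)) :
    ∃ u : kum L n, ((u : Lˣ) : L) = a.f ∧ cls u = w := by
  have hord : ∀ v : Place Kbar L, v.ord a.f = n * a.D v := by
    intro v
    rw [← a.div.2 v, Finsupp.smul_apply, smul_eq_mul]
  have hk : Units.mk0 a.f a.div.1 ∈ kum L n := fun v => by
    show (n : ℤ) ∣ v.ord a.f
    rw [hord v]
    exact dvd_mul_right _ _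
  refine ⟨⟨Units.mk0 a.f a.div.1, hk⟩, rfl, ?_⟩
  have hpic : IsPic n (cls (⟨Units.mk0 a.f a.div.1, hk⟩ : kum L n)) (picW n w) :=
    ⟨⟨Units.mk0 a.f a.div.1, hk⟩, a.D, a.deg, rfl, a.cls_eq, hord⟩
  exact dict_unique_left hn hpic (isPic_picW hn w)

end Fermat.Agent.S43.Free
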