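/-
Row 37 (S43), block FREE (helper124).  DUALITY for a nondegenerate bimultiplicative pairing on a finite
abelian group, and the abstract form of "`coker π_*` is dual to `ker π^*`" (Mathlib only).
-/
import Mathlib

set_option autoImplicit false
set_option linter.style.haveILetI false

namespace Fermat.Agent.S43.Free

/-- A bimultiplicative pairing with values in `Ωˣ`, nondegenerate on the left. -/
structure IsPerf {G Ω : Type*} [AddCommGroup G] [Field Ω] (e : G → G → Ω) : Prop where
  ne_zero : ∀ x y, e x y ≠ 0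
  add_left : ∀ x x' y, e (x + x') y = e x y * e x' y
  add_right : ∀ x y y', e x (y + y') = e x y * e x y'
  nondeg : ∀ z, (∀ x, e z x = 1) → z = 0

namespace IsPerf

variable {G Ω : Type*} [AddCommGroup G] [Field Ω] {e : G → G → Ω}

theorem zero_right (h : IsPerf e) (x : G) : e x 0 = 1 := by
  have h1 := h.add_right x 0 0
  rw [add_zero] at h1
  exact (mul_eq_left₀ (h.ne_zero x 0)).1 h1.symm

theorem zero_left (h : IsPerf e) (y : G) : e 0 y = 1 := by
  have h1 := h.add_left 0 0 y
  rw [add_zero] at h1
  exact (mul_eq_left₀ (h.ne_zero 0 y)).1 h1.symm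

/-- The character `e z ·`. -/
noncomputable def char (h : IsPerf e) (z : G) : Multiplicative G →* Ωˣ where
  toFun g := Units.mk0 (e z g.toAdd) (h.ne_zero _ _)
  map_one' := Units.ext (h.zero_right z)
  map_mul' g g' := Units.ext (h.add_right z g.toAdd g'.toAdd)

theorem char_injective (h : IsPerf e) : Function.Injective h.char := by
  intro z z' hzz
  have h1 : ∀ g, e z g = e z' g := fun g =>
    congrArg (fun φ : Multiplicative G →* Ωˣ => ((φ (Multiplicative.ofAdd g) : Ωˣ) : Ω)) hzz
  have h2 : z - z' = 0 := by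
    apply h.nondeg
    intro g
    have h3 := h.add_left (z - z') z' g
    rw [sub_add_cancel, h1 g] at h3
    exact (mul_eq_right₀ (h.ne_zero z' g)).1 h3.symm
  exact sub_eq_zero.1 h2

/-- **`I^⊥⊥ = I`.** -/
theorem mem_of_perp [Finite G] [IsAlgClosed Ω] [CharZero Ω] (h : IsPerf e) (I : AddSubgroup G)
    (a : G) (ha : ∀ z, (∀ y ∈ I, e z y = 1) → e z a = 1) : a ∈ I := by
  haveI : NeZero (Monoid.exponent (Multiplicative G)) := ⟨Monoid.exponent_ne_zero_of_finite⟩
  haveI : NeZero ((Monoid.exponent (Multiplicative G) : ℕ) : Ω) := NeZero.charZero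
  haveI : Finite (Multiplicative G →* Ωˣ) :=
    Finite.of_equiv _ (CommGroup.monoidHom_mulEquiv_of_hasEnoughRootsOfUnity
      (Multiplicative G) Ω).some.symm.toEquiv
  have hbij : Function.Bijective h.char :=
    h.char_injective.bijective_of_nat_card_le (by
      rw [CommGroup.card_monoidHom_of_hasEnoughRootsOfUnity]
      exact le_of_eq (Nat.card_congr Multiplicative.toAdd))
  have key := (CommGroup.forall_monoidHom_apply_eq_one_iff (M := Ω)
    (AddSubgroup.toSubgroup I) (Multiplicative.ofAdd a)).1 (by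
      intro φ hφ
      obtain ⟨z, rfl⟩ := hbij.2 φ
      apply Units.ext
      apply ha z
      intro y hy
      exact congrArg Units.val (hφ (Multiplicative.ofAdd y) hy))
  exact key

end IsPerf

/-- **`coker π_*` is dual to `ker π^*`**: a self-adjoint operator killing `ker π^*` kills `coker π_*`. -/
theorem coker_abs {G G' Ω : Type*} [AddCommGroup G] [AddCommGroup G'] [Field Ω] [Finite G]
    [IsAlgClosed Ω] [CharZero Ω] {e : G → G → Ω} {e' : G' → G' → Ω} (h : IsPerf e) (h' : IsPerf e')
    (pb : G →+ G') (nm : G' →+ G) (adj : ∀ x y, e' (pb x) y = e x (nm y))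
    (t t' : G →+ G) (tadj : ∀ x y, e (t' x) y = e x (t y)) (tker : ∀ z, pb z = 0 → t' z = 0)
    (x0 : G) : ∃ y, t x0 = nm y := by
  have := h.mem_of_perp nm.range (t x0) (by
    intro z hz
    have h1 : pb z = 0 := by
      apply h'.nondeg
      intro y
      rw [adj]
      exact hz _ ⟨y, rfl⟩
    rw [← tadj, tker z h1, h.zero_left])
  obtain ⟨y, hy⟩ := this
  exact ⟨y, hy.symm⟩

end Fermat.Agent.S43.Free
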