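/-
Row 37 (S43), block FREE (architect helper176).  Action of a semilinear automorphism on the Kummer module
(`seW (arithmeticGalois F₀ σ) n = S48.BB.E.rho F₀ n σ`, `seW (ofAlgAut D) n = auW D n`).
-/
import Fermat.Agent.S43.Free.Contract
import Fermat.Agent.S48.BB.E.Defs

set_option autoImplicit false

noncomputable section

namespace Fermat.Agent.S43.Free

open AlgebraicCurve Fermat.Agent.S24 Fermat.Agent.S24.FF Fermat.Agent.S27 Fermat.Agent.S48.BB.M

variable {L : Type} [Field L] [Algebra Kbar L]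

theorem isKum_se {n : ℕ} (g : SemilinearAut Kbar L) {u : L} (hu : IsKum L n u) :
    IsKum L n (g • u) := by
  intro v
  have h := SemilinearAut.ord_smul g (g⁻¹ • v) u
  rw [smul_inv_smul] at h
  rw [h]
  exact hu _

/-- The action of a semilinear automorphism on units. -/
def seU (g : SemilinearAut Kbar L) : Lˣ →* Lˣ :=
  Units.map ((SemilinearAut.toRingAut g : L →+* L) : L →* L)

theorem coe_seU (g : SemilinearAut Kbar L) (u : Lˣ) : ((seU g u : Lˣ) : L) = g • (u : L) := rfl

theorem seU_mem_kum {n : ℕ} (g : SemilinearAut Kbar L) (u : Lˣ) (hu : u ∈ kum L n) :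
    seU g u ∈ kum L n := isKum_se g hu

/-- The action of a semilinear automorphism on the Kummer module. -/
def seW (g : SemilinearAut Kbar L) (n : ℕ) : W L n →+ W L n := mapW (seU g) (seU_mem_kum g)

theorem seW_cls {n : ℕ} (g : SemilinearAut Kbar L) (u : kum L n) :
    seW g n (cls u) = cls (⟨seU g (u : Lˣ), seU_mem_kum g (u : Lˣ) u.2⟩ : kum L n) :=
  mapW_cls (seU g) (seU_mem_kum g) u

theorem seW_ofAlgAut (D : L ≃ₐ[Kbar] L) (n : ℕ) (x : W L n) :
    seW (SemilinearAut.ofAlgAut D) n x = auW D n x := by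
  obtain ⟨u, rfl⟩ := cls_surjective x
  rw [seW_cls, auW_cls]
  rfl

open Fermat.Agent.S48.BB Fermat.Agent.S48.BB.E ModularCurve in
theorem seW_arithmeticGalois (F₀ : IntermediateField ℚ (LaurentSeries ℚ)) (σ : Fermat.Agent.GAL.E.GQ)
    (n : ℕ) (x : W1 F₀ n) :
    seW (arithmeticGalois (L := Kbar) F₀ σ) n x = rho F₀ n σ x := by
  obtain ⟨u, rfl⟩ := cls_surjective x
  rw [seW_cls, rho_cls]
  rfl

open Fermat.Agent.S48.BB Fermat.Agent.S48.BB.E in
theorem auW_eq_autW {F₀ : IntermediateField ℚ (LaurentSeries ℚ)} (D : FB F₀ ≃ₐ[Kbar] FB F₀) (n : ℕ) :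
    auW D n = autW D n := rfl

end Fermat.Agent.S43.Free

end
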