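/-
Row 37 (S43), block FREE, leaf WEILW.  The Weil pairing on Kummer classes.
All statements go through the dictionary `Free/Dict.lean`.
-/
import Fermat.Agent.S43.Free.Dict
import Fermat.Agent.S43.Free.Semi
import Fermat.Agent.S43.Free.Adj
import Fermat.Agent.S43.Free.Dual
import Fermat.Agent.S19.Weil.Nondeg
import Fermat.Agent.S19.Weil.Divisible
import Fermat.Agent.S15.Pair.Basic

set_option autoImplicit false

namespace Fermat.Agent.S43.Free

open AlgebraicCurve Fermat.Agent.S24 Fermat.Agent.S24.FF Fermat.Agent.S27 Fermat.Agent.S48.BB.M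
open Fermat.Agent.S19.Weil Fermat.Agent.S37.HeckeInputs

section One

variable {L : Type} [Field L] [Algebra Kbar L] [IsFF1 Kbar L] [NonConst Kbar L]

omit [NonConst Kbar L] in
theorem weilW_picW_zero {n : ℕ} (hn : 0 < n) : picW n (0 : W L n) = 0 := by
  have h := picW_add hn (0 : W L n) 0
  have h0 : (0 : W L n) + 0 = 0 := add_zero (0 : W L n)
  rw [h0] at h
  exact left_eq_add.1 h

omit [NonConst Kbar L] in
theorem weilW_picW_nsmul {n : ℕ} (hn : 0 < n) (k : ℕ) (w : W L n) :
    picW n (k • w) = k • picW n w := by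
  induction k with
  | zero => rw [zero_nsmul, zero_nsmul, weilW_picW_zero hn]
  | succ k ih => rw [succ_nsmul, succ_nsmul, picW_add hn, ih]

omit [NonConst Kbar L] in
theorem weilW_picW_sub {n : ℕ} (hn : 0 < n) (w w' : W L n) :
    picW n (w - w') = picW n w - picW n w' := by
  have h := picW_add hn (w - w') w'
  have h0 : w - w' + w' = w := sub_add_cancel w w'
  rw [h0] at h
  rw [h, add_sub_cancel_right]

theorem weilW_nonempty_embedding : Nonempty (Kbar →+* ℂ) := by
  have : Algebra.IsAlgebraic ℚ Kbar := AlgebraicClosure.isAlgebraic ℚ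
  exact ⟨(IsAlgClosed.lift (R := ℚ) (S := Kbar) (M := ℂ) : Kbar →ₐ[ℚ] ℂ).toRingHom⟩

theorem isPerf_weilW {n : ℕ} (hn : 0 < n) : IsPerf (weilW (L := L) n) where
  ne_zero x y := weil_ne_zero hn _ _
  add_left x x' y := by
    unfold weilW
    rw [picW_add hn, weil_add_left hn (zsmul_picW hn x) (zsmul_picW hn x') (zsmul_picW hn y)]
  add_right x y y' := by
    unfold weilW
    rw [picW_add hn,
      S15.Pair.weil_add_right hn (zsmul_picW hn x) (zsmul_picW hn y) (zsmul_picW hn y')]
  nondeg z hz := by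
    by_contra hz0
    have h0 : picW n z ≠ 0 := by
      intro h
      apply hz0
      apply picW_injective hn
      rw [h, weilW_picW_zero hn]
    obtain ⟨y, hy, hne⟩ := weil_nondegenerate (pic0Divisible Kbar weilW_nonempty_embedding) hn
      (zsmul_picW hn z) h0
    obtain ⟨w, rfl⟩ := exists_picW_eq hn y hy
    exact hne (hz w)

theorem weilW_swap {n : ℕ} (hn : 0 < n) (x y : W L n) : weilW n y x = (weilW n x y)⁻¹ :=
  S15.Pair.weil_swap hn (zsmul_picW hn x) (zsmul_picW hn y)

theorem weilW_pow_eq_one {n : ℕ} (hn : 0 < n) (x y : W L n) : weilW n x y ^ n = 1 :=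
  S15.Pair.weil_pow_eq_one hn (zsmul_picW hn x) (zsmul_picW hn y)

theorem weilW_nsmul_left {n : ℕ} (hn : 0 < n) (k : ℕ) (x y : W L n) :
    weilW n (k • x) y = weilW n x y ^ k := by
  unfold weilW
  rw [weilW_picW_nsmul hn, S15.Pair.weil_nsmul_left hn (zsmul_picW hn x) (zsmul_picW hn y)]

theorem weilW_nsmul_right {n : ℕ} (hn : 0 < n) (k : ℕ) (x y : W L n) :
    weilW n x (k • y) = weilW n x y ^ k := by
  unfold weilW
  rw [weilW_picW_nsmul hn, S15.Pair.weil_nsmul_right hn (zsmul_picW hn x) (zsmul_picW hn y)]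

theorem weilW_sub_left {n : ℕ} (hn : 0 < n) (x x' y : W L n) :
    weilW n (x - x') y = weilW n x y / weilW n x' y := by
  unfold weilW
  rw [weilW_picW_sub hn,
    S15.Pair.weil_sub_left hn (zsmul_picW hn x) (zsmul_picW hn x') (zsmul_picW hn y)]

theorem weilW_sub_right {n : ℕ} (hn : 0 < n) (x y y' : W L n) :
    weilW n x (y - y') = weilW n x y / weilW n x y' := by
  unfold weilW
  rw [weilW_picW_sub hn,
    S15.Pair.weil_sub_right hn (zsmul_picW hn x) (zsmul_picW hn y) (zsmul_picW hn y')]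

omit [NonConst Kbar L] in
theorem picW_seW {n : ℕ} (hn : 0 < n) (g : SemilinearAut Kbar L) (w : W L n) :
    picW n (seW g n w) = g • picW n w := by
  obtain ⟨u, D, hD, hu, hc, hord⟩ := isPic_picW hn w
  refine picW_eq hn ⟨⟨seU g (u : Lˣ), seU_mem_kum g (u : Lˣ) u.2⟩, g • D, ?_, ?_, ?_, fun v => ?_⟩
  · rw [SemilinearAut.degree_smul, hD]
  · rw [← hu, seW_cls]
  · rw [S19.Weil.cls_smul g hD, hc]
  · have h1 := SemilinearAut.ord_smul g (g⁻¹ • v) ((u : Lˣ) : L)
    rw [smul_inv_smul] at h1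
    rw [SemilinearAut.divisor_smul_apply, ← hord]
    exact h1

theorem weilW_seW {n : ℕ} (hn : 0 < n) (g : SemilinearAut Kbar L) (x y : W L n) :
    weilW n (seW g n x) (seW g n y) = SemilinearAut.baseAut g (weilW n x y) := by
  unfold weilW
  rw [picW_seW hn, picW_seW hn, weil_smul hn g (zsmul_picW hn x) (zsmul_picW hn y)]

theorem weilW_auW {n : ℕ} (hn : 0 < n) (D : L ≃ₐ[Kbar] L) (x y : W L n) :
    weilW n (auW D n x) (auW D n y) = weilW n x y := by
  rw [← seW_ofAlgAut, ← seW_ofAlgAut, weilW_seW hn, SemilinearAut.baseAut_ofAlgAut]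
  rfl

end One

end Fermat.Agent.S43.Free
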