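/-
Row 37 (S43), block FREE, leaf WEILADJ.  Adjunction `e(π^* x, y) = e(x, π_* y)` on Kummer classes.
`picW_upW`, `picW_dnW`: the dictionary commutes with pull-back and push-forward (representatives
`(algebraMap u, pullback D)`, `(norm u, pushforward D)`); then `Free.weil_adj`.
-/
import Fermat.Agent.S43.Free.WeilW

set_option autoImplicit false

namespace Fermat.Agent.S43.Free

open AlgebraicCurve Fermat.Agent.S24 Fermat.Agent.S24.FF Fermat.Agent.S27 Fermat.Agent.S48.BB.M
open Fermat.Agent.S19.Weil Fermat.Agent.S37.HeckeInputs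

/-- a class with a representative is killed by `n` -/
theorem weilAdj_zsmul_eq_zero {L : Type} [Field L] [Algebra Kbar L] [IsFF1 Kbar L] {n : ℕ}
    {c : Pic0 Kbar L} (b : TorsRep n c) : (n : ℤ) • c = 0 := by
  rw [← b.cls_eq, ← rep_cls_natCast_zsmul b.deg]
  exact rep_cls_eq_zero b.div

/-- the Kummer class of the function of a representative of `c` corresponds to `c` -/
theorem weilAdj_picW_of_torsRep {L : Type} [Field L] [Algebra Kbar L] [IsFF1 Kbar L] {n : ℕ}
    (hn : 0 < n) {c : Pic0 Kbar L} (b : TorsRep n c) (v : kum L n)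
    (hv : ((v : Lˣ) : L) = b.f) : picW n (cls v) = c := by
  obtain ⟨w, rfl⟩ := exists_picW_eq hn c (weilAdj_zsmul_eq_zero b)
  obtain ⟨u', hu', hw⟩ := cls_of_torsRep hn w b
  have h : u' = v := Subtype.ext (Units.ext (hu'.trans hv.symm))
  rw [← h, hw]

variable {L0 L1 : Type} [Field L0] [Field L1] [Algebra Kbar L0] [Algebra Kbar L1]
  [Algebra L0 L1] [IsScalarTower Kbar L0 L1] [Module.Finite L0 L1]
  [IsFF1 Kbar L0] [IsFF1 Kbar L1] [NonConst Kbar L0] [NonConst Kbar L1]

theorem weilAdj_picW_upW [HasPrincipalDivisors Kbar L1] [FundamentalIdentity Kbar L0 L1] {n : ℕ}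
    (hn : 0 < n) (x : W L0 n) :
    picW n (upW L0 L1 n x) = Pic0.pullbackHom L1 (picW n x) := by
  obtain ⟨u, rfl⟩ := cls_surjective x
  obtain ⟨a, ha⟩ := exists_torsRep_cls hn u
  rw [upW_cls]
  refine weilAdj_picW_of_torsRep hn (torsRepPull (F' := L1) a) _ ?_
  show algebraMap L0 L1 ((u : L0ˣ) : L0) = algebraMap L0 L1 a.f
  rw [ha]

theorem weilAdj_picW_dnW [HasPrincipalDivisors Kbar L1] [FundamentalIdentity Kbar L0 L1] {n : ℕ}
    (hn : 0 < n) (y : W L1 n) :
    picW n (dnW L0 L1 n y) =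
      Pic0.pushforwardHom Kbar L0 L1 pushforwardNormFormula (picW n y) := by
  obtain ⟨u, rfl⟩ := cls_surjective y
  obtain ⟨b, hb⟩ := exists_torsRep_cls hn u
  rw [dnW_cls]
  refine weilAdj_picW_of_torsRep hn (torsRepPush (F := L0) pushforwardNormFormula b) _ ?_
  show Algebra.norm L0 ((u : L1ˣ) : L1) = Algebra.norm L0 b.f
  rw [hb]

/-- **Adjunction** on Kummer classes. -/
theorem weilW_adj {n : ℕ} (hn : 0 < n) (x : W L0 n) (y : W L1 n) :
    weilW n (upW L0 L1 n x) y = weilW n x (dnW L0 L1 n y) := by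
  have : HasPrincipalDivisors Kbar L1 := hasPrincipalDivisors
  have : FundamentalIdentity Kbar L0 L1 := fundamentalIdentity
  unfold weilW
  rw [weilAdj_picW_upW hn, weilAdj_picW_dnW hn]
  exact weil_adj pushforwardNormFormula hn (zsmul_picW hn x) (zsmul_picW hn y)

theorem weilW_adj' {n : ℕ} (hn : 0 < n) (x : W L0 n) (y : W L1 n) :
    weilW n y (upW L0 L1 n x) = weilW n (dnW L0 L1 n y) x := by
  rw [weilW_swap hn (upW L0 L1 n x) y, weilW_swap hn x (dnW L0 L1 n y), weilW_adj hn]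

end Fermat.Agent.S43.Free
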