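/-
Row 37 (S43), block FREE (helper124).  ABSTRACT FREENESS (pure algebra, Mathlib only).

`V = J_H[p]`, `V0 = J_0[p]` modules over the abstract Hecke algebra `𝕳`, `δ` a generator of `Δ` (order
`P = p ^ a`), `i = π^*`, `n = π_*`, `i n = Σ δ ^ j`, `n δ = n`.  If an element `e ∉ m` ("Eisenstein")
kills `V^Δ / i V0` and `V0 / n V`, then on the `m`-primary parts:
`ker (δ - 1) ⊆ im (δ - 1) ^ (P - 1)`, `n` is onto, `ker n = im (δ - 1)`.
-/
import Fermat.Agent.S43.Free.Loc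

set_option autoImplicit false
set_option linter.unusedSectionVars false

namespace Fermat.Agent.S43.Free

open Polynomial

/-- `(X - 1) ^ (p ^ a - 1) = Σ_{j < p ^ a} X ^ j` in characteristic `p`. -/
theorem X_sub_one_pow_eq_geom_sum (k : Type*) [Field k] (p : ℕ) [Fact p.Prime] [CharP k p] (a : ℕ) :
    ((X : k[X]) - 1) ^ (p ^ a - 1) = ∑ j ∈ Finset.range (p ^ a), (X : k[X]) ^ j := by
  have hP : 0 < p ^ a := pow_pos (Fact.out : p.Prime).pos a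
  have h1 : ((X : k[X]) - 1) * ((X : k[X]) - 1) ^ (p ^ a - 1) =
      ((X : k[X]) - 1) * ∑ j ∈ Finset.range (p ^ a), (X : k[X]) ^ j := by
    rw [← pow_succ', Nat.sub_add_cancel hP, sub_pow_char_pow, one_pow, mul_geom_sum]
  have h0 : ((X : k[X]) - 1) ≠ 0 := by
    have := X_sub_C_ne_zero (1 : k)
    rwa [C_1] at this
  exact mul_left_cancel₀ h0 h1

variable {k 𝕳 : Type*} [Field k] [CommRing 𝕳] [Algebra k 𝕳]
variable {V V0 : Type*} [AddCommGroup V] [Module 𝕳 V] [AddCommGroup V0] [Module 𝕳 V0]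
  [Module k V] [IsScalarTower k 𝕳 V] [Module k V0] [IsScalarTower k 𝕳 V0]

/-- `(δ - 1) ^ (P - 1) = Σ_{j < P} δ ^ j`. -/
theorem sub_one_pow_eq_sum (p : ℕ) [Fact p.Prime] [CharP k p] (a : ℕ) (δ : Module.End 𝕳 V) :
    (δ - 1) ^ (p ^ a - 1) = ∑ j ∈ Finset.range (p ^ a), δ ^ j := by
  have h := congrArg (aeval (R := k) δ) (X_sub_one_pow_eq_geom_sum k p a)
  simpa using h

/-- `(δ - 1) ^ P = δ ^ P - 1`. -/
theorem sub_one_pow_eq_sub (p : ℕ) [Fact p.Prime] [CharP k p] (a : ℕ) (δ : Module.End 𝕳 V) :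
    (δ - 1) ^ (p ^ a) = δ ^ (p ^ a) - 1 := by
  have h0 : ((X : k[X]) - 1) ^ (p ^ a) = (X : k[X]) ^ (p ^ a) - 1 := by
    rw [sub_pow_char_pow, one_pow]
  have h := congrArg (aeval (R := k) δ) h0
  simpa using h

/-- The hypotheses of the abstract freeness theorem. -/
structure Cover (k : Type*) [Field k] {𝕳 : Type*} [CommRing 𝕳] [Algebra k 𝕳] (m : Ideal 𝕳) (P : ℕ)
    {V V0 : Type*} [AddCommGroup V] [Module 𝕳 V] [AddCommGroup V0] [Module 𝕳 V0]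
    (δ : Module.End 𝕳 V) (i : V0 →ₗ[𝕳] V) (n : V →ₗ[𝕳] V0) : Prop where
  rat : IsRat k m
  δ_pow : δ ^ P = 1
  i_n : ∀ x, i (n x) = (∑ j ∈ Finset.range P, δ ^ j) x
  n_δ : ∀ x, n (δ x) = n x
  /-- an Eisenstein element kills `V^Δ / i V0` -/
  inv : ∃ e : 𝕳, e ∉ m ∧ ∀ x, δ x = x → ∃ x0, e • x = i x0
  /-- an Eisenstein element kills `V0 / n V` -/
  cok : ∃ e : 𝕳, e ∉ m ∧ ∀ x0, ∃ x, e • x0 = n x

namespace Cover

variable {m : Ideal 𝕳} {P : ℕ} {δ : Module.End 𝕳 V} {i : V0 →ₗ[𝕳] V} {n : V →ₗ[𝕳] V0}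

include k in
/-- `π_*` is onto on the `m`-primary parts. -/
theorem n_surj [Module.Finite k V] (C : Cover k m P δ i n) {x0 : V0} (hx0 : x0 ∈ loc m V0) :
    ∃ x ∈ loc m V, n x = x0 := by
  obtain ⟨e, he, hcok⟩ := C.cok
  obtain ⟨G, hG, hGV⟩ := exists_proj (V := V) C.rat
  obtain ⟨y0, -, hy0⟩ := exists_smul_eq C.rat (C.rat.mul_notMem hG he) hx0
  obtain ⟨x, hx⟩ := hcok y0
  exact ⟨G • x, hGV x, by rw [map_smul, ← hx, ← mul_smul, hy0]⟩

include k in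
/-- `ker (δ - 1) ⊆ im (Σ δ ^ j)` on the `m`-primary part. -/
theorem inv_eq_norm [Module.Finite k V] [Module.Finite k V0] (C : Cover k m P δ i n) {x : V}
    (hx : x ∈ loc m V) (hδ : δ x = x) :
    ∃ y ∈ loc m V, x = (∑ j ∈ Finset.range P, δ ^ j) y := by
  obtain ⟨e, he, hinv⟩ := C.inv
  obtain ⟨G, hG, hGV⟩ := exists_proj (V := V0) C.rat
  obtain ⟨x0, hx0⟩ := hinv x hδ
  obtain ⟨z, hz, hnz⟩ := C.n_surj (hGV x0)
  obtain ⟨y, hy, hyz⟩ := exists_smul_eq C.rat (C.rat.mul_notMem hG he) hz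
  refine ⟨y, hy, ?_⟩
  have h1 : (G * e) • x = (G * e) • (∑ j ∈ Finset.range P, δ ^ j) y := by
    rw [← map_smul, hyz, ← C.i_n, hnz, map_smul, ← hx0, mul_smul]
  have h2 : (G * e) • (x - (∑ j ∈ Finset.range P, δ ^ j) y) = 0 := by
    rw [smul_sub, h1, sub_self]
  have h3 : x - (∑ j ∈ Finset.range P, δ ^ j) y ∈ loc m V :=
    (loc m V).sub_mem hx (map_mem_loc _ hy)
  exact sub_eq_zero.1 (eq_zero_of_smul_eq_zero C.rat (C.rat.mul_notMem hG he) h3 h2)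

end Cover

/-- **Abstract freeness.** -/
theorem free_abs (p : ℕ) [Fact p.Prime] [CharP k p] (a : ℕ) {m : Ideal 𝕳} {δ : Module.End 𝕳 V}
    {i : V0 →ₗ[𝕳] V} {n : V →ₗ[𝕳] V0} [Module.Finite k V] [Module.Finite k V0]
    (C : Cover k m (p ^ a) δ i n) :
    (δ - 1) ^ (p ^ a) = 0 ∧
    (∀ x ∈ loc m V, (δ - 1) x = 0 → ∃ y ∈ loc m V, x = ((δ - 1) ^ (p ^ a - 1)) y) ∧
    (∀ x0 ∈ loc m V0, ∃ x ∈ loc m V, n x = x0) ∧
    (∀ x ∈ loc m V, n x = 0 ↔ ∃ y ∈ loc m V, x = (δ - 1) y) := by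
  have hP : 0 < p ^ a := pow_pos (Fact.out : p.Prime).pos a
  set T : Module.End 𝕳 V := δ - 1 with hT
  have hTP : T ^ (p ^ a) = 0 := by
    rw [hT, sub_one_pow_eq_sub (k := k), C.δ_pow, sub_self]
  have hNm : T ^ (p ^ a - 1) = ∑ j ∈ Finset.range (p ^ a), δ ^ j := sub_one_pow_eq_sum (k := k) p a δ
  have H1 : ∀ x ∈ loc m V, T x = 0 → ∃ y ∈ loc m V, x = (T ^ (p ^ a - 1)) y := by
    intro x hx hx0
    rw [hNm]
    refine C.inv_eq_norm hx ?_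
    rw [hT, LinearMap.sub_apply, Module.End.one_apply, sub_eq_zero] at hx0
    exact hx0
  -- `ker T ^ j ⊆ im T ^ (P - j)`
  have key : ∀ j : ℕ, j ≤ p ^ a → ∀ x ∈ loc m V, (T ^ j) x = 0 →
      ∃ y ∈ loc m V, x = (T ^ (p ^ a - j)) y := by
    intro j
    induction j with
    | zero =>
      intro _ x _ hx0
      refine ⟨0, (loc m V).zero_mem, ?_⟩
      rw [map_zero]
      simpa using hx0
    | succ j ih =>
      intro hj x hx hx0
      rw [pow_succ, Module.End.mul_apply] at hx0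
      obtain ⟨v, hv, hTv⟩ := ih (by omega) (T x) (map_mem_loc T hx) hx0
      have e1 : p ^ a - j = (p ^ a - (j + 1)) + 1 := by omega
      rw [e1, pow_succ', Module.End.mul_apply] at hTv
      have h2 : T (x - (T ^ (p ^ a - (j + 1))) v) = 0 := by rw [map_sub, hTv, sub_self]
      obtain ⟨v', hv', h3⟩ := H1 _ ((loc m V).sub_mem hx (map_mem_loc _ hv)) h2
      have e2 : p ^ a - 1 = (p ^ a - (j + 1)) + j := by omega
      rw [e2, pow_add, Module.End.mul_apply] at h3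
      refine ⟨v + (T ^ j) v', (loc m V).add_mem hv (map_mem_loc _ hv'), ?_⟩
      rw [map_add, ← h3, add_sub_cancel]
  refine ⟨hTP, H1, fun x0 hx0 => C.n_surj hx0, fun x hx => ⟨fun h => ?_, ?_⟩⟩
  · have h1 : (T ^ (p ^ a - 1)) x = 0 := by rw [hNm, ← C.i_n, h, map_zero]
    obtain ⟨y, hy, hxy⟩ := key (p ^ a - 1) (by omega) x hx h1
    have e3 : p ^ a - (p ^ a - 1) = 1 := by omega
    rw [e3, pow_one] at hxy
    exact ⟨y, hy, hxy⟩
  · rintro ⟨y, -, rfl⟩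
    rw [hT, LinearMap.sub_apply, Module.End.one_apply, map_sub, C.n_δ, sub_self]

end Fermat.Agent.S43.Free
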