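/-
Row 37 (S43), block FREE (helper124).  ABSTRACT FREENESS, second form: the diamond operator is an
element `d` of the Hecke algebra `𝕳`, `d - 1 ∈ m`, of order dividing `p ^ a * h` on `V`, `p ∤ h`
(pure algebra, Mathlib only).
-/
import Fermat.Agent.S43.Free.Abs

set_option autoImplicit false
set_option linter.unusedSectionVars false

namespace Fermat.Agent.S43.Free

open Polynomial

variable {k 𝕳 : Type*} [Field k] [CommRing 𝕳] [Algebra k 𝕳]
variable {V V0 : Type*} [AddCommGroup V] [Module 𝕳 V] [AddCommGroup V0] [Module 𝕳 V0]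
  [Module k V] [IsScalarTower k 𝕳 V] [Module k V0] [IsScalarTower k 𝕳 V0]

/-- The hypotheses of the abstract freeness theorem (second form). -/
structure Cover2 (k : Type*) [Field k] {𝕳 : Type*} [CommRing 𝕳] [Algebra k 𝕳] (m : Ideal 𝕳)
    (P h : ℕ) (d : 𝕳) {V V0 : Type*} [AddCommGroup V] [Module 𝕳 V] [AddCommGroup V0] [Module 𝕳 V0]
    (i : V0 →ₗ[𝕳] V) (n : V →ₗ[𝕳] V0) : Prop where
  rat : IsRat k m
  d_mem : d - 1 ∈ m
  h_ne : (h : k) ≠ 0
  d_pow : ∀ x : V, d ^ (P * h) • x = x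
  d_V0 : ∀ y : V0, d • y = y
  i_n : ∀ x, i (n x) = (∑ j ∈ Finset.range (P * h), d ^ j) • x
  /-- an Eisenstein element kills `V^Δ / i V0` -/
  inv : ∃ e : 𝕳, e ∉ m ∧ ∀ x : V, d • x = x → ∃ x0, e • x = i x0
  /-- an Eisenstein element kills `V0 / n V` -/
  cok : ∃ e : 𝕳, e ∉ m ∧ ∀ x0, ∃ x, e • x0 = n x

theorem sub_one_pow_eq_sum' (p : ℕ) [Fact p.Prime] [CharP k p] (a : ℕ) (d : 𝕳) :
    (d - 1) ^ (p ^ a - 1) = ∑ j ∈ Finset.range (p ^ a), d ^ j := by
  have h := congrArg (aeval (R := k) d) (X_sub_one_pow_eq_geom_sum k p a)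
  simpa using h

theorem sub_one_pow_eq_sub' (p : ℕ) [Fact p.Prime] [CharP k p] (a : ℕ) (d : 𝕳) :
    (d - 1) ^ (p ^ a) = d ^ (p ^ a) - 1 := by
  have h0 : ((X : k[X]) - 1) ^ (p ^ a) = (X : k[X]) ^ (p ^ a) - 1 := by
    rw [sub_pow_char_pow, one_pow]
  have h := congrArg (aeval (R := k) d) h0
  simpa using h

/-- `Σ_{l<h} c ^ l ∉ m` if `c - 1 ∈ m` and `h ≠ 0` in `k`. -/
theorem IsRat.geom_sum_notMem {m : Ideal 𝕳} (hm : IsRat k m) {c : 𝕳} (hc : c - 1 ∈ m) {h : ℕ}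
    (hh : (h : k) ≠ 0) : ∑ l ∈ Finset.range h, c ^ l ∉ m := by
  intro hmem
  apply hm.algebraMap_notMem hh
  have h1 : ∀ l : ℕ, c ^ l - 1 ∈ m := by
    intro l
    obtain ⟨r, hr⟩ := sub_dvd_pow_sub_pow c 1 l
    rw [one_pow] at hr
    rw [hr]
    exact m.mul_mem_right _ hc
  have h2 : algebraMap k 𝕳 (h : k) = ∑ l ∈ Finset.range h, c ^ l -
      ∑ l ∈ Finset.range h, (c ^ l - 1) := by
    rw [Finset.sum_sub_distrib, Finset.sum_const, Finset.card_range, map_natCast]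
    simp
  rw [h2]
  exact m.sub_mem hmem (m.sum_mem fun l _ => h1 l)

namespace Cover2

variable {m : Ideal 𝕳} {P h : ℕ} {d : 𝕳} {i : V0 →ₗ[𝕳] V} {n : V →ₗ[𝕳] V0}

theorem pow_sub_one_mem (C : Cover2 k m P h d i n) (l : ℕ) : d ^ l - 1 ∈ m := by
  obtain ⟨r, hr⟩ := sub_dvd_pow_sub_pow d 1 l
  rw [one_pow] at hr
  rw [hr]
  exact m.mul_mem_right _ C.d_mem

/-- `d ^ P = 1` on the `m`-primary part. -/
theorem d_pow_P (C : Cover2 k m P h d i n) {x : V} (hx : x ∈ loc m V) : d ^ P • x = x := by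
  have hG := C.rat.geom_sum_notMem (C.pow_sub_one_mem P) C.h_ne
  have h1 : (∑ l ∈ Finset.range h, (d ^ P) ^ l) • (d ^ P • x - x) = 0 := by
    have e : (∑ l ∈ Finset.range h, (d ^ P) ^ l) * (d ^ P - 1) = d ^ (P * h) - 1 := by
      rw [geom_sum_mul, ← pow_mul]
    have e2 : d ^ P • x - x = (d ^ P - 1) • x := by rw [sub_smul, one_smul]
    rw [e2, ← mul_smul, e, sub_smul, one_smul, C.d_pow, sub_self]
  exact sub_eq_zero.1 (eq_zero_of_smul_eq_zero C.rat hG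
    ((loc m V).sub_mem ((loc m V).smul_mem _ hx) hx) h1)

/-- `Σ_{j < P h} d ^ j = h Σ_{j < P} d ^ j` on the `m`-primary part. -/
theorem sum_smul (C : Cover2 k m P h d i n) {x : V} (hx : x ∈ loc m V) :
    (∑ j ∈ Finset.range (P * h), d ^ j) • x =
      (algebraMap k 𝕳 (h : k) * ∑ j ∈ Finset.range P, d ^ j) • x := by
  have e : ∀ h' : ℕ, ∑ j ∈ Finset.range (P * h'), d ^ j =
      (∑ j ∈ Finset.range P, d ^ j) * ∑ l ∈ Finset.range h', (d ^ P) ^ l := by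
    intro h'
    rw [mul_comm P h']
    induction h' with
    | zero => simp
    | succ h' ih =>
      rw [Finset.sum_range_succ, mul_add, ← ih, Nat.succ_mul, Finset.sum_range_add, ← pow_mul,
        Finset.sum_mul]
      congr 1
      refine Finset.sum_congr rfl fun j _ => ?_
      rw [← pow_add, mul_comm P h', add_comm]
  have h1 : ∀ l : ℕ, (d ^ P) ^ l • x = x := by
    intro l
    induction l with
    | zero => rw [pow_zero, one_smul]
    | succ l ih => rw [pow_succ, mul_smul, C.d_pow_P hx, ih]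
  have h2 : (∑ l ∈ Finset.range h, (d ^ P) ^ l) • x = algebraMap k 𝕳 (h : k) • x := by
    rw [Finset.sum_smul, Finset.sum_congr rfl fun l _ => h1 l, Finset.sum_const,
      Finset.card_range, map_natCast, Nat.cast_smul_eq_nsmul]
  rw [e, mul_smul, h2, ← mul_smul, mul_comm]

include k in
/-- `π_*` is onto on the `m`-primary parts. -/
theorem n_surj [Module.Finite k V] (C : Cover2 k m P h d i n) {x0 : V0} (hx0 : x0 ∈ loc m V0) :
    ∃ x ∈ loc m V, n x = x0 := by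
  obtain ⟨e, he, hcok⟩ := C.cok
  obtain ⟨G, hG, hGV⟩ := exists_proj (V := V) C.rat
  obtain ⟨y0, -, hy0⟩ := exists_smul_eq C.rat (C.rat.mul_notMem hG he) hx0
  obtain ⟨x, hx⟩ := hcok y0
  exact ⟨G • x, hGV x, by rw [map_smul, ← hx, ← mul_smul, hy0]⟩

include k in
/-- `ker (d - 1) ⊆ im (Σ_{j<P} d ^ j)` on the `m`-primary part. -/
theorem inv_eq_norm [Module.Finite k V] [Module.Finite k V0] (C : Cover2 k m P h d i n) {x : V}
    (hx : x ∈ loc m V) (hδ : d • x = x) :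
    ∃ y ∈ loc m V, x = (∑ j ∈ Finset.range P, d ^ j) • y := by
  obtain ⟨e, he, hinv⟩ := C.inv
  obtain ⟨G, hG, hGV⟩ := exists_proj (V := V0) C.rat
  obtain ⟨x0, hx0⟩ := hinv x hδ
  obtain ⟨z, hz, hnz⟩ := C.n_surj (hGV x0)
  obtain ⟨y, hy, hyz⟩ := exists_smul_eq C.rat (C.rat.mul_notMem hG he) hz
  refine ⟨algebraMap k 𝕳 (h : k) • y, (loc m V).smul_mem _ hy, ?_⟩
  have h1 : (G * e) • x = (G * e) • (∑ j ∈ Finset.range P, d ^ j) • algebraMap k 𝕳 (h : k) • y := by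
    rw [mul_smul G e x, hx0, ← map_smul, ← hnz, C.i_n, C.sum_smul hz, ← hyz, ← mul_smul, ← mul_smul,
      ← mul_smul]
    congr 1
    ring
  have h2 : (G * e) • (x - (∑ j ∈ Finset.range P, d ^ j) • algebraMap k 𝕳 (h : k) • y) = 0 := by
    rw [smul_sub, ← h1, sub_self]
  have h3 : x - (∑ j ∈ Finset.range P, d ^ j) • algebraMap k 𝕳 (h : k) • y ∈ loc m V :=
    (loc m V).sub_mem hx ((loc m V).smul_mem _ ((loc m V).smul_mem _ hy))
  exact sub_eq_zero.1 (eq_zero_of_smul_eq_zero C.rat (C.rat.mul_notMem hG he) h3 h2)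

end Cover2

/-- **Abstract freeness** (second form). -/
theorem free_abs2 (p : ℕ) [Fact p.Prime] [CharP k p] (a h : ℕ) {m : Ideal 𝕳} {d : 𝕳}
    {i : V0 →ₗ[𝕳] V} {n : V →ₗ[𝕳] V0} [Module.Finite k V] [Module.Finite k V0]
    (C : Cover2 k m (p ^ a) h d i n) :
    (∀ x ∈ loc m V, (d - 1) ^ (p ^ a) • x = 0) ∧
    (∀ x ∈ loc m V, (d - 1) • x = 0 → ∃ y ∈ loc m V, x = (d - 1) ^ (p ^ a - 1) • y) ∧
    (∀ x0 ∈ loc m V0, ∃ x ∈ loc m V, n x = x0) ∧
    (∀ x ∈ loc m V, n x = 0 ↔ ∃ y ∈ loc m V, x = (d - 1) • y) := by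
  have hP : 0 < p ^ a := pow_pos (Fact.out : p.Prime).pos a
  set T : 𝕳 := d - 1 with hT
  have hTP : ∀ x ∈ loc m V, T ^ (p ^ a) • x = 0 := by
    intro x hx
    rw [hT, sub_one_pow_eq_sub' (k := k), sub_smul, one_smul, C.d_pow_P hx, sub_self]
  have hNm : T ^ (p ^ a - 1) = ∑ j ∈ Finset.range (p ^ a), d ^ j := sub_one_pow_eq_sum' (k := k) p a d
  have H1 : ∀ x ∈ loc m V, T • x = 0 → ∃ y ∈ loc m V, x = T ^ (p ^ a - 1) • y := by
    intro x hx hx0
    rw [hNm]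
    refine C.inv_eq_norm hx ?_
    rw [hT, sub_smul, one_smul, sub_eq_zero] at hx0
    exact hx0
  -- `ker T ^ j ⊆ im T ^ (P - j)`
  have key : ∀ j : ℕ, j ≤ p ^ a → ∀ x ∈ loc m V, T ^ j • x = 0 →
      ∃ y ∈ loc m V, x = T ^ (p ^ a - j) • y := by
    intro j
    induction j with
    | zero =>
      intro _ x _ hx0
      refine ⟨0, (loc m V).zero_mem, ?_⟩
      rw [smul_zero]
      simpa using hx0
    | succ j ih =>
      intro hj x hx hx0
      rw [pow_succ, mul_smul] at hx0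
      obtain ⟨v, hv, hTv⟩ := ih (by omega) (T • x) ((loc m V).smul_mem _ hx) hx0
      have e1 : p ^ a - j = (p ^ a - (j + 1)) + 1 := by omega
      rw [e1, pow_succ', mul_smul] at hTv
      have h2 : T • (x - T ^ (p ^ a - (j + 1)) • v) = 0 := by rw [smul_sub, hTv, sub_self]
      obtain ⟨v', hv', h3⟩ := H1 _ ((loc m V).sub_mem hx ((loc m V).smul_mem _ hv)) h2
      have e2 : p ^ a - 1 = (p ^ a - (j + 1)) + j := by omega
      rw [e2, pow_add, mul_smul] at h3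
      refine ⟨v + T ^ j • v', (loc m V).add_mem hv ((loc m V).smul_mem _ hv'), ?_⟩
      rw [smul_add, ← h3, add_sub_cancel]
  refine ⟨hTP, H1, fun x0 hx0 => C.n_surj hx0, fun x hx => ⟨fun hnx => ?_, ?_⟩⟩
  · have h1 : T ^ (p ^ a - 1) • x = 0 := by
      have h2 := C.sum_smul hx
      rw [← C.i_n, hnx, map_zero, mul_smul, ← hNm] at h2
      exact eq_zero_of_smul_eq_zero C.rat (C.rat.algebraMap_notMem C.h_ne)
        ((loc m V).smul_mem _ hx) h2.symm
    obtain ⟨y, hy, hxy⟩ := key (p ^ a - 1) (by omega) x hx h1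
    have e3 : p ^ a - (p ^ a - 1) = 1 := by omega
    rw [e3, pow_one] at hxy
    exact ⟨y, hy, hxy⟩
  · rintro ⟨y, -, rfl⟩
    rw [map_smul, hT, sub_smul, one_smul, C.d_V0, sub_self]

end Fermat.Agent.S43.Free
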