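/-
Row 37 (S43), block FREE (helper124).  LOCALISATION of a module over a commutative Hecke algebra `𝕳`
at a maximal ideal `m` with residue field `k` (pure algebra, Mathlib only).

* `loc m V`          : the `m`-primary part `{x | every μ ∈ m is nilpotent on x}`;
* `mem_loc_of_span`  : it is enough to test generators of `m`;
* `exists_smul_eq`, `eq_zero_of_smul_eq_zero` : an element `G ∉ m` is bijective on `loc m V`;
* `exists_proj`      : if `V` is finite dimensional there is `G ∉ m` with `G V ⊆ loc m V`.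
-/
import Mathlib

set_option autoImplicit false

namespace Fermat.Agent.S43.Free

variable {k 𝕳 : Type*} [Field k] [CommRing 𝕳] [Algebra k 𝕳]
variable {V V' : Type*} [AddCommGroup V] [Module 𝕳 V] [AddCommGroup V'] [Module 𝕳 V']

/-- The `m`-primary part of `V`. -/
def loc (m : Ideal 𝕳) (V : Type*) [AddCommGroup V] [Module 𝕳 V] : Submodule 𝕳 V where
  carrier := {x | ∀ μ ∈ m, ∃ N : ℕ, μ ^ N • x = 0}
  add_mem' := by
    intro x y hx hy μ hμ
    obtain ⟨N, hN⟩ := hx μ hμ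
    obtain ⟨N', hN'⟩ := hy μ hμ
    refine ⟨N + N', ?_⟩
    rw [smul_add, pow_add, mul_smul _ _ y, hN', smul_zero, add_zero, mul_comm, mul_smul, hN,
      smul_zero]
  zero_mem' := fun μ _ => ⟨0, smul_zero _⟩
  smul_mem' := by
    intro c x hx μ hμ
    obtain ⟨N, hN⟩ := hx μ hμ
    exact ⟨N, by rw [smul_comm, hN, smul_zero]⟩

theorem mem_loc {m : Ideal 𝕳} {x : V} : x ∈ loc m V ↔ ∀ μ ∈ m, ∃ N : ℕ, μ ^ N • x = 0 := Iff.rfl

theorem mem_loc_of_span {S : Set 𝕳} {x : V} (h : ∀ μ ∈ S, ∃ N : ℕ, μ ^ N • x = 0) :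
    x ∈ loc (Ideal.span S) V := by
  have h1 : Ideal.span S ≤ (Ideal.torsionOf 𝕳 V x).radical := by
    rw [Ideal.span_le]
    intro μ hμ
    obtain ⟨N, hN⟩ := h μ hμ
    exact ⟨N, (Ideal.mem_torsionOf_iff _ _).2 hN⟩
  intro μ hμ
  obtain ⟨N, hN⟩ := h1 hμ
  exact ⟨N, (Ideal.mem_torsionOf_iff _ _).1 hN⟩

theorem map_mem_loc {m : Ideal 𝕳} (f : V →ₗ[𝕳] V') {x : V} (hx : x ∈ loc m V) :
    f x ∈ loc m V' := by
  intro μ hμ
  obtain ⟨N, hN⟩ := hx μ hμ
  exact ⟨N, by rw [← map_smul, hN, map_zero]⟩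

/-- `m` is a maximal ideal with residue field `k`. -/
structure IsRat (k : Type*) [Field k] {𝕳 : Type*} [CommRing 𝕳] [Algebra k 𝕳] (m : Ideal 𝕳) :
    Prop where
  ne_top : m ≠ ⊤
  res : ∀ g : 𝕳, ∃ c : k, g - algebraMap k 𝕳 c ∈ m

theorem IsRat.exists_ne_zero {m : Ideal 𝕳} (hm : IsRat k m) {G : 𝕳} (hG : G ∉ m) :
    ∃ c : k, c ≠ 0 ∧ G - algebraMap k 𝕳 c ∈ m := by
  obtain ⟨c, hc⟩ := hm.res G
  refine ⟨c, ?_, hc⟩
  rintro rfl
  rw [map_zero, sub_zero] at hc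
  exact hG hc

theorem IsRat.algebraMap_notMem {m : Ideal 𝕳} (hm : IsRat k m) {c : k} (hc : c ≠ 0) :
    algebraMap k 𝕳 c ∉ m := by
  intro h
  apply hm.ne_top
  rw [Ideal.eq_top_iff_one]
  have := m.mul_mem_left (algebraMap k 𝕳 c⁻¹) h
  rwa [← map_mul, inv_mul_cancel₀ hc, map_one] at this

theorem IsRat.mul_notMem {m : Ideal 𝕳} (hm : IsRat k m) {G G' : 𝕳} (hG : G ∉ m) (hG' : G' ∉ m) :
    G * G' ∉ m := by
  obtain ⟨c, hc0, hc⟩ := hm.exists_ne_zero hG
  obtain ⟨c', hc0', hc'⟩ := hm.exists_ne_zero hG'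
  intro h
  apply hm.algebraMap_notMem (mul_ne_zero hc0 hc0')
  have e : algebraMap k 𝕳 (c * c') = G * G' - (G - algebraMap k 𝕳 c) * G' -
      algebraMap k 𝕳 c * (G' - algebraMap k 𝕳 c') := by
    rw [map_mul]; ring
  rw [e]
  exact m.sub_mem (m.sub_mem h (m.mul_mem_right _ hc)) (m.mul_mem_left _ hc')

/-- An element outside `m` is injective on the `m`-primary part. -/
theorem eq_zero_of_smul_eq_zero {m : Ideal 𝕳} (hm : IsRat k m) {G : 𝕳} (hG : G ∉ m) {x : V}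
    (hx : x ∈ loc m V) (h : G • x = 0) : x = 0 := by
  obtain ⟨c, hc0, hc⟩ := hm.exists_ne_zero hG
  obtain ⟨N, hN⟩ := hx _ hc
  -- `(G - c) x = - c x`
  have h1 : ∀ j : ℕ, (G - algebraMap k 𝕳 c) ^ j • x = (algebraMap k 𝕳 (-c)) ^ j • x := by
    intro j
    induction j with
    | zero => rw [pow_zero, pow_zero]
    | succ j ih =>
      rw [pow_succ, mul_smul, pow_succ, mul_smul, sub_smul, h, zero_sub, map_neg, neg_smul,
        smul_neg, smul_neg, smul_comm, ih, ← map_neg, smul_comm]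
  rw [h1, ← map_pow] at hN
  have h2 := congrArg (fun y => algebraMap k 𝕳 ((-c) ^ N)⁻¹ • y) hN
  simp only [smul_zero] at h2
  rwa [← mul_smul, ← map_mul, inv_mul_cancel₀ (pow_ne_zero _ (neg_ne_zero.2 hc0)), map_one,
    one_smul] at h2

/-- An element outside `m` is surjective on the `m`-primary part. -/
theorem exists_smul_eq {m : Ideal 𝕳} (hm : IsRat k m) {G : 𝕳} (hG : G ∉ m) {x : V}
    (hx : x ∈ loc m V) : ∃ y ∈ loc m V, G • y = x := by
  obtain ⟨c, hc0, hc⟩ := hm.exists_ne_zero hG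
  obtain ⟨N, hN⟩ := hx _ hc
  set μ : 𝕳 := G - algebraMap k 𝕳 c with hμ
  set γ : 𝕳 := algebraMap k 𝕳 c with hγ
  -- `(γ + μ) Σ_{j<N} (-μ)^j γ^(N-1-j) = γ^N - (-μ)^N`
  have hgeo : (γ - (-μ)) * ∑ j ∈ Finset.range N, γ ^ j * (-μ) ^ (N - 1 - j) = γ ^ N - (-μ) ^ N :=
    (Commute.all γ (-μ)).mul_geom_sum₂ N
  have hG' : G = γ - (-μ) := by rw [hμ]; ring
  refine ⟨algebraMap k 𝕳 (c ^ N)⁻¹ • (∑ j ∈ Finset.range N, γ ^ j * (-μ) ^ (N - 1 - j)) • x,
    (loc m V).smul_mem _ ((loc m V).smul_mem _ hx), ?_⟩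
  rw [smul_comm, ← mul_smul G, hG', hgeo, sub_smul, neg_pow, mul_smul, hN, smul_zero, sub_zero,
    ← mul_smul, hγ, ← map_pow, ← map_mul, inv_mul_cancel₀ (pow_ne_zero _ hc0), map_one, one_smul]

/-- If `V` is finite dimensional, some `G ∉ m` maps `V` into its `m`-primary part. -/
theorem exists_proj {m : Ideal 𝕳} (hm : IsRat k m) [Module k V] [IsScalarTower k 𝕳 V]
    [Module.Finite k V] : ∃ G : 𝕳, G ∉ m ∧ ∀ x : V, G • x ∈ loc m V := by
  classical
  let L : 𝕳 →ₐ[k] Module.End k V := Algebra.lsmul k k V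
  have hL : ∀ (G : 𝕳) (x : V), L G x = G • x := fun _ _ => rfl
  have hex : ∃ d : ℕ, ∃ G : 𝕳, G ∉ m ∧ Module.finrank k (LinearMap.range (L G)) = d :=
    ⟨_, 1, fun h => hm.ne_top ((Ideal.eq_top_iff_one _).2 h), rfl⟩
  obtain ⟨G, hG, hd⟩ := Nat.find_spec hex
  refine ⟨G, hG, fun x μ hμ => ?_⟩
  have hf0 : minpoly k (L μ) ≠ 0 := minpoly.ne_zero (Algebra.IsIntegral.isIntegral _)
  obtain ⟨g, hfg, hg⟩ := Polynomial.exists_eq_pow_rootMultiplicity_mul_and_not_dvd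
    (minpoly k (L μ)) hf0 0
  set s := Polynomial.rootMultiplicity 0 (minpoly k (L μ)) with hs
  have hg0 : g.eval 0 ≠ 0 := fun h => hg (Polynomial.dvd_iff_isRoot.2 h)
  have hgm : Polynomial.aeval μ g ∉ m := by
    intro h
    apply hm.algebraMap_notMem hg0
    obtain ⟨r, hr⟩ := Polynomial.X_sub_C_dvd_sub_C_eval (a := (0 : k)) (p := g)
    have h1 := congrArg (Polynomial.aeval μ) hr
    rw [map_sub, map_mul, map_sub, Polynomial.aeval_X, Polynomial.aeval_C, Polynomial.aeval_C,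
      map_zero, sub_zero] at h1
    have h2 : algebraMap k 𝕳 (g.eval 0) = Polynomial.aeval μ g - μ * Polynomial.aeval μ r := by
      rw [← h1]; ring
    rw [h2]
    exact m.sub_mem h (m.mul_mem_right _ hμ)
  have hG' : Polynomial.aeval μ g * G ∉ m := hm.mul_notMem hgm hG
  have hle : LinearMap.range (L (Polynomial.aeval μ g * G)) ≤ LinearMap.range (L G) := by
    rintro _ ⟨y, rfl⟩
    exact ⟨Polynomial.aeval μ g • y, by rw [hL, hL, mul_comm, mul_smul]⟩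
  have hfin : Module.finrank k (LinearMap.range (L G)) ≤
      Module.finrank k (LinearMap.range (L (Polynomial.aeval μ g * G))) := by
    rw [hd]
    exact Nat.find_min' hex ⟨_, hG', rfl⟩
  have heq := Submodule.eq_of_le_of_finrank_le hle hfin
  have hx : G • x ∈ LinearMap.range (L (Polynomial.aeval μ g * G)) := by
    rw [heq]
    exact ⟨x, rfl⟩
  obtain ⟨y, hy⟩ := hx
  refine ⟨s, ?_⟩
  rw [← hy, hL, ← mul_smul, ← mul_assoc]
  have h3 : μ ^ s * Polynomial.aeval μ g = Polynomial.aeval μ (minpoly k (L μ)) := by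
    rw [hfg, map_mul, map_pow, map_sub, Polynomial.aeval_X, Polynomial.aeval_C, map_zero, sub_zero]
  rw [h3, mul_smul, ← hL, ← Polynomial.aeval_algHom_apply, minpoly.aeval]
  rfl

end Fermat.Agent.S43.Free
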