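/-
Row 37 (S43), block FREE (helper148).  LOCALISATION, exponent `n = p ^ k`: `𝕳` ANY commutative ring, `m` a maximal ideal,
`V` a FINITE `𝕳`-module (no ground field).  Same `loc m V` as in `Free/Loc.lean`.  Mathlib only.

* `locN_eq_zero`, `locN_exists_smul_eq` : an element `G ∉ m` is bijective on `loc m V`;
* `locN_exists_proj`                    : if `V` is finite there is `G ∉ m` with `G V ⊆ loc m V`.
-/
import Fermat.Agent.S43.Free.Loc

set_option autoImplicit false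

namespace Fermat.Agent.S43.Free

variable {𝕳 : Type*} [CommRing 𝕳] {V : Type*} [AddCommGroup V] [Module 𝕳 V]

/-- An element outside `m` is injective on the `m`-primary part. -/
theorem locN_eq_zero {m : Ideal 𝕳} (hm : m.IsMaximal) {G : 𝕳} (hG : G ∉ m) {x : V}
    (hx : x ∈ loc m V) (h : G • x = 0) : x = 0 := by
  obtain ⟨H, μ, hμ, e⟩ := hm.exists_inv hG
  have h1 : μ • x = x := by
    have : (H * G + μ) • x = x := by rw [e, one_smul]
    rwa [add_smul, mul_smul, h, smul_zero, zero_add] at this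
  have h2 : ∀ N : ℕ, μ ^ N • x = x := by
    intro N
    induction N with
    | zero => rw [pow_zero, one_smul]
    | succ N ih => rw [pow_succ, mul_smul, h1, ih]
  obtain ⟨N, hN⟩ := hx μ hμ
  rw [← h2 N, hN]

/-- An element outside `m` is surjective on the `m`-primary part. -/
theorem locN_exists_smul_eq {m : Ideal 𝕳} (hm : m.IsMaximal) {G : 𝕳} (hG : G ∉ m) {x : V}
    (hx : x ∈ loc m V) : ∃ y ∈ loc m V, G • y = x := by
  obtain ⟨H, μ, hμ, e⟩ := hm.exists_inv hG
  obtain ⟨N, hN⟩ := hx μ hμ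
  refine ⟨(H * ∑ j ∈ Finset.range N, μ ^ j) • x, (loc m V).smul_mem _ hx, ?_⟩
  have e1 : G * (H * ∑ j ∈ Finset.range N, μ ^ j) = 1 - μ ^ N := by
    have e2 : G * H = 1 - μ := by rw [← e]; ring
    rw [← mul_assoc, e2, mul_neg_geom_sum]
  rw [← mul_smul, e1, sub_smul, one_smul, hN, sub_zero]

theorem locN_mul_notMem {m : Ideal 𝕳} (hm : m.IsMaximal) {G G' : 𝕳} (hG : G ∉ m) (hG' : G' ∉ m) :
    G * G' ∉ m := fun h => (hm.isPrime.mem_or_mem h).elim hG hG'

/-- If `V` is finite, some `G ∉ m` maps `V` into its `m`-primary part. -/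
theorem locN_exists_proj {m : Ideal 𝕳} (hm : m.IsMaximal) [Finite V] :
    ∃ G : 𝕳, G ∉ m ∧ ∀ x : V, G • x ∈ loc m V := by
  classical
  have h1m : (1 : 𝕳) ∉ m := fun h => hm.ne_top ((Ideal.eq_top_iff_one _).2 h)
  have hex : ∃ d : ℕ, ∃ G : 𝕳, G ∉ m ∧ (Set.range fun x : V => G • x).ncard = d := ⟨_, 1, h1m, rfl⟩
  obtain ⟨G, hG, hd⟩ := Nat.find_spec hex
  refine ⟨G, hG, fun x μ hμ => ?_⟩
  -- `μ ^ s = μ ^ s'` on `V`
  obtain ⟨s, s', hss, hfun⟩ : ∃ s s' : ℕ, s < s' ∧ (fun v : V => μ ^ s • v) = fun v : V => μ ^ s' • v := by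
    obtain ⟨a, b, hab, hf⟩ := Finite.exists_ne_map_eq_of_infinite fun j : ℕ => fun v : V => μ ^ j • v
    rcases lt_or_gt_of_ne hab with h | h
    · exact ⟨a, b, h, hf⟩
    · exact ⟨b, a, h, hf.symm⟩
  set g : 𝕳 := 1 - μ ^ (s' - s) with hg
  have hgm : g ∉ m := by
    intro h
    apply h1m
    have h2 : μ ^ (s' - s) ∈ m := Ideal.pow_mem_of_mem m hμ _ (by omega)
    have : (1 : 𝕳) = g + μ ^ (s' - s) := by rw [hg]; ring
    rw [this]
    exact m.add_mem h h2
  have hkill : ∀ v : V, (μ ^ s * g) • v = 0 := by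
    intro v
    have e : μ ^ s * g = μ ^ s - μ ^ s' := by
      rw [hg, mul_sub, mul_one, ← pow_add]
      congr 2
      omega
    rw [e, sub_smul, sub_eq_zero]
    exact congrFun hfun v
  have hG' : g * G ∉ m := locN_mul_notMem hm hgm hG
  have hsub : (Set.range fun x : V => (g * G) • x) ⊆ Set.range fun x : V => G • x := by
    rintro _ ⟨y, rfl⟩
    exact ⟨g • y, by simp only [← mul_smul, mul_comm]⟩
  have hle : (Set.range fun x : V => G • x).ncard ≤ (Set.range fun x : V => (g * G) • x).ncard := by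
    rw [hd]
    exact Nat.find_min' hex ⟨_, hG', rfl⟩
  have heq := Set.eq_of_subset_of_ncard_le hsub hle (Set.toFinite _)
  have hx : G • x ∈ Set.range fun x : V => (g * G) • x := by
    rw [heq]
    exact ⟨x, rfl⟩
  obtain ⟨y, hy⟩ := hx
  refine ⟨s, ?_⟩
  rw [← hy]
  show μ ^ s • (g * G) • y = 0
  rw [mul_smul, ← mul_smul, hkill]

end Fermat.Agent.S43.Free
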