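/-
Row 37 (S43), block FREE (helper148).  ABSTRACT "FREE" AT EXPONENT `n = p ^ k` (finite modules over any commutative ring `𝕳`,
`m` a maximal ideal; Mathlib only).  This is what COUNT consumes.

`V = J_1[n]`, `V0 = J_0[n]`, `d ∈ 𝕳` the diamond generator, `d - 1 ∈ m`, of order dividing `P * h` on `V`, `h ∉ m`;
`i = π^*`, `n = π_*`, `i n = Σ_{j < P h} d ^ j`.  If Eisenstein elements (`∉ m`) kill `ker i`, `V^d / i V0`, `V0 / n V`, then on the
`m`-primary parts: `d ^ P = 1`, `i` is injective, `n` is onto, `ker (d - 1) = i (loc V0)`, `ker n = (d - 1) (loc V)`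
(Herbrand quotient of a finite module), `i n = h Σ_{j < P} d ^ j`.
-/
import Fermat.Agent.S43.Free.LocN

set_option autoImplicit false

namespace Fermat.Agent.S43.Free

/-- Herbrand: on a finite abelian group, `ker f = im g` and `g f = 0` imply `ker g = im f`. -/
theorem exists_of_ker_eq_range {L : Type*} [AddCommGroup L] [Finite L] (f g : L →+ L)
    (h1 : ∀ x, f x = 0 → ∃ y, g y = x) (h1' : ∀ y, f (g y) = 0) (h2 : ∀ x, g (f x) = 0) (x : L)
    (hx : g x = 0) : ∃ y, f y = x := by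
  have hk : f.ker = g.range := by
    ext z
    constructor
    · intro hz
      obtain ⟨y, hy⟩ := h1 z hz
      exact ⟨y, hy⟩
    · rintro ⟨y, rfl⟩
      exact h1' y
  have hle : f.range ≤ g.ker := by
    rintro _ ⟨y, rfl⟩
    exact h2 y
  have c1 : Nat.card f.ker * Nat.card f.range = Nat.card L := by
    have := f.ker.card_mul_index
    rwa [AddSubgroup.index_ker] at this
  have c2 : Nat.card g.ker * Nat.card g.range = Nat.card L := by
    have := g.ker.card_mul_index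
    rwa [AddSubgroup.index_ker] at this
  have hpos : 0 < Nat.card g.range := Nat.card_pos
  have c3 : Nat.card g.ker = Nat.card f.range := by
    rw [hk, ← c2, mul_comm] at c1
    exact (Nat.eq_of_mul_eq_mul_right hpos c1).symm
  have heq : f.range = g.ker := AddSubgroup.eq_of_le_of_card_ge hle c3.le
  have : x ∈ f.range := by rw [heq]; exact hx
  exact this

variable {𝕳 : Type*} [CommRing 𝕳]
variable {V V0 : Type*} [AddCommGroup V] [Module 𝕳 V] [AddCommGroup V0] [Module 𝕳 V0]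

/-- The hypotheses. -/
structure CoverN (m : Ideal 𝕳) (P h : ℕ) (d : 𝕳) (i : V0 →ₗ[𝕳] V) (n : V →ₗ[𝕳] V0) : Prop where
  max : m.IsMaximal
  d_mem : d - 1 ∈ m
  h_ne : (h : 𝕳) ∉ m
  d_pow : ∀ x : V, d ^ (P * h) • x = x
  d_V0 : ∀ y : V0, d • y = y
  i_n : ∀ x, i (n x) = (∑ j ∈ Finset.range (P * h), d ^ j) • x
  /-- an Eisenstein element kills `ker i` -/
  ker : ∃ e : 𝕳, e ∉ m ∧ ∀ x0 : V0, i x0 = 0 → e • x0 = 0
  /-- an Eisenstein element kills `V^d / i V0` -/
  inv : ∃ e : 𝕳, e ∉ m ∧ ∀ x : V, d • x = x → ∃ x0, e • x = i x0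
  /-- an Eisenstein element kills `V0 / n V` -/
  cok : ∃ e : 𝕳, e ∉ m ∧ ∀ x0, ∃ x, e • x0 = n x

namespace CoverN

variable {m : Ideal 𝕳} {P h : ℕ} {d : 𝕳} {i : V0 →ₗ[𝕳] V} {n : V →ₗ[𝕳] V0}

theorem pow_sub_one_mem (C : CoverN m P h d i n) (l : ℕ) : d ^ l - 1 ∈ m := by
  obtain ⟨r, hr⟩ := sub_dvd_pow_sub_pow d 1 l
  rw [one_pow] at hr
  rw [hr]
  exact m.mul_mem_right _ C.d_mem

theorem geom_sum_notMem (C : CoverN m P h d i n) {c : 𝕳} (hc : c - 1 ∈ m) :
    ∑ l ∈ Finset.range h, c ^ l ∉ m := by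
  intro hmem
  apply C.h_ne
  have h1 : ∀ l : ℕ, c ^ l - 1 ∈ m := by
    intro l
    obtain ⟨r, hr⟩ := sub_dvd_pow_sub_pow c 1 l
    rw [one_pow] at hr
    rw [hr]
    exact m.mul_mem_right _ hc
  have h2 : (h : 𝕳) = ∑ l ∈ Finset.range h, c ^ l - ∑ l ∈ Finset.range h, (c ^ l - 1) := by
    rw [Finset.sum_sub_distrib, Finset.sum_const, Finset.card_range]
    simp
  rw [h2]
  exact m.sub_mem hmem (m.sum_mem fun l _ => h1 l)

/-- `d ^ P = 1` on the `m`-primary part. -/
theorem d_pow_P (C : CoverN m P h d i n) {x : V} (hx : x ∈ loc m V) : d ^ P • x = x := by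
  have hG := C.geom_sum_notMem (C.pow_sub_one_mem P)
  have h1 : (∑ l ∈ Finset.range h, (d ^ P) ^ l) • (d ^ P • x - x) = 0 := by
    have e : (∑ l ∈ Finset.range h, (d ^ P) ^ l) * (d ^ P - 1) = d ^ (P * h) - 1 := by
      rw [geom_sum_mul, ← pow_mul]
    have e2 : d ^ P • x - x = (d ^ P - 1) • x := by rw [sub_smul, one_smul]
    rw [e2, ← mul_smul, e, sub_smul, one_smul, C.d_pow, sub_self]
  exact sub_eq_zero.1 (locN_eq_zero C.max hG
    ((loc m V).sub_mem ((loc m V).smul_mem _ hx) hx) h1)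

/-- `Σ_{j < P h} d ^ j = h Σ_{j < P} d ^ j` on the `m`-primary part. -/
theorem sum_smul (C : CoverN m P h d i n) {x : V} (hx : x ∈ loc m V) :
    (∑ j ∈ Finset.range (P * h), d ^ j) • x = ((h : 𝕳) * ∑ j ∈ Finset.range P, d ^ j) • x := by
  have e : ∀ h' : ℕ, ∑ j ∈ Finset.range (P * h'), d ^ j =
      (∑ j ∈ Finset.range P, d ^ j) * ∑ l ∈ Finset.range h', (d ^ P) ^ l := by
    intro h'
    rw [mul_comm P h']
    induction h' with
    | zero => simp
    | succ h' ih =>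
      rw [Finset.sum_range_succ, mul_add, ← ih, Nat.succ_mul, Finset.sum_range_add, ← pow_mul,
        Finset.sum_mul]
      congr 1
      refine Finset.sum_congr rfl fun j _ => ?_
      rw [← pow_add, mul_comm P h', add_comm]
  have h1 : ∀ l : ℕ, (d ^ P) ^ l • x = x := by
    intro l
    induction l with
    | zero => rw [pow_zero, one_smul]
    | succ l ih => rw [pow_succ, mul_smul, C.d_pow_P hx, ih]
  have h2 : (∑ l ∈ Finset.range h, (d ^ P) ^ l) • x = (h : 𝕳) • x := by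
    rw [Finset.sum_smul, Finset.sum_congr rfl fun l _ => h1 l, Finset.sum_const,
      Finset.card_range, Nat.cast_smul_eq_nsmul]
  rw [e, mul_smul, h2, ← mul_smul, mul_comm]

/-- `π^*` is injective on the `m`-primary part. -/
theorem i_inj (C : CoverN m P h d i n) {x0 : V0} (hx0 : x0 ∈ loc m V0) (h0 : i x0 = 0) : x0 = 0 := by
  obtain ⟨e, he, hker⟩ := C.ker
  exact locN_eq_zero C.max he hx0 (hker x0 h0)

/-- `π_*` is onto on the `m`-primary parts. -/
theorem n_surj [Finite V] (C : CoverN m P h d i n) {x0 : V0} (hx0 : x0 ∈ loc m V0) :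
    ∃ x ∈ loc m V, n x = x0 := by
  obtain ⟨e, he, hcok⟩ := C.cok
  obtain ⟨G, hG, hGV⟩ := locN_exists_proj (V := V) C.max
  obtain ⟨y0, -, hy0⟩ := locN_exists_smul_eq C.max (locN_mul_notMem C.max hG he) hx0
  obtain ⟨x, hx⟩ := hcok y0
  exact ⟨G • x, hGV x, by rw [map_smul, ← hx, ← mul_smul, hy0]⟩

/-- `ker (d - 1) = π^* (loc V0)` on the `m`-primary part. -/
theorem inv_eq [Finite V0] (C : CoverN m P h d i n) {x : V} (hx : x ∈ loc m V) (hδ : d • x = x) :
    ∃ y0 ∈ loc m V0, i y0 = x := by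
  obtain ⟨e, he, hinv⟩ := C.inv
  obtain ⟨G, hG, hGV⟩ := locN_exists_proj (V := V0) C.max
  obtain ⟨x0, hx0⟩ := hinv x hδ
  obtain ⟨y0, hy0, hy⟩ := locN_exists_smul_eq C.max (locN_mul_notMem C.max hG he) (hGV x0)
  refine ⟨y0, hy0, ?_⟩
  have h2 : (G * e) • (i y0 - x) = 0 := by
    rw [smul_sub, ← map_smul, hy, map_smul, ← hx0, ← mul_smul, sub_self]
  exact sub_eq_zero.1 (locN_eq_zero C.max (locN_mul_notMem C.max hG he)
    ((loc m V).sub_mem (map_mem_loc i hy0) hx) h2)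

/-- `ker (d - 1) = im (Σ_{j<P} d ^ j)` on the `m`-primary part. -/
theorem inv_eq_norm [Finite V] [Finite V0] (C : CoverN m P h d i n) {x : V} (hx : x ∈ loc m V)
    (hδ : d • x = x) : ∃ y ∈ loc m V, x = (∑ j ∈ Finset.range P, d ^ j) • y := by
  obtain ⟨y0, hy0, rfl⟩ := C.inv_eq hx hδ
  obtain ⟨z, hz, rfl⟩ := C.n_surj hy0
  refine ⟨(h : 𝕳) • z, (loc m V).smul_mem _ hz, ?_⟩
  rw [C.i_n, C.sum_smul hz, ← mul_smul, mul_comm]

/-- `ker π_* = (d - 1) (loc V)` on the `m`-primary part. -/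
theorem ker_n [Finite V] [Finite V0] (C : CoverN m P h d i n) {x : V} (hx : x ∈ loc m V) :
    n x = 0 ↔ ∃ y ∈ loc m V, x = d • y - y := by
  constructor
  · intro h0
    -- `Nm x = 0`
    have hNm : (∑ j ∈ Finset.range P, d ^ j) • x = 0 := by
      have h2 := C.sum_smul hx
      rw [← C.i_n, h0, map_zero, mul_smul] at h2
      exact locN_eq_zero C.max C.h_ne ((loc m V).smul_mem _ hx) h2.symm
    let f : loc m V →+ loc m V := (LinearMap.lsmul 𝕳 (loc m V) (d - 1)).toAddMonoidHom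
    let g : loc m V →+ loc m V :=
      (LinearMap.lsmul 𝕳 (loc m V) (∑ j ∈ Finset.range P, d ^ j)).toAddMonoidHom
    have hf : ∀ z : loc m V, f z = (d - 1) • z := fun _ => rfl
    have hg : ∀ z : loc m V, g z = (∑ j ∈ Finset.range P, d ^ j) • z := fun _ => rfl
    have hmul : ∀ z : loc m V, ((d - 1) * ∑ j ∈ Finset.range P, d ^ j) • z = 0 := by
      intro z
      rw [mul_geom_sum, sub_smul, one_smul, sub_eq_zero]
      exact Subtype.ext (C.d_pow_P z.2)
    obtain ⟨y, hy⟩ := exists_of_ker_eq_range f g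
      (by
        intro z hz
        rw [hf, sub_smul, one_smul, sub_eq_zero] at hz
        obtain ⟨y, hy, hzy⟩ := C.inv_eq_norm z.2 (congrArg Subtype.val hz)
        exact ⟨⟨y, hy⟩, Subtype.ext hzy.symm⟩)
      (by
        intro y
        rw [hf, hg, ← mul_smul, hmul])
      (by
        intro y
        rw [hf, hg, ← mul_smul, mul_comm, hmul])
      ⟨x, hx⟩ (Subtype.ext hNm)
    refine ⟨y, y.2, ?_⟩
    have := congrArg Subtype.val hy
    rw [hf] at this
    rw [← sub_eq_zero]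
    have e : ((((d - 1) • y : loc m V)) : V) = d • (y : V) - (y : V) := by
      rw [Submodule.coe_smul, sub_smul, one_smul]
    rw [← e, this]
    exact sub_self _
  · rintro ⟨y, -, rfl⟩
    rw [map_sub, map_smul, C.d_V0, sub_self]

end CoverN

end Fermat.Agent.S43.Free
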