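/-
Row 37 (S43), block FREE, leaf KERUP.  `ker π^*` is Eisenstein.  Owner: helper168.
PROOF.  `x = cls u₀`, `upW x = 0`: `algebraMap u₀ = g ^ n`, `g : L1ˣ` (`cls_eq_zero_iff`, `mem_pows`).
`(D g / g) ^ n = 1`, so `D g = ζ g` with `ζ` a constant (an `n`-th root of unity of `L1` is the image of one of `ℚ̄`:
`X ^ n - 1` splits in `ℚ̄`).  `D (τ1 g) = τ1 (D g) = τ1 (ζ) τ1 g = ζ ^ c τ1 g`, `D (g ^ c) = ζ ^ c g ^ c`: `τ1 g / g ^ c` is
fixed by `D`, `= algebraMap s` (`C.fixed`).  `algebraMap (τ0 u₀) = τ1 (g ^ n) = (g ^ c algebraMap s) ^ n = algebraMap (u₀ ^ c s ^ n)`.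
-/
import Fermat.Agent.S43.Free.Contract

set_option autoImplicit false

namespace Fermat.Agent.S43.Free

open AlgebraicCurve Fermat.Agent.S24 Fermat.Agent.S24.FF Fermat.Agent.S27 Fermat.Agent.S48.BB.M

variable {L0 L1 : Type} [Field L0] [Field L1] [Algebra Kbar L0] [Algebra Kbar L1]
  [Algebra L0 L1] [IsScalarTower Kbar L0 L1] [IsFF1 Kbar L1] [NonConst Kbar L0]

/-- roots of unity are constants -/
theorem exists_const_of_pow_eq_one {L : Type} [Field L] [Algebra Kbar L] {n : ℕ} (hn : 0 < n)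
    (z : Lˣ) (hz : z ^ n = 1) : ∃ a : Kbarˣ, a ^ n = 1 ∧ constU L a = z := by
  have hz' : (z : L) ^ n = 1 := by
    rw [← Units.val_pow_eq_pow_val, hz, Units.val_one]
  have hint : IsIntegral Kbar (z : L) := by
    refine ⟨Polynomial.X ^ n - Polynomial.C 1, Polynomial.monic_X_pow_sub_C 1 hn.ne', ?_⟩
    rw [Polynomial.eval₂_sub, Polynomial.eval₂_pow, Polynomial.eval₂_X, Polynomial.eval₂_C, hz',
      map_one, sub_self]
  have hdeg := IsAlgClosed.degree_eq_one_of_irreducible Kbar (minpoly.irreducible hint)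
  obtain ⟨a, ha⟩ := minpoly.mem_range_of_degree_eq_one Kbar (z : L) hdeg
  have ha0 : a ≠ 0 := by
    rintro rfl
    rw [map_zero] at ha
    exact z.ne_zero ha.symm
  have han : a ^ n = 1 := by
    apply (algebraMap Kbar L).injective
    rw [map_pow, ha, hz', map_one]
  refine ⟨Units.mk0 a ha0, Units.ext ?_, Units.ext ?_⟩
  · rw [Units.val_pow_eq_pow_val, Units.val_mk0, han, Units.val_one]
  · rw [coe_constU, Units.val_mk0, ha]

omit [IsFF1 Kbar L1] [NonConst Kbar L0] in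
theorem KerUp.upU_injective : Function.Injective (upU L0 L1) := by
  intro a b h
  apply Units.ext
  apply (algebraMap L0 L1).injective
  rw [← coe_upU, ← coe_upU, h]

theorem kerUp {C : Cyc L0 L1} {n c : ℕ} (E : EisOp C n c) (hn : 0 < n) (x : W L0 n)
    (hx : upW L0 L1 n x = 0) : E.t0 x = c • x := by
  obtain ⟨u₀, rfl⟩ := S48.BB.M.cls_surjective x
  rw [upW_cls, S48.BB.M.cls_eq_zero_iff] at hx
  obtain ⟨g, hg⟩ := mem_pows.mp hx
  have hg : g ^ n = upU L0 L1 (u₀ : L0ˣ) := hg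
  -- `D` fixes the image of `L0`
  have hDup : ∀ v : L0ˣ, auU C.D (upU L0 L1 v) = upU L0 L1 v := by
    intro v
    apply Units.ext
    rw [coe_auU, coe_upU, C.D_base]
  -- `D g = ζ g`
  have hz : (auU C.D g * g⁻¹) ^ n = 1 := by
    rw [mul_pow, inv_pow, ← map_pow, hg, hDup, mul_inv_cancel]
  obtain ⟨a, -, ha⟩ := exists_const_of_pow_eq_one hn _ hz
  have hDg : auU C.D g = constU L1 a * g := by
    rw [ha, inv_mul_cancel_right]
  -- `τ1 g / g ^ c` is fixed by `D`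
  have hD1 : auU C.D (E.τ1 g) = constU L1 (a ^ c) * E.τ1 g := by
    rw [← E.comm_D, hDg, map_mul, E.const]
  have hD2 : auU C.D (g ^ c) = constU L1 (a ^ c) * g ^ c := by
    rw [map_pow, hDg, mul_pow, map_pow]
  have hfix : auU C.D (E.τ1 g * (g ^ c)⁻¹) = E.τ1 g * (g ^ c)⁻¹ := by
    rw [map_mul, map_inv, hD1, hD2, mul_inv, mul_mul_mul_comm, mul_inv_cancel, one_mul]
  obtain ⟨s0, hs0⟩ := C.fixed ((E.τ1 g * (g ^ c)⁻¹ : L1ˣ) : L1) (by rw [← coe_auU, hfix])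
  have hs00 : s0 ≠ 0 := by
    rintro rfl
    rw [map_zero] at hs0
    exact (E.τ1 g * (g ^ c)⁻¹ : L1ˣ).ne_zero hs0.symm
  have hs : upU L0 L1 (Units.mk0 s0 hs00) = E.τ1 g * (g ^ c)⁻¹ := by
    apply Units.ext
    rw [coe_upU, Units.val_mk0, hs0]
  have hτg : E.τ1 g = upU L0 L1 (Units.mk0 s0 hs00) * g ^ c := by
    rw [hs, inv_mul_cancel_right]
  -- the identity in `L0`
  have key : E.τ0 (u₀ : L0ˣ) = Units.mk0 s0 hs00 ^ n * (u₀ : L0ˣ) ^ c := by
    apply KerUp.upU_injective (L1 := L1)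
    rw [← E.comm_up, ← hg, map_pow, hτg, mul_pow, map_mul, map_pow, map_pow, ← hg, ← pow_mul,
      ← pow_mul, mul_comm c n]
  -- conclusion
  have h1 : E.t0 (cls u₀) = cls (⟨E.τ0 (u₀ : L0ˣ), E.kum0 _ u₀.2⟩ : kum L0 n) :=
    mapW_cls E.τ0 E.kum0 u₀
  rw [h1, ← S48.BB.M.cls_pow, ← sub_eq_zero, sub_eq_add_neg, ← S48.BB.M.cls_inv,
    ← S48.BB.M.cls_mul, S48.BB.M.cls_eq_zero_iff]
  refine mem_pows.mpr ⟨Units.mk0 s0 hs00, ?_⟩
  show Units.mk0 s0 hs00 ^ n = E.τ0 (u₀ : L0ˣ) * ((u₀ : L0ˣ) ^ c)⁻¹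
  rw [key, mul_inv_cancel_right]

end Fermat.Agent.S43.Free
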