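/-
Row 37 (S43), block FREE, leaf COKER.  `coker π_*` is Eisenstein.
PROOF.  `Free.coker_abs` (`Free/Dual.lean`) with `e = weilW n` on `W L0 n`, `e' = weilW n` on `W L1 n` (`isPerf_weilW`), `pb = upW`,
`nm = dnW`, `adj = weilW_adj`, `t = t' = E.t0 - c • id` (`tadj`: `hadj`, `weilW_sub_left/right`, `weilW_nsmul_left/right`),
`tker = kerUp`; `Finite (W L0 n)` is `finite_W`.
-/
import Fermat.Agent.S43.Free.WeilAdj
import Fermat.Agent.S43.Free.KerUp

set_option autoImplicit false

namespace Fermat.Agent.S43.Free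

open AlgebraicCurve Fermat.Agent.S24 Fermat.Agent.S24.FF Fermat.Agent.S27 Fermat.Agent.S48.BB.M

variable {L0 L1 : Type} [Field L0] [Field L1] [Algebra Kbar L0] [Algebra Kbar L1]
  [Algebra L0 L1] [IsScalarTower Kbar L0 L1] [Module.Finite L0 L1]
  [IsFF1 Kbar L0] [IsFF1 Kbar L1] [NonConst Kbar L0] [NonConst Kbar L1]

theorem Coker_exists_sub {G : Type*} [CommGroup G] (f : Additive G →+ Additive G) (c : ℕ) :
    ∃ t : Additive G →+ Additive G, ∀ x, t x = f x - c • x :=
  ⟨f - nsmulAddMonoidHom c, fun _ => rfl⟩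

theorem Coker_sub_self {G : Type*} [CommGroup G] (x : Additive G) : x - x = 0 := sub_self x

theorem coker {C : Cyc L0 L1} {n c : ℕ} (E : EisOp C n c) (hn : 0 < n)
    (hadj : ∀ x y : W L0 n, weilW n (E.t0 x) y = weilW n x (E.t0 y)) (y : W L0 n) :
    ∃ x : W L1 n, dnW L0 L1 n x = E.t0 y - c • y := by
  have : Finite (W L0 n) := finite_W hn
  obtain ⟨t, htx'⟩ := Coker_exists_sub (G := Wm L0 n) E.t0 c
  have htx : ∀ x, t x = E.t0 x - c • x := fun x => htx' x
  obtain ⟨x, hx⟩ := coker_abs (isPerf_weilW (L := L0) hn) (isPerf_weilW (L := L1) hn)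
    (upW L0 L1 n) (dnW L0 L1 n) (fun x y => weilW_adj hn x y) t t
    (fun x y => by
      rw [htx, htx, weilW_sub_left hn, weilW_sub_right hn, weilW_nsmul_left hn,
        weilW_nsmul_right hn, hadj])
    (fun z hz => by
      have h1 : t z = E.t0 z - E.t0 z := by
        rw [htx]
        congr 1
        exact (kerUp E hn z hz).symm
      rw [h1]
      exact Coker_sub_self (G := Wm L0 n) (E.t0 z)) y
  exact ⟨x, by rw [← hx, htx]⟩

end Fermat.Agent.S43.Free
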