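/-
Row 37 (S43), block FREE, leaf GALCYC.  Galois theory of a cyclic covering (Mathlib + `Free/Contract.lean`).
PROOF.  `g : L1 ≃ₐ[L0] L1` := `C.D` (it is `L0`-linear by `D_base`).  `fixedField (zpowers g) = ⊥` by `fixed`, so
`IsGalois L0 L1` (`IsGalois.of_fixedField_eq_bot`), `zpowers g = ⊤` (`IntermediateField.fixingSubgroup_fixedField`),
`Algebra.norm_eq_prod_automorphisms`, reindex the cyclic group by `Finset.range (orderOf g)`, `orderOf g = orderOf C.D`;
Hilbert 90 is `groupCohomology.exists_div_of_norm_eq_one`.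
-/
import Fermat.Agent.S43.Free.Contract

set_option autoImplicit false

namespace Fermat.Agent.S43.Free

open AlgebraicCurve Fermat.Agent.S24 Fermat.Agent.S48.BB.M

section Abs

variable {Kb L0 L1 : Type} [Field Kb] [Field L0] [Field L1] [Algebra Kb L1] [Algebra L0 L1]

/-- `D` as an `L0`-automorphism -/
noncomputable def galCycG (D : L1 ≃ₐ[Kb] L1)
    (hb : ∀ x : L0, D (algebraMap L0 L1 x) = algebraMap L0 L1 x) : L1 ≃ₐ[L0] L1 :=
  AlgEquiv.ofRingEquiv (f := D.toRingEquiv) hb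

theorem galCycG_pow (D : L1 ≃ₐ[Kb] L1)
    (hb : ∀ x : L0, D (algebraMap L0 L1 x) = algebraMap L0 L1 x) (j : ℕ) (y : L1) :
    (galCycG D hb ^ j) y = (D ^ j) y := by
  induction j generalizing y with
  | zero => rfl
  | succ j ih =>
    rw [pow_succ, pow_succ, AlgEquiv.mul_apply, AlgEquiv.mul_apply, ih]
    rfl

theorem galCycG_orderOf (D : L1 ≃ₐ[Kb] L1)
    (hb : ∀ x : L0, D (algebraMap L0 L1 x) = algebraMap L0 L1 x) :
    orderOf (galCycG D hb) = orderOf D := by
  rw [orderOf_eq_orderOf_iff]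
  intro n
  constructor
  · intro h
    ext y
    rw [← galCycG_pow D hb, h]
    rfl
  · intro h
    ext y
    rw [galCycG_pow D hb, h]
    rfl

theorem galCycG_fixedField (D : L1 ≃ₐ[Kb] L1)
    (hb : ∀ x : L0, D (algebraMap L0 L1 x) = algebraMap L0 L1 x)
    (hf : ∀ y : L1, D y = y → ∃ x : L0, algebraMap L0 L1 x = y) :
    IntermediateField.fixedField (Subgroup.zpowers (galCycG D hb)) = ⊥ := by
  rw [eq_bot_iff]
  intro y hy
  rw [IntermediateField.mem_fixedField_iff] at hy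
  have h1 : D y = y := hy _ (Subgroup.mem_zpowers _)
  obtain ⟨x, hx⟩ := hf y h1
  rw [IntermediateField.mem_bot]
  exact ⟨x, hx⟩

variable [Module.Finite L0 L1]

theorem galCycG_isGalois (D : L1 ≃ₐ[Kb] L1)
    (hb : ∀ x : L0, D (algebraMap L0 L1 x) = algebraMap L0 L1 x)
    (hf : ∀ y : L1, D y = y → ∃ x : L0, algebraMap L0 L1 x = y) : IsGalois L0 L1 := by
  apply IsGalois.of_fixedField_eq_bot
  rw [eq_bot_iff, ← galCycG_fixedField D hb hf]
  intro y hy
  rw [IntermediateField.mem_fixedField_iff] at hy ⊢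
  exact fun f _ => hy f (Subgroup.mem_top _)

theorem galCycG_zpowers (D : L1 ≃ₐ[Kb] L1)
    (hb : ∀ x : L0, D (algebraMap L0 L1 x) = algebraMap L0 L1 x)
    (hf : ∀ y : L1, D y = y → ∃ x : L0, algebraMap L0 L1 x = y) (s : L1 ≃ₐ[L0] L1) :
    s ∈ Subgroup.zpowers (galCycG D hb) := by
  have h := IntermediateField.fixingSubgroup_fixedField (Subgroup.zpowers (galCycG D hb))
  rw [galCycG_fixedField D hb hf, IntermediateField.fixingSubgroup_bot] at h
  rw [← h]
  exact Subgroup.mem_top _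

theorem galCycG_norm (D : L1 ≃ₐ[Kb] L1)
    (hb : ∀ x : L0, D (algebraMap L0 L1 x) = algebraMap L0 L1 x)
    (hf : ∀ y : L1, D y = y → ∃ x : L0, algebraMap L0 L1 x = y) (y : L1) :
    algebraMap L0 L1 (Algebra.norm L0 y) = ∏ j ∈ Finset.range (orderOf D), (D ^ j) y := by
  classical
  have := galCycG_isGalois D hb hf
  rw [Algebra.norm_eq_prod_automorphisms, ← IsCyclic.image_range_orderOf (galCycG_zpowers D hb hf),
    Finset.prod_image, galCycG_orderOf]
  · exact Finset.prod_congr rfl fun j _ => galCycG_pow D hb j y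
  · intro i hi j hj hij
    exact pow_injOn_Iio_orderOf (by simpa using hi) (by simpa using hj) hij

theorem galCycG_hilbert90 (D : L1 ≃ₐ[Kb] L1)
    (hb : ∀ x : L0, D (algebraMap L0 L1 x) = algebraMap L0 L1 x)
    (hf : ∀ y : L1, D y = y → ∃ x : L0, algebraMap L0 L1 x = y) (y : L1ˣ)
    (hy : ∏ j ∈ Finset.range (orderOf D), (D ^ j) (y : L1) = 1) :
    ∃ h : L1ˣ, (y : L1) = D (h : L1) / (h : L1) := by
  have := galCycG_isGalois D hb hf
  have : IsCyclic (L1 ≃ₐ[L0] L1) := ⟨galCycG D hb, galCycG_zpowers D hb hf⟩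
  have hn : Algebra.norm L0 (y : L1) = 1 := by
    apply (algebraMap L0 L1).injective
    rw [galCycG_norm D hb hf, hy, map_one]
  have hn' : Algebra.norm L0 ((y : L1)⁻¹) = 1 := by
    rw [Algebra.norm_inv, hn, inv_one]
  obtain ⟨h, hh⟩ := groupCohomology.exists_div_of_norm_eq_one (galCycG_zpowers D hb hf) hn'
  refine ⟨h, ?_⟩
  have h1 : galCycG D hb (h : L1) = D (h : L1) := rfl
  rw [h1] at hh
  rw [← inv_inj, ← hh, inv_div]

end Abs

variable {L0 L1 : Type} [Field L0] [Field L1] [Algebra Kbar L0] [Algebra Kbar L1]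
  [Algebra L0 L1] [IsScalarTower Kbar L0 L1] [Module.Finite L0 L1]

theorem Cyc.orderOf_pos (C : Cyc L0 L1) : 0 < orderOf C.D := by
  rw [← galCycG_orderOf C.D C.D_base]
  exact _root_.orderOf_pos _

theorem Cyc.norm_eq (C : Cyc L0 L1) (y : L1) :
    algebraMap L0 L1 (Algebra.norm L0 y) = ∏ j ∈ Finset.range (orderOf C.D), (C.D ^ j) y :=
  galCycG_norm C.D C.D_base C.fixed y

theorem Cyc.hilbert90 (C : Cyc L0 L1) (y : L1ˣ)
    (hy : ∏ j ∈ Finset.range (orderOf C.D), (C.D ^ j) (y : L1) = 1) :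
    ∃ h : L1ˣ, (y : L1) = C.D (h : L1) / (h : L1) :=
  galCycG_hilbert90 C.D C.D_base C.fixed y hy

end Fermat.Agent.S43.Free
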