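/-
Row 37 (S43), block FREE, leaf INV (architect helper176, proof helper111).
`W(L1)^D / π^* W(L0)` is Eisenstein.
PROOF.  `x = cls f`, `auW D x = x`: `D f = f g ^ n`, `g : L1ˣ`.  With `N = ∏_{j < orderOf D} D ^ j`: `N(g) ^ n = N (D f / f) = 1`,
so `N g = ζ` is a constant (`exists_const_of_pow_eq_one`).  `f' := τ1 f / f ^ c`, `g' := τ1 g / g ^ c`: `D f' = f' g' ^ n` and
`N g' = τ1 (N g) / (N g) ^ c = τ1 ζ / ζ ^ c = 1` (`τ1` commutes with `D`).  `Cyc.hilbert90`: `g' = D h / h`.  `f' / h ^ n` is fixed by `D`: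
`= algebraMap f₀` (`C.fixed`), `IsKum L1 n (algebraMap f₀)`, so `IsKum L0 n f₀` by `hram`; `upW (cls f₀) = cls f' = t1 x - c x`.
-/
import Fermat.Agent.S43.Free.GalCyc
import Fermat.Agent.S43.Free.KerUp

set_option autoImplicit false

namespace Fermat.Agent.S43.Free

open AlgebraicCurve Fermat.Agent.S24 Fermat.Agent.S24.FF Fermat.Agent.S27 Fermat.Agent.S48.BB.M

section Aux

variable {L : Type} [Field L] [Algebra Kbar L]

theorem Inv_cls_div {n : ℕ} (u v : kum L n) : cls (u / v) = cls u - cls v := rfl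

theorem Inv_cls_eq_iff {n : ℕ} (u v : kum L n) :
    cls u = cls v ↔ ∃ w : Lˣ, (u : Lˣ) = (v : Lˣ) * w ^ n := by
  rw [← sub_eq_zero, ← Inv_cls_div, Fermat.Agent.S48.BB.M.cls_eq_zero_iff, mem_pows]
  constructor
  · rintro ⟨w, hw⟩
    refine ⟨w, ?_⟩
    rw [hw]
    simp
  · rintro ⟨w, hw⟩
    refine ⟨w, ?_⟩
    simp [hw]

theorem Inv_coe_iterate (D : L ≃ₐ[Kbar] L) (j : ℕ) (u : Lˣ) :
    (((auU D)^[j] u : Lˣ) : L) = (D ^ j) (u : L) := by
  induction j generalizing u with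
  | zero => simp
  | succ j ih =>
    rw [Function.iterate_succ_apply, ih, coe_auU, pow_succ, AlgEquiv.mul_apply]

/-- the norm operator `∏_{j < d} D ^ j` on units -/
noncomputable def InvNm (D : L ≃ₐ[Kbar] L) (d : ℕ) : Lˣ →* Lˣ where
  toFun u := ∏ j ∈ Finset.range d, (auU D)^[j] u
  map_one' := by simp [iterate_map_one]
  map_mul' u v := by simp [iterate_map_mul, Finset.prod_mul_distrib]

theorem InvNm_apply (D : L ≃ₐ[Kbar] L) (d : ℕ) (u : Lˣ) :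
    InvNm D d u = ∏ j ∈ Finset.range d, (auU D)^[j] u := rfl

theorem coe_InvNm (D : L ≃ₐ[Kbar] L) (d : ℕ) (u : Lˣ) :
    ((InvNm D d u : Lˣ) : L) = ∏ j ∈ Finset.range d, (D ^ j) (u : L) := by
  rw [InvNm_apply, Units.coe_prod]
  exact Finset.prod_congr rfl fun j _ => Inv_coe_iterate D j u

theorem InvNm_auU (D : L ≃ₐ[Kbar] L) (u : Lˣ) :
    InvNm D (orderOf D) (auU D u) = InvNm D (orderOf D) u := by
  have h1 := Finset.prod_range_succ (fun j => (auU D)^[j] u) (orderOf D)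
  have h2 := Finset.prod_range_succ' (fun j => (auU D)^[j] u) (orderOf D)
  have h3 : (auU D)^[orderOf D] u = u := by
    apply Units.ext
    rw [Inv_coe_iterate, pow_orderOf_eq_one]
    rfl
  rw [h1, h3] at h2
  simp only [Function.iterate_zero, id_eq] at h2
  have h4 := mul_right_cancel h2
  rw [InvNm_apply, InvNm_apply, h4]
  rfl

end Aux

variable {L0 L1 : Type} [Field L0] [Field L1] [Algebra Kbar L0] [Algebra Kbar L1]
  [Algebra L0 L1] [IsScalarTower Kbar L0 L1] [Module.Finite L0 L1] [IsFF1 Kbar L1]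
  [NonConst Kbar L0]

omit [IsScalarTower Kbar L0 L1] [Module.Finite L0 L1] [IsFF1 Kbar L1] [NonConst Kbar L0] in
theorem Inv_τ1_InvNm {C : Cyc L0 L1} {n c : ℕ} (E : EisOp C n c) (d : ℕ) (u : L1ˣ) :
    E.τ1 (InvNm C.D d u) = InvNm C.D d (E.τ1 u) := by
  have h : ∀ (j : ℕ) (u : L1ˣ), E.τ1 ((auU C.D)^[j] u) = (auU C.D)^[j] (E.τ1 u) := by
    intro j
    induction j with
    | zero => intro u; rfl
    | succ j ih =>
      intro u
      rw [Function.iterate_succ_apply, ih, E.comm_D, Function.iterate_succ_apply]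
  rw [InvNm_apply, InvNm_apply, map_prod]
  exact Finset.prod_congr rfl fun j _ => h j u

theorem inv {C : Cyc L0 L1} {n c : ℕ} (E : EisOp C n c) (hn : 0 < n) (hram : Ram L0 L1 n)
    (x : W L1 n) (hx : auW C.D n x = x) : ∃ y : W L0 n, upW L0 L1 n y = E.t1 x - c • x := by
  obtain ⟨f, rfl⟩ := cls_surjective x
  rw [auW_cls, Inv_cls_eq_iff] at hx
  obtain ⟨g, hg⟩ := hx
  replace hg : auU C.D (f : L1ˣ) = (f : L1ˣ) * g ^ n := hg
  -- the norm of `g` is a constant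
  have hN : InvNm C.D (orderOf C.D) g ^ n = 1 := by
    have h1 := congrArg (InvNm C.D (orderOf C.D)) hg
    rw [InvNm_auU, map_mul, map_pow] at h1
    exact (mul_eq_left.mp h1.symm)
  obtain ⟨a, -, ha⟩ := exists_const_of_pow_eq_one hn _ hN
  -- `f'`, `g'`
  obtain ⟨f', hf'⟩ : ∃ f' : L1ˣ, f' = E.τ1 (f : L1ˣ) * ((f : L1ˣ) ^ c)⁻¹ := ⟨_, rfl⟩
  obtain ⟨g', hg'⟩ : ∃ g' : L1ˣ, g' = E.τ1 g * (g ^ c)⁻¹ := ⟨_, rfl⟩
  have hDf' : auU C.D f' = f' * g' ^ n := by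
    rw [hf', hg', map_mul, map_inv, map_pow, ← E.comm_D, hg, map_mul, map_pow, mul_pow, mul_pow,
      inv_pow, mul_inv, ← pow_mul, ← pow_mul, mul_comm n c]
    exact mul_mul_mul_comm _ _ _ _
  have hNg' : InvNm C.D (orderOf C.D) g' = 1 := by
    rw [hg', map_mul, map_inv, map_pow, ← Inv_τ1_InvNm, ← ha, E.const, map_pow, mul_inv_cancel]
  obtain ⟨h, hh⟩ := C.hilbert90 g' (by rw [← coe_InvNm, hNg', Units.val_one])
  have hDh : auU C.D h = g' * h := by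
    apply Units.ext
    rw [coe_auU, Units.val_mul, hh, div_mul_cancel₀ _ h.ne_zero]
  -- the fixed element
  have hDe : auU C.D (f' * (h ^ n)⁻¹) = f' * (h ^ n)⁻¹ := by
    rw [map_mul, map_inv, map_pow, hDf', hDh, mul_pow, mul_inv, mul_assoc, mul_inv_cancel_left]
  obtain ⟨f₀, hf₀⟩ := C.fixed ((f' * (h ^ n)⁻¹ : L1ˣ) : L1) (by rw [← coe_auU, hDe])
  have hf₀0 : f₀ ≠ 0 := by
    rintro rfl
    rw [map_zero] at hf₀
    exact (f' * (h ^ n)⁻¹ : L1ˣ).ne_zero hf₀.symm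
  have hup : upU L0 L1 (Units.mk0 f₀ hf₀0) = f' * (h ^ n)⁻¹ := by
    apply Units.ext
    rw [coe_upU, Units.val_mk0, hf₀]
  have hf'k : f' ∈ kum L1 n := by
    rw [hf']
    exact (kum L1 n).mul_mem (E.kum1 _ f.2) ((kum L1 n).inv_mem ((kum L1 n).pow_mem f.2 c))
  have hek : f' * (h ^ n)⁻¹ ∈ kum L1 n :=
    (kum L1 n).mul_mem hf'k ((kum L1 n).inv_mem (pows_le_kum L1 n ⟨h, rfl⟩))
  have hk0 : Units.mk0 f₀ hf₀0 ∈ kum L0 n := by
    refine hram f₀ ?_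
    rw [hf₀]
    exact hek
  refine ⟨cls ⟨Units.mk0 f₀ hf₀0, hk0⟩, ?_⟩
  have hrhs : E.t1 (cls f) - c • cls f = cls (⟨f', hf'k⟩ : kum L1 n) := by
    have h1 : E.t1 (cls f) = cls (⟨E.τ1 (f : L1ˣ), E.kum1 _ f.2⟩ : kum L1 n) :=
      mapW_cls E.τ1 E.kum1 f
    rw [h1, ← cls_pow, ← Inv_cls_div]
    congr 1
    apply Subtype.ext
    change E.τ1 (f : L1ˣ) / (f : L1ˣ) ^ c = f'
    rw [hf', div_eq_mul_inv]
  rw [hrhs, upW_cls, Inv_cls_eq_iff]
  refine ⟨h⁻¹, ?_⟩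
  change upU L0 L1 (Units.mk0 f₀ hf₀0) = f' * h⁻¹ ^ n
  rw [hup, inv_pow]

end Fermat.Agent.S43.Free
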