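/-
Row 37 (S43), block FREE, leaf SELFADJ.  `T_l` is selfadjoint for the Weil pairing at a level with trivial diamonds,
by the trick of `S15.Pair.adjoint_of_eichlerShimura`: `T = φ + l φ⁻¹` and `e (φ x) (φ y) = e x y ^ l`.
PROOF.  `φ := seW g n` is bijective (inverse `seW g⁻¹ n`).  (ES) at `φ⁻¹ z`: `t z = φ z + l • φ⁻¹ z`.
`e (φ x) y = e (φ x) (φ (φ⁻¹ y)) = e x (φ⁻¹ y) ^ l`, `e (φ⁻¹ x) y ^ l = e x (φ y)` (`weilW_seW`, `hg`, `weilW_pow_eq_one`).
-/
import Fermat.Agent.S43.Free.WeilW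

set_option autoImplicit false

namespace Fermat.Agent.S43.Free

open AlgebraicCurve Fermat.Agent.S24 Fermat.Agent.S24.FF Fermat.Agent.S27 Fermat.Agent.S48.BB.M

theorem selfAdj_seW_seW_inv {L : Type} [Field L] [Algebra Kbar L] (g : SemilinearAut Kbar L)
    (n : ℕ) (x : W L n) : seW g n (seW g⁻¹ n x) = x := by
  obtain ⟨u, rfl⟩ := cls_surjective x
  rw [seW_cls, seW_cls]
  congr 1
  apply Subtype.ext
  apply Units.ext
  simp only [coe_seU]
  exact smul_inv_smul g _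

variable {L : Type} [Field L] [Algebra Kbar L] [IsFF1 Kbar L] [NonConst Kbar L]

theorem selfAdj_of_es {n l : ℕ} (hn : 0 < n) (g : SemilinearAut Kbar L) (t : W L n →+ W L n)
    (hES : ∀ x : W L n, seW g n (seW g n x) - t (seW g n x) + l • x = 0)
    (hg : ∀ ζ : Kbar, ζ ^ n = 1 → SemilinearAut.baseAut g ζ = ζ ^ l) (x y : W L n) :
    weilW n (t x) y = weilW n x (t y) := by
  have hP := isPerf_weilW (L := L) hn
  obtain ⟨a, rfl⟩ : ∃ a, seW g n a = x := ⟨_, selfAdj_seW_seW_inv g n x⟩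
  obtain ⟨b, rfl⟩ : ∃ b, seW g n b = y := ⟨_, selfAdj_seW_seW_inv g n y⟩
  have ht : ∀ z : W L n, t (seW g n z) = seW g n (seW g n z) + l • z := by
    intro z
    have h := hES z
    have h2 : seW g n (seW g n z) + l • z - t (seW g n z) = 0 := by
      rw [← h]
      abel
    exact (sub_eq_zero.1 h2).symm
  rw [ht a, ht b, hP.add_left, hP.add_right, weilW_seW hn, weilW_seW hn, weilW_nsmul_left hn,
    weilW_nsmul_right hn, hg _ (weilW_pow_eq_one hn _ _), hg _ (weilW_pow_eq_one hn _ _)]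
  exact mul_comm _ _

end Fermat.Agent.S43.Free
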