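/-
Row 37 (S43), block FREE (architect helper176).  INSTANTIATION of the generic leaves at `FB F₀ ⊆ FB F₀'`
(in the language of `S43/Ops/Pi/Kum.lean`: `piUp`, `piDown`, `HeckeOp1`).
-/
import Fermat.Agent.S43.Free.Inv
import Fermat.Agent.S43.Free.Coker
import Fermat.Agent.S43.Free.SelfAdj
import Fermat.Agent.S43.Ops.Pi.Kum

set_option autoImplicit false

noncomputable section

namespace Fermat.Agent.S43.Free

open ModularCurve AlgebraicCurve Fermat.Agent.S24 Fermat.Agent.S24.FF Fermat.Agent.S27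
  Fermat.Agent.S48.BB Fermat.Agent.S48.BB.M Fermat.Agent.S48.BB.E Fermat.Agent.S48.BB.T
  Fermat.Agent.S48.BB.U Fermat.Agent.S37.HeckeInputs Fermat.Agent.S43.Ops.Pi
open Fermat.Agent.GAL.E (GQ)
open scoped MatrixGroups

variable {F₀ F₀' : IntermediateField ℚ (LaurentSeries ℚ)} {H H' : Subgroup SL(2, ℤ)}
  {N N' : ℕ} [NeZero N] [NeZero N']

/-- The input of the block FREE at the two levels `F₀ ≤ F₀'`. -/
structure Input (F₀ F₀' : IntermediateField ℚ (LaurentSeries ℚ)) (H H' : Subgroup SL(2, ℤ))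
    (N N' : ℕ) [NeZero N] [NeZero N'] (l : ℕ) [NeZero l] where
  hL : IsLvl F₀ H N
  hL' : IsLvl F₀' H' N'
  hF : F₀ ≤ F₀'
  /-- a generator of the diamond operators -/
  δ : FB F₀' ≃ₐ[Kbar] FB F₀'
  hfix : ∀ u, δ (alphaB hF u) = alphaB hF u
  hfixed : ∀ y, δ y = y → ∃ u, alphaB hF u = y
  T₀ : HeckeOp1 F₀ l
  T₁ : HeckeOp1 F₀' l
  hD : ∀ u, T₁.D (alphaB hF u) = alphaB hF (T₀.D u)
  hδ : ∀ y, T₁.T (δ y) = δ (T₁.T y)

namespace Input

variable {l : ℕ} [NeZero l] (I : Input F₀ F₀' H H' N N' l)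

/-- the pair of levels -/
def X : Pair F₀ F₀' := pair_of_isLvl I.hL I.hL' I.hF

/-- (RAM) -/
def RamAt (n : ℕ) : Prop :=
  ∀ f : FB F₀, IsKum (FB F₀') n (alphaB I.hF f) → IsKum (FB F₀) n f

/-- the algebra structure -/
abbrev alg : Algebra (FB F₀) (FB F₀') := algebraAlong (alphaB I.hF)

/-- the cyclic covering -/
def cyc : @Cyc (FB F₀) (FB F₀') _ _ _ _ I.alg :=
  letI := I.alg
  { D := I.δ, D_base := I.hfix, fixed := I.hfixed }

/-- the Eisenstein operator -/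
def eis (n : ℕ) : @EisOp (FB F₀) (FB F₀') _ _ _ _ I.alg I.cyc n (l + 1) :=
  letI := I.alg
  { τ1 := I.T₁.TU
    τ0 := I.T₀.TU
    kum1 := fun u hu => I.T₁.TU_mem_kum u hu
    kum0 := fun u hu => I.T₀.TU_mem_kum u hu
    const := fun a => Units.ext (by
      show I.T₁.T (algebraMap Kbar (FB F₀') a) = algebraMap Kbar (FB F₀') ((a ^ (l + 1) : Kbarˣ) : Kbar)
      rw [I.T₁.T_algebraMap, Units.val_pow_eq_pow_val])
    comm_D := fun u => Units.ext (I.hδ u)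
    comm_up := fun u => Units.ext (heckeOp1_alphaB I.T₀ I.T₁ I.hF I.hD u) }

theorem kerUp' {n : ℕ} (hn : 0 < n) (x : W1 F₀ n) (hx : piUp I.X n x = 0) :
    I.T₀.TW n x = (l + 1) • x := by
  letI := I.alg
  haveI := isScalarTower_along (alphaB I.hF)
  haveI := isFF1 I.hL'
  haveI : NonConst Kbar (FB F₀) := ⟨⟨jB I.hL, transcendental_jB I.hL⟩⟩
  exact kerUp (I.eis n) hn x hx

theorem inv' {n : ℕ} (hn : 0 < n) (hram : I.RamAt n) (x : W1 F₀' n) (hx : autW I.δ n x = x) :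
    ∃ y : W1 F₀ n, piUp I.X n y = I.T₁.TW n x - (l + 1) • x := by
  letI := I.alg
  haveI := isScalarTower_along (alphaB I.hF)
  haveI := isFF1 I.hL'
  haveI : NonConst Kbar (FB F₀) := ⟨⟨jB I.hL, transcendental_jB I.hL⟩⟩
  haveI : Module.Finite (FB F₀) (FB F₀') := finiteAlong (alphaB I.hF) (jB I.hL) (transcendental_jB I.hL)
  exact inv (I.eis n) hn hram x hx

theorem coker' {n : ℕ} (hn : 0 < n) (σ : GQ)
    (hES : ∀ x : W1 F₀ n, rho F₀ n σ (rho F₀ n σ x) - I.T₀.TW n (rho F₀ n σ x) + l • x = 0)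
    (hσ : ∀ ζ : Kbar, ζ ^ n = 1 → σ ζ = ζ ^ l) (y : W1 F₀ n) :
    ∃ x : W1 F₀' n, piDown I.X n x = I.T₀.TW n y - (l + 1) • y := by
  letI := I.alg
  haveI := isScalarTower_along (alphaB I.hF)
  haveI := isFF1 I.hL
  haveI := isFF1 I.hL'
  haveI : NonConst Kbar (FB F₀) := ⟨⟨jB I.hL, transcendental_jB I.hL⟩⟩
  haveI : NonConst Kbar (FB F₀') := ⟨⟨jB I.hL', transcendental_jB I.hL'⟩⟩
  haveI : Module.Finite (FB F₀) (FB F₀') := finiteAlong (alphaB I.hF) (jB I.hL) (transcendental_jB I.hL)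
  refine coker (I.eis n) hn ?_ y
  refine selfAdj_of_es (l := l) hn (arithmeticGalois (L := Kbar) F₀ σ) (I.eis n).t0 ?_ ?_
  · intro x
    rw [seW_arithmeticGalois, seW_arithmeticGalois]
    exact hES x
  · intro ζ hζ
    exact hσ ζ hζ

end Input

end Fermat.Agent.S43.Free

end
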