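/-
Row 37 (S43), block FREE: the CONCRETE instance of (RAM) (helper260).

* `ram_of_j`  : abstract form.  `L1 / L0` finite, `j ∈ L0`; if every place `w` of `L1` has `ord_w (j - c) ∣ 6`
  (when positive) and `ord_w j ∣ N` (when negative), then `Ram L0 L1 n` for `n` prime to `6 N`.
* `isKum_of_isKum_alphaB` : the same for two fields of `q`-expansions `F₀ ≤ F₀'` (`IsLvl`), in the language of
  `S43/Ops/Pi/Kum.lean`.
-/
import Fermat.Agent.S43.Free.Contract
import Fermat.Agent.S48.BB.U.Points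
import Fermat.Agent.S48.BB.T.LevelUp
import Fermat.Agent.S48.BB.W.Lvl
import Fermat.Agent.S48.BB.V.LvlFull
import Fermat.Agent.S44.X.Desc.Above
import Fermat.Agent.S37.Val

set_option autoImplicit false

noncomputable section

namespace Fermat.Agent.S43.Free

open AlgebraicCurve Fermat.Agent.S24 Fermat.Agent.S24.FF Fermat.Agent.S27 Fermat.Agent.S48.BB.M

section Abstract

variable {L0 L1 : Type} [Field L0] [Field L1] [Algebra Kbar L0] [Algebra Kbar L1]
  [Algebra L0 L1] [IsScalarTower Kbar L0 L1]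

/-- the arithmetic step -/
theorem dvd_of_mul_dvd_coprime {n : ℕ} {e a x : ℤ} {B : ℕ} (hB : n.Coprime B)
    (h1 : e * a ∣ (B : ℤ)) (h2 : (n : ℤ) ∣ e * x) : (n : ℤ) ∣ x := by
  have he : e ∣ (B : ℤ) := (Dvd.intro _ rfl).trans h1
  have hc : IsCoprime (n : ℤ) (B : ℤ) := Nat.isCoprime_iff_coprime.2 hB
  exact (hc.of_isCoprime_of_dvd_right he).dvd_of_dvd_mul_left h2

/-- **(RAM), abstract form.** -/
theorem ram_of_j [IsFF1 Kbar L0] [FiniteDimensional L0 L1] (j : L0) (hjt : Transcendental Kbar j)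
    (N : ℕ)
    (hfin : ∀ (c : Kbar) (w : Place Kbar L1),
      0 < w.ord (algebraMap L0 L1 (j - algebraMap Kbar L0 c)) →
        w.ord (algebraMap L0 L1 (j - algebraMap Kbar L0 c)) ∣ 6)
    (hpole : ∀ w : Place Kbar L1, w.ord (algebraMap L0 L1 j) < 0 →
      w.ord (algebraMap L0 L1 j) ∣ (N : ℤ))
    (n : ℕ) (hn : n.Coprime (6 * N)) : Ram L0 L1 n := by
  intro f hf v
  have : Algebra.IsIntegral L0 L1 := Algebra.IsIntegral.of_finite L0 L1
  have : CharZero L0 := charZero_of_injective_algebraMap (algebraMap Kbar L0).injective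
  have : Algebra.IsSeparable L0 L1 := Algebra.IsAlgebraic.isSeparable_of_perfectField
  obtain ⟨w, rfl⟩ := Fermat.Agent.S44.X.Desc.exists_restrict_eq (K := Kbar) L1 v
  have hfw := hf w
  rw [w.ord_restrict f] at hfw
  have h6 : n.Coprime 6 := Nat.Coprime.coprime_mul_right_right hn
  have hN : n.Coprime N := Nat.Coprime.coprime_mul_left_right hn
  by_cases hj : (w.restrict L0).ord j < 0
  · have h1 : w.ord (algebraMap L0 L1 j) < 0 := by
      rw [w.ord_restrict j]
      have := w.ramificationIndex_pos (F := L0)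
      have h2 : (0 : ℤ) < (w.ramificationIndex L0 : ℤ) := by exact_mod_cast this
      nlinarith
    have h2 := hpole w h1
    rw [w.ord_restrict j] at h2
    exact dvd_of_mul_dvd_coprime hN h2 hfw
  · have hj' : 0 ≤ (w.restrict L0).ord j := not_lt.1 hj
    rcases Fermat.Agent.S37.van_sub_val (v := w.restrict L0) hj' with h0 | h0
    · exact absurd (by rw [sub_eq_zero.1 h0]; exact isAlgebraic_algebraMap _) hjt
    · have h1 : 0 < w.ord (algebraMap L0 L1
          (j - algebraMap Kbar L0 (Fermat.Agent.S37.val (w.restrict L0) j))) := by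
        rw [w.ord_restrict]
        have := w.ramificationIndex_pos (F := L0)
        have h2 : (0 : ℤ) < (w.ramificationIndex L0 : ℤ) := by exact_mod_cast this
        positivity
      have h2 := hfin _ w h1
      rw [w.ord_restrict] at h2
      exact dvd_of_mul_dvd_coprime (B := 6) h6 (by exact_mod_cast h2) hfw

end Abstract

section Along

open Fermat.Agent.S37.HeckeInputs

variable {L0 L1 : Type} [Field L0] [Field L1] [Algebra Kbar L0] [Algebra Kbar L1]

/-- (RAM) along an embedding. -/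
theorem isKum_of_isKum_map [IsFF1 Kbar L0] [IsFF1 Kbar L1] (φ : L0 →ₐ[Kbar] L1) (j : L0)
    (hjt : Transcendental Kbar j) (N : ℕ)
    (hfin : ∀ (c : Kbar) (w : Place Kbar L1), 0 < w.ord (φ (j - algebraMap Kbar L0 c)) →
        w.ord (φ (j - algebraMap Kbar L0 c)) ∣ 6)
    (hpole : ∀ w : Place Kbar L1, w.ord (φ j) < 0 → w.ord (φ j) ∣ (N : ℤ))
    (n : ℕ) (hn : n.Coprime (6 * N)) {u : L0} (hu : IsKum L1 n (φ u)) : IsKum L0 n u := by
  let _ := algebraAlong φ
  have h1 : IsScalarTower Kbar L0 L1 := isScalarTower_along φ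
  have h2 : Module.Finite L0 L1 := finiteAlong φ j hjt
  exact ram_of_j j hjt N hfin hpole n hn u hu

end Along

section Lvl

open ModularCurve Fermat.Agent.S24.B Fermat.Agent.S48.BB Fermat.Agent.S48.BB.U
  Fermat.Agent.S48.BB.T Fermat.Agent.S37.HeckeInputs
open scoped MatrixGroups

variable {F₀ F₀' : IntermediateField ℚ (LaurentSeries ℚ)} {H H' : Subgroup SL(2, ℤ)}
  {N N' : ℕ} [NeZero N] [NeZero N']

theorem alphaB_jB_sub (hL : IsLvl F₀ H N) (hL' : IsLvl F₀' H' N') (hF : F₀ ≤ F₀') (c : Kbar) :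
    alphaB hF (jB hL - algebraMap Kbar (FB F₀) c) = jB hL' - algebraMap Kbar (FB F₀') c := by
  have e : alphaB hF (jB hL) = jB hL' := Subtype.ext (by rw [coe_alphaB, coe_jB, coe_jB])
  rw [map_sub, AlgHom.commutes, e]

/-- **(RAM) for two fields of `q`-expansions**: the ramification of `FB F₀' / FB F₀` divides `6 N'`. -/
theorem isKum_of_isKum_alphaB (hL : IsLvl F₀ H N) (hL' : IsLvl F₀' H' N') (hF : F₀ ≤ F₀') {n : ℕ}
    (hn : n.Coprime (6 * N')) {u : FB F₀} (hu : IsKum (FB F₀') n (alphaB hF u)) :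
    IsKum (FB F₀) n u := by
  have := isFF1 hL
  have := isFF1 hL'
  refine isKum_of_isKum_map (alphaB hF) (jB hL) (transcendental_jB hL) N' ?_ ?_ n hn hu
  · intro c w hw
    rw [alphaB_jB_sub hL hL' hF] at hw ⊢
    by_cases h0 : c = 0
    · subst h0
      rw [map_zero, sub_zero] at hw ⊢
      exact (ord_jB_dvd hL' w hw).trans (by norm_num)
    by_cases h1 : c = 1728
    · subst h1
      exact (ord_jB_sub_1728_dvd hL' w hw).trans (by norm_num)
    · rw [ord_jB_sub_eq_one hL' c h0 h1 w hw]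
      exact one_dvd _
  · intro w hw
    have e : alphaB hF (jB hL) = jB hL' := Subtype.ext (by rw [coe_alphaB, coe_jB, coe_jB])
    rw [e] at hw ⊢
    exact ord_jB_dvd_of_neg hL' w hw

/-- **(RAM) for `FB F0 ⊆ FB (F1Q q M)`**, `n` prime to `6 q M`. -/
theorem isKum_of_isKum_F1Q (q M : ℕ) [NeZero q] [NeZero M] {n : ℕ} (hn : n.Coprime (6 * (q * M)))
    {u : FB (modularFunctionFieldFull (q * M))}
    (hu : IsKum (FB (F1Q q M)) n (alphaB (le_sup_right : modularFunctionFieldFull (q * M) ≤ F1Q q M) u)) :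
    IsKum (FB (modularFunctionFieldFull (q * M))) n u :=
  isKum_of_isKum_alphaB (V.isLvl_full (q * M)) (W.isLvl_F1Q q M) le_sup_right hn hu

end Lvl

end Fermat.Agent.S43.Free

end
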