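/-
Row 37 (S43), block FREE (helper124).  Complements to `Dual.lean` (Mathlib only): the abstract form of
(COKER) for an operator `t0 - c`.
-/
import Fermat.Agent.S43.Free.Dual

set_option autoImplicit false

namespace Fermat.Agent.S43.Free

namespace IsPerf

variable {G Ω : Type*} [AddCommGroup G] [Field Ω] {e : G → G → Ω}

theorem nsmul_comm (h : IsPerf e) (k : ℕ) (x y : G) : e (k • x) y = e x (k • y) := by
  induction k with
  | zero => rw [zero_smul, zero_smul, h.zero_left, h.zero_right]
  | succ k ih => rw [succ_nsmul, succ_nsmul, h.add_left, h.add_right, ih]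

theorem neg_comm (h : IsPerf e) (x y : G) : e (-x) y = e x (-y) := by
  have e1 := h.add_left x (-x) y
  rw [add_neg_cancel, h.zero_left] at e1
  have e2 := h.add_right x y (-y)
  rw [add_neg_cancel, h.zero_right] at e2
  exact mul_left_cancel₀ (h.ne_zero x y) (e1.symm.trans e2)

end IsPerf

/-- (COKER), abstract form: if `t0` is selfadjoint and `t0 = c` on `ker π^*` then
`t0 - c` kills `coker π_*`. -/
theorem coker_abs_sub {G G' Ω : Type*} [AddCommGroup G] [AddCommGroup G'] [Field Ω] [Finite G]
    [IsAlgClosed Ω] [CharZero Ω] {e : G → G → Ω} {e' : G' → G' → Ω} (h : IsPerf e) (h' : IsPerf e')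
    (pb : G →+ G') (nm : G' →+ G) (adj : ∀ x y, e' (pb x) y = e x (nm y))
    (t0 : G →+ G) (c : ℕ) (hsa : ∀ x y, e (t0 x) y = e x (t0 y))
    (hker : ∀ z, pb z = 0 → t0 z = c • z) (x0 : G) : ∃ y, nm y = t0 x0 - c • x0 := by
  obtain ⟨y, hy⟩ := coker_abs h h' pb nm adj (t0 - c • AddMonoidHom.id G)
    (t0 - c • AddMonoidHom.id G)
    (by
      intro x y
      simp only [AddMonoidHom.sub_apply, AddMonoidHom.nsmul_apply, AddMonoidHom.id_apply]
      rw [sub_eq_add_neg, sub_eq_add_neg, h.add_left, h.add_right, hsa, h.neg_comm,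
        h.nsmul_comm, smul_neg])
    (by
      intro z hz
      simp only [AddMonoidHom.sub_apply, AddMonoidHom.nsmul_apply, AddMonoidHom.id_apply]
      rw [hker z hz, sub_self]) x0
  refine ⟨y, ?_⟩
  rw [← hy]
  simp only [AddMonoidHom.sub_apply, AddMonoidHom.nsmul_apply, AddMonoidHom.id_apply]

/-- an additive map sends `0` to `0` -/
theorem map_zero_of_add {G H : Type*} [AddGroup G] [AddGroup H] (f : G → H)
    (hf : ∀ x y, f (x + y) = f x + f y) : f 0 = 0 :=
  map_zero (AddMonoidHom.mk' f hf)

end Fermat.Agent.S43.Free
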