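/-
Row 37 (S43), block FREE (helper124).  ABSTRACT FREENESS in OPERATOR FORM (format of helper176):
commuting families `t i` on `V`, `t0 i` on `V0`, eigenvalues `ev i`, the diamond operator `δ = t iδ` is a
member of the family (eigenvalue `1`, `t0 iδ = 1`), `W = ⨅ i, (t i).maxGenEigenspace (ev i)`.
Pure algebra, Mathlib only.
-/
import Fermat.Agent.S43.Free.Abs2

set_option autoImplicit false
set_option linter.unusedSectionVars false
set_option linter.deprecated false
set_option linter.style.haveILetI false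

noncomputable section

namespace Fermat.Agent.S43.Free

variable {k V V0 ι : Type*} [Field k] [AddCommGroup V] [Module k V] [AddCommGroup V0] [Module k V0]

/-- The action of the polynomial ring on the symbols `X i` through a commuting family. -/
def heckeHom (t : ι → Module.End k V) (hc : ∀ i j, Commute (t i) (t j)) :
    MvPolynomial ι k →ₐ[k] Module.End k V :=
  letI : CommRing (Algebra.adjoin k (Set.range t)) := Algebra.adjoinCommRingOfComm k (by
    rintro _ ⟨i, rfl⟩ _ ⟨j, rfl⟩; exact hc i j)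
  (Algebra.adjoin k (Set.range t)).val.comp
    (MvPolynomial.aeval fun i =>
      (⟨t i, Algebra.subset_adjoin ⟨i, rfl⟩⟩ : Algebra.adjoin k (Set.range t)))

theorem heckeHom_X (t : ι → Module.End k V) (hc : ∀ i j, Commute (t i) (t j)) (i : ι) :
    heckeHom t hc (MvPolynomial.X i) = t i := by
  unfold heckeHom
  simp

/-- The ideal of the eigensystem `ev`. -/
def evIdeal (ev : ι → k) : Ideal (MvPolynomial ι k) :=
  Ideal.span (Set.range fun i => (MvPolynomial.X i - MvPolynomial.C (ev i) : MvPolynomial ι k))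

theorem X_sub_C_mem_evIdeal (ev : ι → k) (i : ι) :
    (MvPolynomial.X i - MvPolynomial.C (ev i) : MvPolynomial ι k) ∈ evIdeal ev :=
  Ideal.subset_span ⟨i, rfl⟩

theorem eval_eq_zero_of_mem_evIdeal {ev : ι → k} {g : MvPolynomial ι k} (hg : g ∈ evIdeal ev) :
    MvPolynomial.eval ev g = 0 := by
  have h : evIdeal ev ≤ RingHom.ker (MvPolynomial.eval ev) := by
    rw [evIdeal, Ideal.span_le]
    rintro _ ⟨i, rfl⟩
    simp [RingHom.mem_ker]
  exact h hg

theorem sub_C_eval_mem_evIdeal (ev : ι → k) (g : MvPolynomial ι k) :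
    g - MvPolynomial.C (MvPolynomial.eval ev g) ∈ evIdeal ev := by
  induction g using MvPolynomial.induction_on with
  | C c => simp
  | add f g hf hg =>
    have e : f + g - MvPolynomial.C (MvPolynomial.eval ev (f + g)) =
        (f - MvPolynomial.C (MvPolynomial.eval ev f)) +
          (g - MvPolynomial.C (MvPolynomial.eval ev g)) := by
      rw [map_add, map_add]; ring
    rw [e]
    exact (evIdeal ev).add_mem hf hg
  | mul_X f i hf =>
    have e : f * MvPolynomial.X i - MvPolynomial.C (MvPolynomial.eval ev (f * MvPolynomial.X i)) =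
        (f - MvPolynomial.C (MvPolynomial.eval ev f)) * MvPolynomial.X i +
          MvPolynomial.C (MvPolynomial.eval ev f) * (MvPolynomial.X i - MvPolynomial.C (ev i)) := by
      rw [map_mul, MvPolynomial.eval_X, map_mul]; ring
    rw [e]
    exact (evIdeal ev).add_mem ((evIdeal ev).mul_mem_right _ hf)
      ((evIdeal ev).mul_mem_left _ (X_sub_C_mem_evIdeal ev i))

theorem isRat_evIdeal (ev : ι → k) : IsRat k (evIdeal ev) where
  ne_top := by
    intro h
    have h1 : (1 : MvPolynomial ι k) ∈ evIdeal ev := by rw [h]; trivial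
    have := eval_eq_zero_of_mem_evIdeal h1
    rw [map_one] at this
    exact one_ne_zero this
  res := fun g => ⟨MvPolynomial.eval ev g, sub_C_eval_mem_evIdeal ev g⟩

theorem notMem_evIdeal {ev : ι → k} {g : MvPolynomial ι k} (hg : MvPolynomial.eval ev g ≠ 0) :
    g ∉ evIdeal ev := fun h => hg (eval_eq_zero_of_mem_evIdeal h)

theorem heckeHom_C (t : ι → Module.End k V) (hc : ∀ i j, Commute (t i) (t j)) (c : k) :
    heckeHom t hc (MvPolynomial.C c) = c • (1 : Module.End k V) := by
  rw [← MvPolynomial.algebraMap_eq, AlgHom.commutes, Algebra.algebraMap_eq_smul_one]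

/-- An equivariant map is linear over the polynomial ring. -/
theorem heckeHom_intertwine (t : ι → Module.End k V) (hc : ∀ i j, Commute (t i) (t j))
    (t0 : ι → Module.End k V0) (hc0 : ∀ i j, Commute (t0 i) (t0 j)) (f : V →ₗ[k] V0)
    (hf : ∀ i x, f (t i x) = t0 i (f x)) (g : MvPolynomial ι k) (x : V) :
    f (heckeHom t hc g x) = heckeHom t0 hc0 g (f x) := by
  induction g using MvPolynomial.induction_on generalizing x with
  | C c => rw [heckeHom_C, heckeHom_C]; simp
  | add g g' hg hg' => rw [map_add, map_add, LinearMap.add_apply, LinearMap.add_apply, map_add, hg, hg']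
  | mul_X g i hg =>
    rw [map_mul, map_mul, heckeHom_X, heckeHom_X, Module.End.mul_apply, Module.End.mul_apply, hg, hf]

theorem heckeHom_X_sub_C_pow (t : ι → Module.End k V) (hc : ∀ i j, Commute (t i) (t j)) (i : ι)
    (c : k) (N : ℕ) :
    heckeHom t hc ((MvPolynomial.X i - MvPolynomial.C c) ^ N) = (t i - c • 1) ^ N := by
  rw [map_pow, map_sub, heckeHom_X, heckeHom_C]

/-- **Abstract freeness, operator form.** -/
theorem free_ops (p : ℕ) [Fact p.Prime] [CharP k p] (a h : ℕ) (hh : (h : k) ≠ 0)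
    [Module.Finite k V] [Module.Finite k V0]
    (t : ι → Module.End k V) (t0 : ι → Module.End k V0) (ev : ι → k)
    (htt : ∀ i j, Commute (t i) (t j)) (htt0 : ∀ i j, Commute (t0 i) (t0 j))
    (up : V0 →ₗ[k] V) (dn : V →ₗ[k] V0)
    (hup : ∀ i y, up (t0 i y) = t i (up y)) (hdn : ∀ i x, dn (t i x) = t0 i (dn x))
    (iδ : ι) (hδ0 : t0 iδ = 1) (hδa : ev iδ = 1) (hδpow : t iδ ^ (p ^ a * h) = 1)
    (hud : ∀ x, up (dn x) = (∑ j ∈ Finset.range (p ^ a * h), t iδ ^ j) x)
    (i0 : ι) (c : k) (hc : ev i0 ≠ c)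
    (hinv : ∀ x, t iδ x = x → ∃ y, up y = t i0 x - c • x)
    (hcok : ∀ y, ∃ x, dn x = t0 i0 y - c • y) :
    (∀ x ∈ ⨅ i, (t i).maxGenEigenspace (ev i), ((t iδ - 1) ^ (p ^ a)) x = 0) ∧
    (∀ x ∈ ⨅ i, (t i).maxGenEigenspace (ev i), t iδ x = x →
      ∃ z ∈ ⨅ i, (t i).maxGenEigenspace (ev i), x = ((t iδ - 1) ^ (p ^ a - 1)) z) ∧
    (∀ y ∈ ⨅ i, (t0 i).maxGenEigenspace (ev i),
      ∃ x ∈ ⨅ i, (t i).maxGenEigenspace (ev i), dn x = y) ∧
    (∀ x ∈ ⨅ i, (t i).maxGenEigenspace (ev i), dn x = 0 ↔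
      ∃ z ∈ ⨅ i, (t i).maxGenEigenspace (ev i), x = t iδ z - z) := by
  letI : Module (MvPolynomial ι k) V := Module.compHom V (heckeHom t htt).toRingHom
  letI : Module (MvPolynomial ι k) V0 := Module.compHom V0 (heckeHom t0 htt0).toRingHom
  have sV : ∀ (g : MvPolynomial ι k) (x : V), g • x = heckeHom t htt g x := fun _ _ => rfl
  have sV0 : ∀ (g : MvPolynomial ι k) (y : V0), g • y = heckeHom t0 htt0 g y := fun _ _ => rfl
  haveI : IsScalarTower k (MvPolynomial ι k) V := ⟨fun c g x => by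
    rw [sV, sV, map_smul]; rfl⟩
  haveI : IsScalarTower k (MvPolynomial ι k) V0 := ⟨fun c g x => by
    rw [sV0, sV0, map_smul]; rfl⟩
  let upL : V0 →ₗ[MvPolynomial ι k] V :=
    { toFun := up
      map_add' := map_add up
      map_smul' := fun g y => heckeHom_intertwine t0 htt0 t htt up hup g y }
  let dnL : V →ₗ[MvPolynomial ι k] V0 :=
    { toFun := dn
      map_add' := map_add dn
      map_smul' := fun g y => heckeHom_intertwine t htt t0 htt0 dn hdn g y }
  have hW : ∀ x : V, x ∈ loc (evIdeal ev) V ↔ x ∈ ⨅ i, (t i).maxGenEigenspace (ev i) := by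
    intro x
    rw [Submodule.mem_iInf]
    constructor
    · intro hx i
      obtain ⟨N, hN⟩ := hx _ (X_sub_C_mem_evIdeal ev i)
      rw [sV, heckeHom_X_sub_C_pow] at hN
      exact Module.End.mem_maxGenEigenspace _ _ _ |>.2 ⟨N, hN⟩
    · intro hx
      refine mem_loc_of_span ?_
      rintro _ ⟨i, rfl⟩
      obtain ⟨N, hN⟩ := Module.End.mem_maxGenEigenspace _ _ _ |>.1 (hx i)
      exact ⟨N, by rw [sV, heckeHom_X_sub_C_pow]; exact hN⟩
  have hW0 : ∀ x : V0, x ∈ loc (evIdeal ev) V0 ↔ x ∈ ⨅ i, (t0 i).maxGenEigenspace (ev i) := by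
    intro x
    rw [Submodule.mem_iInf]
    constructor
    · intro hx i
      obtain ⟨N, hN⟩ := hx _ (X_sub_C_mem_evIdeal ev i)
      rw [sV0, heckeHom_X_sub_C_pow] at hN
      exact Module.End.mem_maxGenEigenspace _ _ _ |>.2 ⟨N, hN⟩
    · intro hx
      refine mem_loc_of_span ?_
      rintro _ ⟨i, rfl⟩
      obtain ⟨N, hN⟩ := Module.End.mem_maxGenEigenspace _ _ _ |>.1 (hx i)
      exact ⟨N, by rw [sV0, heckeHom_X_sub_C_pow]; exact hN⟩
  have he : (MvPolynomial.X i0 - MvPolynomial.C c : MvPolynomial ι k) ∉ evIdeal ev := by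
    apply notMem_evIdeal
    rw [map_sub, MvPolynomial.eval_X, MvPolynomial.eval_C]
    exact sub_ne_zero.2 hc
  have heV : ∀ x : V, (MvPolynomial.X i0 - MvPolynomial.C c : MvPolynomial ι k) • x =
      t i0 x - c • x := by
    intro x
    rw [sV, map_sub, heckeHom_X, heckeHom_C]; rfl
  have heV0 : ∀ x : V0, (MvPolynomial.X i0 - MvPolynomial.C c : MvPolynomial ι k) • x =
      t0 i0 x - c • x := by
    intro x
    rw [sV0, map_sub, heckeHom_X, heckeHom_C]; rfl
  have C : Cover2 k (evIdeal ev) (p ^ a) h (MvPolynomial.X iδ : MvPolynomial ι k) upL dnL :=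
    { rat := isRat_evIdeal ev
      d_mem := by
        have := X_sub_C_mem_evIdeal ev iδ
        rwa [hδa, map_one] at this
      h_ne := hh
      d_pow := fun x => by rw [sV, map_pow, heckeHom_X, hδpow]; rfl
      d_V0 := fun y => by rw [sV0, heckeHom_X, hδ0]; rfl
      i_n := fun x => by
        rw [sV, map_sum]
        simp only [map_pow, heckeHom_X]
        exact hud x
      inv := ⟨_, he, fun x hx => by
        rw [sV, heckeHom_X] at hx
        obtain ⟨y, hy⟩ := hinv x hx
        exact ⟨y, by rw [heV]; exact hy.symm⟩⟩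
      cok := ⟨_, he, fun y => by
        obtain ⟨x, hx⟩ := hcok y
        exact ⟨x, by rw [heV0]; exact hx.symm⟩⟩ }
  have hT : ∀ (N : ℕ) (x : V), ((MvPolynomial.X iδ : MvPolynomial ι k) - 1) ^ N • x =
      ((t iδ - 1) ^ N) x := by
    intro N x
    rw [sV, map_pow, map_sub, heckeHom_X, map_one]
  obtain ⟨c1, c2, c3, c4⟩ := free_abs2 (k := k) p a h C
  refine ⟨fun x hx => ?_, fun x hx hδx => ?_, fun y hy => ?_, fun x hx => ?_⟩
  · rw [← hT]
    exact c1 x ((hW x).2 hx)
  · obtain ⟨z, hz, hxz⟩ := c2 x ((hW x).2 hx) (by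
      have := hT 1 x
      rw [pow_one, pow_one] at this
      rw [this, LinearMap.sub_apply, hδx, Module.End.one_apply, sub_self])
    exact ⟨z, (hW z).1 hz, by rw [← hT]; exact hxz⟩
  · obtain ⟨x, hx, hxy⟩ := c3 y ((hW0 y).2 hy)
    exact ⟨x, (hW x).1 hx, hxy⟩
  · have h4 := c4 x ((hW x).2 hx)
    constructor
    · intro h0
      obtain ⟨z, hz, hxz⟩ := h4.1 h0
      refine ⟨z, (hW z).1 hz, ?_⟩
      have := hT 1 z
      rw [pow_one, pow_one] at this
      rw [hxz, this]
      rfl
    · rintro ⟨z, hz, hxz⟩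
      refine h4.2 ⟨z, (hW z).2 hz, ?_⟩
      have := hT 1 z
      rw [pow_one, pow_one] at this
      rw [hxz, this]
      rfl

end Fermat.Agent.S43.Free

end
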