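/-
Row 37 (S43), block FREE (helper148).  ABSTRACT "FREE" AT EXPONENT `p ^ k`, OPERATOR FORM (Mathlib only):
`free_opsN` = the analogue of `Free.free_ops` for FINITE ABELIAN GROUPS killed by `p ^ k`.

`V = W1 F1 n`, `V0 = W1 F0 n` (`n = p ^ k`), `t i : AddMonoid.End V` a commuting family (`T_ℓ`, the diamond generator `t iδ`, …),
`ev i : ℤ` (any lifts of the eigenvalues mod `p`), `genPart t ev = {x | ∀ i, ∃ N, (t i - ev i) ^ N x = 0}` the `m`-part.
Inputs: `kerUp`, `inv`, `coker`, `up_dn` of block FREE (all generic in `n`).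
-/
import Fermat.Agent.S43.Free.AbsN

set_option autoImplicit false

noncomputable section

namespace Fermat.Agent.S43.Free

open MvPolynomial

variable {V V0 ι : Type*} [AddCommGroup V] [AddCommGroup V0]

theorem endN_mul_apply (f g : AddMonoid.End V) (x : V) : (f * g) x = f (g x) := rfl

theorem endN_add_apply (f g : AddMonoid.End V) (x : V) : (f + g) x = f x + g x := rfl

theorem endN_sub_apply (f g : AddMonoid.End V) (x : V) : (f - g) x = f x - g x := rfl

/-- The `m`-part: generalised eigenvectors of all `t i` with eigenvalue `ev i`. -/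
def genPart (t : ι → AddMonoid.End V) (ev : ι → ℤ) : AddSubgroup V where
  carrier := {x | ∀ i, ∃ N : ℕ, ((t i - (ev i : AddMonoid.End V)) ^ N) x = 0}
  zero_mem' := fun _ => ⟨0, map_zero _⟩
  add_mem' := by
    intro x y hx hy i
    obtain ⟨N, hN⟩ := hx i
    obtain ⟨N', hN'⟩ := hy i
    refine ⟨N + N', ?_⟩
    have h1 : ((t i - (ev i : AddMonoid.End V)) ^ (N + N')) x = 0 := by
      rw [add_comm, pow_add, endN_mul_apply, hN, map_zero]
    have h2 : ((t i - (ev i : AddMonoid.End V)) ^ (N + N')) y = 0 := by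
      rw [pow_add, endN_mul_apply, hN', map_zero]
    rw [map_add, h1, h2, add_zero]
  neg_mem' := by
    intro x hx i
    obtain ⟨N, hN⟩ := hx i
    exact ⟨N, by rw [map_neg, hN, neg_zero]⟩

theorem mem_genPart {t : ι → AddMonoid.End V} {ev : ι → ℤ} {x : V} :
    x ∈ genPart t ev ↔ ∀ i, ∃ N : ℕ, ((t i - (ev i : AddMonoid.End V)) ^ N) x = 0 := Iff.rfl

/-- The action of `ℤ[X i]` through a commuting family. -/
def heckeHomZ (t : ι → AddMonoid.End V) (hc : ∀ i j, Commute (t i) (t j)) :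
    MvPolynomial ι ℤ →ₐ[ℤ] AddMonoid.End V :=
  letI : CommRing (Algebra.adjoin ℤ (Set.range t)) := Algebra.adjoinCommRingOfComm ℤ (by
    rintro _ ⟨i, rfl⟩ _ ⟨j, rfl⟩; exact hc i j)
  (Algebra.adjoin ℤ (Set.range t)).val.comp
    (MvPolynomial.aeval fun i =>
      (⟨t i, Algebra.subset_adjoin ⟨i, rfl⟩⟩ : Algebra.adjoin ℤ (Set.range t)))

theorem heckeHomZ_X (t : ι → AddMonoid.End V) (hc : ∀ i j, Commute (t i) (t j)) (i : ι) :
    heckeHomZ t hc (X i) = t i := by
  unfold heckeHomZ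
  simp

theorem heckeHomZ_C (t : ι → AddMonoid.End V) (hc : ∀ i j, Commute (t i) (t j)) (c : ℤ) :
    heckeHomZ t hc (C c) = (c : AddMonoid.End V) := by
  rw [← MvPolynomial.algebraMap_eq, AlgHom.commutes]
  rfl

/-- An equivariant map is linear over the polynomial ring. -/
theorem heckeHomZ_intertwine (t : ι → AddMonoid.End V) (hc : ∀ i j, Commute (t i) (t j))
    (t0 : ι → AddMonoid.End V0) (hc0 : ∀ i j, Commute (t0 i) (t0 j)) (f : V →+ V0)
    (hf : ∀ i x, f (t i x) = t0 i (f x)) (g : MvPolynomial ι ℤ) (x : V) :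
    f (heckeHomZ t hc g x) = heckeHomZ t0 hc0 g (f x) := by
  induction g using MvPolynomial.induction_on generalizing x with
  | C c =>
    rw [heckeHomZ_C, heckeHomZ_C, AddMonoid.End.intCast_apply, AddMonoid.End.intCast_apply, map_zsmul]
  | add g g' hg hg' =>
    rw [map_add, map_add, endN_add_apply, endN_add_apply, map_add, hg, hg']
  | mul_X g i hg =>
    rw [map_mul, map_mul, heckeHomZ_X, heckeHomZ_X, endN_mul_apply, endN_mul_apply, hg,
      hf]

/-- evaluation at the eigensystem, modulo `p` -/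
def evHom (p : ℕ) (ev : ι → ℤ) : MvPolynomial ι ℤ →+* ZMod p :=
  (Int.castRingHom (ZMod p)).comp (MvPolynomial.eval ev)

theorem evHom_X (p : ℕ) (ev : ι → ℤ) (i : ι) : evHom p ev (X i) = ((ev i : ℤ) : ZMod p) := by
  simp [evHom]

theorem evHom_C (p : ℕ) (ev : ι → ℤ) (c : ℤ) : evHom p ev (C c) = ((c : ℤ) : ZMod p) := by
  simp [evHom]

/-- The maximal ideal of the eigensystem. -/
def evIdealZ (p : ℕ) (ev : ι → ℤ) : Ideal (MvPolynomial ι ℤ) := RingHom.ker (evHom p ev)

theorem evIdealZ_isMaximal (p : ℕ) [Fact p.Prime] (ev : ι → ℤ) : (evIdealZ p ev).IsMaximal := by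
  apply RingHom.ker_isMaximal_of_surjective
  intro c
  obtain ⟨z, rfl⟩ := ZMod.intCast_surjective c
  exact ⟨C z, evHom_C p ev z⟩

theorem sub_C_eval_mem_span (ev : ι → ℤ) (g : MvPolynomial ι ℤ) :
    g - C (MvPolynomial.eval ev g) ∈
      Ideal.span (Set.range fun i => (X i - C (ev i) : MvPolynomial ι ℤ)) := by
  induction g using MvPolynomial.induction_on with
  | C c => simp
  | add f g hf hg =>
    have e : f + g - C (MvPolynomial.eval ev (f + g)) =
        (f - C (MvPolynomial.eval ev f)) + (g - C (MvPolynomial.eval ev g)) := by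
      rw [map_add, map_add]; ring
    rw [e]
    exact Ideal.add_mem _ hf hg
  | mul_X g i hg =>
    have e : g * X i - C (MvPolynomial.eval ev (g * X i)) =
        (g - C (MvPolynomial.eval ev g)) * X i + C (MvPolynomial.eval ev g) * (X i - C (ev i)) := by
      rw [map_mul, MvPolynomial.eval_X, map_mul]; ring
    rw [e]
    exact Ideal.add_mem _ (Ideal.mul_mem_right _ _ hg)
      (Ideal.mul_mem_left _ _ (Ideal.subset_span ⟨i, rfl⟩))

theorem evIdealZ_le_span (p : ℕ) (ev : ι → ℤ) :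
    evIdealZ p ev ≤ Ideal.span (insert (C (p : ℤ))
      (Set.range fun i => (X i - C (ev i) : MvPolynomial ι ℤ))) := by
  intro g hg
  have h1 : ((MvPolynomial.eval ev g : ℤ) : ZMod p) = 0 := hg
  rw [ZMod.intCast_zmod_eq_zero_iff_dvd] at h1
  obtain ⟨b, hb⟩ := h1
  have e : g = (g - C (MvPolynomial.eval ev g)) + C b * C (p : ℤ) := by
    rw [hb, map_mul]; ring
  rw [e]
  exact Ideal.add_mem _ (Ideal.span_mono (Set.subset_insert _ _) (sub_C_eval_mem_span ev g))
    (Ideal.mul_mem_left _ _ (Ideal.subset_span (Set.mem_insert _ _)))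

/-- **Abstract FREE at exponent `p ^ k`, operator form.** -/
theorem free_opsN (p : ℕ) [Fact p.Prime] (k a h : ℕ) (hh : ¬ p ∣ h) [Finite V] [Finite V0]
    (hV : ∀ x : V, p ^ k • x = 0) (hV0 : ∀ y : V0, p ^ k • y = 0)
    (t : ι → AddMonoid.End V) (t0 : ι → AddMonoid.End V0) (ev : ι → ℤ)
    (htt : ∀ i j, Commute (t i) (t j)) (htt0 : ∀ i j, Commute (t0 i) (t0 j))
    (up : V0 →+ V) (dn : V →+ V0)
    (hup : ∀ i y, up (t0 i y) = t i (up y)) (hdn : ∀ i x, dn (t i x) = t0 i (dn x))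
    (iδ : ι) (hδ0 : t0 iδ = 1) (hδa : ((ev iδ : ℤ) : ZMod p) = 1) (hδpow : t iδ ^ (p ^ a * h) = 1)
    (hud : ∀ x, up (dn x) = (∑ j ∈ Finset.range (p ^ a * h), t iδ ^ j) x)
    (i0 : ι) (c : ℤ) (hc : ¬ (p : ℤ) ∣ ev i0 - c)
    (hker : ∀ y, up y = 0 → t0 i0 y = c • y)
    (hinv : ∀ x, t iδ x = x → ∃ y, up y = t i0 x - c • x)
    (hcok : ∀ y, ∃ x, dn x = t0 i0 y - c • y) :
    (∀ y ∈ genPart t0 ev, up y ∈ genPart t ev) ∧
    (∀ x ∈ genPart t ev, dn x ∈ genPart t0 ev) ∧
    (∀ x ∈ genPart t ev, (t iδ ^ (p ^ a)) x = x) ∧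
    (∀ y ∈ genPart t0 ev, up y = 0 → y = 0) ∧
    (∀ y ∈ genPart t0 ev, ∃ x ∈ genPart t ev, dn x = y) ∧
    (∀ x ∈ genPart t ev, t iδ x = x → ∃ y ∈ genPart t0 ev, up y = x) ∧
    (∀ x ∈ genPart t ev, dn x = 0 ↔ ∃ z ∈ genPart t ev, x = t iδ z - z) ∧
    (∀ x ∈ genPart t ev, up (dn x) = h • (∑ j ∈ Finset.range (p ^ a), t iδ ^ j) x) := by
  letI : Module (MvPolynomial ι ℤ) V := Module.compHom V (heckeHomZ t htt).toRingHom
  letI : Module (MvPolynomial ι ℤ) V0 := Module.compHom V0 (heckeHomZ t0 htt0).toRingHom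
  have sV : ∀ (g : MvPolynomial ι ℤ) (x : V), g • x = heckeHomZ t htt g x := fun _ _ => rfl
  have sV0 : ∀ (g : MvPolynomial ι ℤ) (y : V0), g • y = heckeHomZ t0 htt0 g y := fun _ _ => rfl
  let upL : V0 →ₗ[MvPolynomial ι ℤ] V :=
    { toFun := up
      map_add' := map_add up
      map_smul' := fun g y => heckeHomZ_intertwine t0 htt0 t htt up hup g y }
  let dnL : V →ₗ[MvPolynomial ι ℤ] V0 :=
    { toFun := dn
      map_add' := map_add dn
      map_smul' := fun g y => heckeHomZ_intertwine t htt t0 htt0 dn hdn g y }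
  have hXC : ∀ i, (X i - C (ev i) : MvPolynomial ι ℤ) ∈ evIdealZ p ev := by
    intro i
    show evHom p ev _ = 0
    rw [map_sub, evHom_X, evHom_C, sub_self]
  have hpowV : ∀ (i : ι) (N : ℕ) (x : V), (X i - C (ev i) : MvPolynomial ι ℤ) ^ N • x =
      ((t i - (ev i : AddMonoid.End V)) ^ N) x := by
    intro i N x
    rw [sV, map_pow, map_sub, heckeHomZ_X, heckeHomZ_C]
  have hpowV0 : ∀ (i : ι) (N : ℕ) (x : V0), (X i - C (ev i) : MvPolynomial ι ℤ) ^ N • x =
      ((t0 i - (ev i : AddMonoid.End V0)) ^ N) x := by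
    intro i N x
    rw [sV0, map_pow, map_sub, heckeHomZ_X, heckeHomZ_C]
  have hW : ∀ x : V, x ∈ loc (evIdealZ p ev) V ↔ x ∈ genPart t ev := by
    intro x
    constructor
    · intro hx i
      obtain ⟨N, hN⟩ := hx _ (hXC i)
      exact ⟨N, by rw [← hpowV]; exact hN⟩
    · intro hx μ hμ
      refine mem_loc_of_span (S := insert (C (p : ℤ))
        (Set.range fun i => (X i - C (ev i) : MvPolynomial ι ℤ))) ?_ μ (evIdealZ_le_span p ev hμ)
      rintro _ (rfl | ⟨i, rfl⟩)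
      · refine ⟨k, ?_⟩
        rw [sV, map_pow, heckeHomZ_C, Int.cast_natCast, ← Nat.cast_pow, AddMonoid.End.natCast_apply]
        exact hV x
      · obtain ⟨N, hN⟩ := hx i
        exact ⟨N, by rw [hpowV]; exact hN⟩
  have hW0 : ∀ x : V0, x ∈ loc (evIdealZ p ev) V0 ↔ x ∈ genPart t0 ev := by
    intro x
    constructor
    · intro hx i
      obtain ⟨N, hN⟩ := hx _ (hXC i)
      exact ⟨N, by rw [← hpowV0]; exact hN⟩
    · intro hx μ hμ
      refine mem_loc_of_span (S := insert (C (p : ℤ))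
        (Set.range fun i => (X i - C (ev i) : MvPolynomial ι ℤ))) ?_ μ (evIdealZ_le_span p ev hμ)
      rintro _ (rfl | ⟨i, rfl⟩)
      · refine ⟨k, ?_⟩
        rw [sV0, map_pow, heckeHomZ_C, Int.cast_natCast, ← Nat.cast_pow, AddMonoid.End.natCast_apply]
        exact hV0 x
      · obtain ⟨N, hN⟩ := hx i
        exact ⟨N, by rw [hpowV0]; exact hN⟩
  have he : (X i0 - C c : MvPolynomial ι ℤ) ∉ evIdealZ p ev := by
    intro hmem
    have h1 : evHom p ev (X i0 - C c) = 0 := hmem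
    rw [map_sub, evHom_X, evHom_C, ← Int.cast_sub, ZMod.intCast_zmod_eq_zero_iff_dvd] at h1
    exact hc h1
  have heV : ∀ x : V, (X i0 - C c : MvPolynomial ι ℤ) • x = t i0 x - c • x := by
    intro x
    rw [sV, map_sub, heckeHomZ_X, heckeHomZ_C, endN_sub_apply, AddMonoid.End.intCast_apply]
  have heV0 : ∀ x : V0, (X i0 - C c : MvPolynomial ι ℤ) • x = t0 i0 x - c • x := by
    intro x
    rw [sV0, map_sub, heckeHomZ_X, heckeHomZ_C, endN_sub_apply, AddMonoid.End.intCast_apply]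
  have hsum : ∀ (M : ℕ) (x : V), (∑ j ∈ Finset.range M, (X iδ : MvPolynomial ι ℤ) ^ j) • x =
      (∑ j ∈ Finset.range M, t iδ ^ j) x := by
    intro M x
    rw [sV, map_sum]
    simp only [map_pow, heckeHomZ_X]
  have CC : CoverN (evIdealZ p ev) (p ^ a) h (X iδ : MvPolynomial ι ℤ) upL dnL :=
    { max := evIdealZ_isMaximal p ev
      d_mem := by
        show evHom p ev _ = 0
        rw [map_sub, evHom_X, map_one, hδa, sub_self]
      h_ne := by
        intro hmem
        have h1 : evHom p ev (h : MvPolynomial ι ℤ) = 0 := hmem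
        rw [map_natCast, ZMod.natCast_eq_zero_iff] at h1
        exact hh h1
      d_pow := fun x => by rw [sV, map_pow, heckeHomZ_X, hδpow]; rfl
      d_V0 := fun y => by rw [sV0, heckeHomZ_X, hδ0]; rfl
      i_n := fun x => by
        rw [hsum]
        exact hud x
      ker := ⟨_, he, fun y hy => by
        rw [heV0, hker y hy, sub_self]⟩
      inv := ⟨_, he, fun x hx => by
        rw [sV, heckeHomZ_X] at hx
        obtain ⟨y, hy⟩ := hinv x hx
        exact ⟨y, by rw [heV]; exact hy.symm⟩⟩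
      cok := ⟨_, he, fun y => by
        obtain ⟨x, hx⟩ := hcok y
        exact ⟨x, by rw [heV0]; exact hx.symm⟩⟩ }
  refine ⟨fun y hy => ?_, fun x hx => ?_, fun x hx => ?_, fun y hy h0 => ?_, fun y hy => ?_,
    fun x hx hδx => ?_, fun x hx => ?_, fun x hx => ?_⟩
  · exact (hW _).1 (map_mem_loc upL ((hW0 y).2 hy))
  · exact (hW0 _).1 (map_mem_loc dnL ((hW x).2 hx))
  · have := CC.d_pow_P ((hW x).2 hx)
    rwa [sV, map_pow, heckeHomZ_X] at this
  · exact CC.i_inj ((hW0 y).2 hy) h0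
  · obtain ⟨x, hx, hxy⟩ := CC.n_surj ((hW0 y).2 hy)
    exact ⟨x, (hW x).1 hx, hxy⟩
  · obtain ⟨y, hy, hyx⟩ := CC.inv_eq ((hW x).2 hx) (by rw [sV, heckeHomZ_X]; exact hδx)
    exact ⟨y, (hW0 y).1 hy, hyx⟩
  · have h4 := CC.ker_n ((hW x).2 hx)
    constructor
    · intro h0
      obtain ⟨z, hz, hxz⟩ := h4.1 h0
      refine ⟨z, (hW z).1 hz, ?_⟩
      rw [hxz, sV, heckeHomZ_X]
    · rintro ⟨z, hz, hxz⟩
      refine h4.2 ⟨z, (hW z).2 hz, ?_⟩
      rw [hxz, sV, heckeHomZ_X]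
  · have h5 := CC.sum_smul ((hW x).2 hx)
    rw [← CC.i_n, mul_smul, hsum, sV, map_natCast, AddMonoid.End.natCast_apply] at h5
    exact h5

end Fermat.Agent.S43.Free

end
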