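/-
Row 37 (S43), block FREE (architect helper176).  LEAF FREE-ORDER: the diamond action `dia q M` has kernel `±1`, hence a
generator of `(ZMod q)ˣ` acts with exact order `(q - 1) / 2`.
-/
import Fermat.Agent.S43.Ops.Dia

set_option autoImplicit false

noncomputable section

namespace Fermat.Agent.S43.Free

open ModularCurve CongruenceSubgroup
open Fermat.Agent.S24 Fermat.Agent.S48.BB Fermat.Agent.S43.Ops
open scoped MatrixGroups

variable {q M : ℕ} [NeZero q] [NeZero M]

theorem dia_eq_one_iff (d : (ZMod q)ˣ) : dia q M d = 1 ↔ d = 1 ∨ d = -1 := by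
  constructor
  · intro h
    have hmem : (sg q M d)⁻¹ ∈ H1 q M := by
      refine (hL1 q M).stab _ fun f hf g hg => ?_
      have h1 := Psi_dia_of d (sg_mem q M d) (dd_sg q M d) (U.ofQ ⟨f, hf⟩)
      rw [h, U.Psi_ofQ_eq (hL1 q M) ⟨f, hf⟩ hg] at h1
      have h2 : ((1 : FB (F1Q q M) ≃ₐ[Kbar] FB (F1Q q M)) (U.ofQ ⟨f, hf⟩)) = U.ofQ ⟨f, hf⟩ := rfl
      rw [h2, U.Psi_ofQ_eq (hL1 q M) ⟨f, hf⟩ hg] at h1
      exact h1.symm
    have hmem' : sg q M d ∈ H1 q M := by simpa using inv_mem hmem
    have h3 := (mem_H1_iff'.1 hmem').2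
    rw [dd_sg] at h3
    rcases h3 with h3 | h3
    · exact Or.inl (Units.ext (by rw [h3, Units.val_one]))
    · exact Or.inr (Units.ext (by rw [h3, Units.val_neg, Units.val_one]))
  · rintro (rfl | rfl)
    · exact map_one _
    · exact dia_neg_one

theorem orderOf_dia_gen (hq : q.Prime) (hq2 : q ≠ 2) (g : (ZMod q)ˣ)
    (hg : ∀ d : (ZMod q)ˣ, d ∈ Subgroup.zpowers g) : orderOf (dia q M g) = (q - 1) / 2 := by
  have : Fact q.Prime := ⟨hq⟩
  have hodd : Odd q := hq.odd_of_ne_two hq2
  obtain ⟨m, hm⟩ := hodd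
  have hm0 : 0 < m := by
    rcases Nat.eq_zero_or_pos m with h | h
    · subst h
      exact absurd hm hq.ne_one
    · exact h
  have hcard : orderOf g = q - 1 := by
    rw [orderOf_eq_card_of_forall_mem_zpowers hg, Nat.card_eq_fintype_card, ZMod.card_units_eq_totient,
      Nat.totient_prime hq]
  have hq1 : q - 1 = 2 * m := by omega
  have hhalf : (q - 1) / 2 = m := by omega
  rw [hhalf]
  have hne : (-1 : (ZMod q)ˣ) ≠ 1 := by
    intro h
    have h1 : ((-1 : (ZMod q)ˣ) : ZMod q) = 1 := by rw [h, Units.val_one]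
    rw [Units.val_neg, Units.val_one] at h1
    have h2 : (2 : ZMod q) = 0 := by
      have : (1 : ZMod q) + 1 = 0 := by nth_rewrite 1 [← h1]; ring
      rw [← this]; norm_num
    have h3 : ((2 : ℕ) : ZMod q) = 0 := by exact_mod_cast h2
    rw [ZMod.natCast_eq_zero_iff] at h3
    have := Nat.le_of_dvd (by norm_num) h3
    have := hq.two_le
    omega
  -- `g ^ m = -1`
  have hgm : g ^ m = -1 := by
    have hsq : (g ^ m) ^ 2 = 1 := by
      rw [← pow_mul, mul_comm, ← hq1, ← hcard, pow_orderOf_eq_one]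
    have hne1 : g ^ m ≠ 1 := by
      intro h
      have := orderOf_dvd_of_pow_eq_one h
      rw [hcard, hq1] at this
      have := Nat.le_of_dvd hm0 this
      omega
    have h4 : ((g ^ m : (ZMod q)ˣ) : ZMod q) ^ 2 = 1 := by
      rw [← Units.val_pow_eq_pow_val, hsq, Units.val_one]
    rcases sq_eq_one_iff.1 h4 with h5 | h5
    · exact absurd (Units.ext (by rw [h5, Units.val_one])) hne1
    · exact Units.ext (by rw [h5, Units.val_neg, Units.val_one])
  refine (orderOf_eq_iff hm0).2 ⟨?_, ?_⟩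
  · rw [← map_pow, hgm, dia_neg_one]
  · intro k hk hk0 h
    rw [← map_pow, dia_eq_one_iff] at h
    rcases h with h | h
    · have := orderOf_dvd_of_pow_eq_one h
      rw [hcard, hq1] at this
      have := Nat.le_of_dvd hk0 this
      omega
    · have h6 : g ^ (2 * k) = 1 := by
        rw [mul_comm, pow_mul, h]; simp
      have := orderOf_dvd_of_pow_eq_one h6
      rw [hcard, hq1] at this
      have := Nat.le_of_dvd (by omega) this
      omega

end Fermat.Agent.S43.Free

end
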