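/-
Row 37 (S43), block FREE, leaf PAR (task 3776, helper261).
A conjugate of a power of `T` lying in `Γ₀(q M)` lies in `H1 q M = ±Γ₁(q) ∩ Γ₀(q M)` (`q` prime).

With `g = (a b; c d)`: `g⁻¹ T ^ k g = (1 + k c d, k d²; - k c², 1 - k c d)`; `q ∣ k c²` gives `q ∣ k c d`.
-/
import Fermat.Agent.S48.BB.Base

set_option autoImplicit false

namespace Fermat.Agent.S43.Free

open Fermat.Agent.S48.BB CongruenceSubgroup
open scoped MatrixGroups

/-- the entries of `g⁻¹ T ^ k g`. -/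
theorem par_entries (k : ℕ) (g : SL(2, ℤ)) :
    (g⁻¹ * ModularGroup.T ^ k * g) 0 0 = 1 + k * (g 1 0 * g 1 1) ∧
    (g⁻¹ * ModularGroup.T ^ k * g) 1 1 = 1 - k * (g 1 0 * g 1 1) ∧
    (g⁻¹ * ModularGroup.T ^ k * g) 1 0 = - (k * (g 1 0 * g 1 0)) := by
  have hT : ((ModularGroup.T ^ k : SL(2, ℤ)) : Matrix (Fin 2) (Fin 2) ℤ) = !![1, (k : ℤ); 0, 1] := by
    rw [← zpow_natCast, ModularGroup.coe_T_zpow]
  have hdet : g 0 0 * g 1 1 - g 0 1 * g 1 0 = 1 := by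
    have := g.det_coe
    rwa [Matrix.det_fin_two] at this
  have hinv : ((g⁻¹ : SL(2, ℤ)) : Matrix (Fin 2) (Fin 2) ℤ) = !![g 1 1, - g 0 1; - g 1 0, g 0 0] := by
    rw [Matrix.SpecialLinearGroup.coe_inv, Matrix.adjugate_fin_two]
  refine ⟨?_, ?_, ?_⟩
  · show ((g⁻¹ * ModularGroup.T ^ k * g : SL(2, ℤ)) : Matrix (Fin 2) (Fin 2) ℤ) 0 0 = _
    rw [Matrix.SpecialLinearGroup.coe_mul, Matrix.SpecialLinearGroup.coe_mul, hT, hinv]
    simp [Matrix.mul_apply, Fin.sum_univ_two]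
    linear_combination hdet
  · show ((g⁻¹ * ModularGroup.T ^ k * g : SL(2, ℤ)) : Matrix (Fin 2) (Fin 2) ℤ) 1 1 = _
    rw [Matrix.SpecialLinearGroup.coe_mul, Matrix.SpecialLinearGroup.coe_mul, hT, hinv]
    simp [Matrix.mul_apply, Fin.sum_univ_two]
    linear_combination hdet
  · show ((g⁻¹ * ModularGroup.T ^ k * g : SL(2, ℤ)) : Matrix (Fin 2) (Fin 2) ℤ) 1 0 = _
    rw [Matrix.SpecialLinearGroup.coe_mul, Matrix.SpecialLinearGroup.coe_mul, hT, hinv]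
    simp [Matrix.mul_apply, Fin.sum_univ_two]
    ring

theorem par {q M : ℕ} (hq : q.Prime) (η : SL(2, ℤ)) (hη : η ∈ Gamma0 (q * M)) (k : ℕ)
    (g : SL(2, ℤ)) (h : η = g⁻¹ * ModularGroup.T ^ k * g) : η ∈ H1 q M := by
  refine ⟨Subgroup.mem_sup_left ?_, hη⟩
  obtain ⟨h00, h11, h10⟩ := par_entries k g
  rw [← h] at h00 h11 h10
  rw [Gamma0_mem, ZMod.intCast_zmod_eq_zero_iff_dvd] at hη
  have hqd : (q : ℤ) ∣ η 1 0 := Dvd.dvd.trans (by push_cast; exact Dvd.intro _ rfl) hη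
  have hqp : Prime (q : ℤ) := Nat.prime_iff_prime_int.mp hq
  have hkey : (q : ℤ) ∣ k * (g 1 0 * g 1 1) := by
    rw [h10, dvd_neg] at hqd
    rcases hqp.dvd_or_dvd hqd with h1 | h1
    · exact Dvd.dvd.mul_right h1 _
    · have h2 : (q : ℤ) ∣ g 1 0 := by
        rcases hqp.dvd_or_dvd h1 with h2 | h2 <;> exact h2
      exact Dvd.dvd.mul_left (Dvd.dvd.mul_right h2 _) _
  have hz : (((k : ℤ) * (g 1 0 * g 1 1) : ℤ) : ZMod q) = 0 :=
    (ZMod.intCast_zmod_eq_zero_iff_dvd _ _).mpr hkey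
  rw [Gamma1_mem]
  refine ⟨?_, ?_, (ZMod.intCast_zmod_eq_zero_iff_dvd _ _).mpr hqd⟩
  · rw [h00, Int.cast_add, hz, Int.cast_one, add_zero]
  · rw [h11, Int.cast_sub, hz, Int.cast_one, sub_zero]

end Fermat.Agent.S43.Free
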