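/-
Row 37 (S43), block FREE (architect helper176), leaf RAM (helper246).

The ramification of `FB (F1Q q M) / FB (full (q M))` is prime to `n` when `n` is prime to `6` and `q` is prime:
a function `u` of level `Γ₀(q M)` whose divisor at level `±Γ₁(q) ∩ Γ₀(q M)` is divisible by `n` has a divisor
divisible by `n` at level `Γ₀(q M)`.

PROOF.  Let `h` be an `n`-th root of `u` among the meromorphic functions on the upper half plane, with multiplier
system `ψ₁` on `H1 q M` (it kills the parabolic and the elliptic elements of `H1 q M`) and `ψ₀` on `Γ₀(q M)`.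
`ψ₀` extends `ψ₁`.  An elliptic element of `Γ₀(q M)` has order dividing `4` or `6`, prime to `n`.
A parabolic element `g⁻¹ T ^ k g` of `Γ₀(q M)` has trace `2` and `a d = 1` modulo `q`, so `(d - 1) ^ 2 = 0` and
`d = 1` modulo `q`: it lies in `H1 q M`.  So `ψ₀` kills the parabolic and the elliptic elements of `Γ₀(q M)`
and `T.isKum_of_isMult` applies.
-/
import Fermat.Agent.S48.BB.T.KumOfMult
import Fermat.Agent.S48.BB.T.LevelUp
import Fermat.Agent.S48.BB.W.Lvl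
import Fermat.Agent.S48.BB.V.LvlFull
import Fermat.Agent.S48.BB.H.Defs
import Fermat.Agent.S43.Free.Contract

set_option autoImplicit false

noncomputable section

namespace Fermat.Agent.S43.Free

open ModularCurve CongruenceSubgroup
open Fermat.Agent.S24 Fermat.Agent.S24.B Fermat.Agent.GAL.Mult
open Fermat.Agent.S48.A Fermat.Agent.S48.BB Fermat.Agent.S48.BB.U
open Fermat.Agent.S48.BB.T (alphaB Psi_alphaB)
open scoped MatrixGroups

/-! ### group theory -/

theorem ram_S_pow_four : ModularGroup.S ^ 4 = 1 := by decide +kernel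

theorem ram_ST_pow_six : (ModularGroup.S * ModularGroup.T) ^ 6 = 1 := by decide +kernel

theorem ram_conj_pow {G : Type*} [Group G] (g σ : G) (k m : ℕ) (h : σ ^ m = 1) :
    (g⁻¹ * σ ^ k * g) ^ m = 1 := by
  have e : g⁻¹ * σ ^ k * g = g⁻¹ * σ ^ k * (g⁻¹)⁻¹ := by rw [inv_inv]
  rw [e, conj_pow, ← pow_mul, mul_comm k m, pow_mul, h, one_pow, mul_one, mul_inv_cancel]

/-- a homomorphism to `ZMod n` kills the elements of order prime to `n` -/
theorem ram_eq_zero_of_pow {H : Subgroup SL(2, ℤ)} {n : ℕ} (ψ : Additive H →+ ZMod n) (γ : H)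
    (m : ℕ) (hm : n.Coprime m) (h : γ ^ m = 1) : ψ (Additive.ofMul γ) = 0 := by
  have h1 : m • ψ (Additive.ofMul γ) = 0 := by
    rw [← map_nsmul, ← ofMul_pow, h, ofMul_one, map_zero]
  rw [nsmul_eq_mul] at h1
  have hu : IsUnit ((m : ℕ) : ZMod n) := (ZMod.isUnit_iff_coprime m n).2 hm.symm
  exact (hu.mul_right_eq_zero).1 h1

theorem ram_trace_conj_T (g : SL(2, ℤ)) (k : ℕ) :
    (g⁻¹ * ModularGroup.T ^ k * g : SL(2, ℤ)) 0 0 + (g⁻¹ * ModularGroup.T ^ k * g : SL(2, ℤ)) 1 1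
      = 2 := by
  have h1 : Matrix.trace ((g⁻¹ * ModularGroup.T ^ k * g : SL(2, ℤ)) : Matrix (Fin 2) (Fin 2) ℤ) =
      Matrix.trace ((ModularGroup.T ^ k : SL(2, ℤ)) : Matrix (Fin 2) (Fin 2) ℤ) := by
    rw [Matrix.SpecialLinearGroup.coe_mul, Matrix.trace_mul_comm, ← Matrix.SpecialLinearGroup.coe_mul,
      mul_inv_cancel_left]
  have h2 : ((ModularGroup.T ^ k : SL(2, ℤ)) : Matrix (Fin 2) (Fin 2) ℤ) = !![1, (k : ℤ); 0, 1] := by
    rw [← zpow_natCast, ModularGroup.coe_T_zpow]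
  rw [h2, Matrix.trace_fin_two, Matrix.trace_fin_two] at h1
  simpa using h1

/-- **the trace argument**: the parabolic elements of `Γ₀(q)` lie in `Γ₁(q)` -/
theorem ram_dd_conj_T {q : ℕ} (hq : q.Prime) (g : SL(2, ℤ)) (k : ℕ)
    (h : g⁻¹ * ModularGroup.T ^ k * g ∈ Gamma0 q) : dd q (g⁻¹ * ModularGroup.T ^ k * g) = 1 := by
  have : Fact q.Prime := ⟨hq⟩
  have h1 := W.diag_mul_of_mem_Gamma0 h
  have h2 := congrArg (fun z : ℤ => (z : ZMod q)) (ram_trace_conj_T g k)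
  simp only [Int.cast_add, Int.cast_ofNat] at h2
  set a : ZMod q := (((g⁻¹ * ModularGroup.T ^ k * g : SL(2, ℤ)) 0 0 : ℤ) : ZMod q) with ha
  have hd : dd q (g⁻¹ * ModularGroup.T ^ k * g) =
      (((g⁻¹ * ModularGroup.T ^ k * g : SL(2, ℤ)) 1 1 : ℤ) : ZMod q) := rfl
  rw [hd]
  set d : ZMod q := (((g⁻¹ * ModularGroup.T ^ k * g : SL(2, ℤ)) 1 1 : ℤ) : ZMod q) with hd'
  have h3 : (d - 1) ^ 2 = 0 := by linear_combination d * h2 - h1
  exact sub_eq_zero.1 ((pow_eq_zero_iff two_ne_zero).1 h3)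

/-! ### the statement -/

variable {q m : ℕ}

theorem ram_Gamma0_mul_le : Gamma0 (q * m) ≤ Gamma0 q := by
  intro γ hγ
  rw [Gamma0_mem, ZMod.intCast_zmod_eq_zero_iff_dvd] at hγ ⊢
  exact (Int.natCast_dvd_natCast.mpr (Dvd.intro m rfl)).trans hγ

theorem ram_mem_H1 {γ : SL(2, ℤ)} (h0 : γ ∈ Gamma0 (q * m)) (h : dd q γ = 1) : γ ∈ H1 q m := by
  rw [H1, Subgroup.mem_inf, H.pmGamma1_eq, H.mem_pmSub]
  exact ⟨⟨ram_Gamma0_mul_le h0, Or.inl h⟩, h0⟩

variable [NeZero q] [NeZero m]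

/-- **(RAM)** -/
theorem ram (hq : q.Prime) {n : ℕ} [NeZero n] (hn : n.Coprime 6)
    (u : FB (modularFunctionFieldFull (q * m)))
    (hu : M.IsKum (FB (F1Q q m)) n
      (alphaB (le_sup_right : modularFunctionFieldFull (q * m) ≤ F1Q q m) u)) :
    M.IsKum (FB (modularFunctionFieldFull (q * m))) n u := by
  have hL1 : IsLvl (F1Q q m) (H1 q m) (q * m) := W.isLvl_F1Q q m
  have hL0 : IsLvl (modularFunctionFieldFull (q * m)) (Gamma0 (q * m)) (q * m) :=
    V.isLvl_full (q * m)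
  have hle : modularFunctionFieldFull (q * m) ≤ F1Q q m := le_sup_right
  rcases eq_or_ne u 0 with rfl | hu0
  · intro v
    simp
  have hα0 : alphaB hle u ≠ 0 := (map_ne_zero _).2 hu0
  -- the multiplier system at level `H1 q m`
  set w : M.kum (FB (F1Q q m)) n := ⟨Units.mk0 _ hα0, hu⟩ with hw
  have hm1 := M.isMult_multL_cls hL1 n w
  have hpe1 := M.multL_mem_homPE hL1 n (M.cls w)
  set ψ₁ := M.multL hL1 n (M.cls w) with hψ₁
  obtain ⟨h, hh0, hpow, htr⟩ := hm1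
  have hreal : M.real (Psi hL1) (alphaB hle u) = M.real (Psi hL0) u := by
    rw [M.real_apply, M.real_apply, Psi_alphaB hL0 hL1]
  have hpow0 : h ^ n = M.real (Psi hL0) u := by
    rw [← hreal]
    exact hpow
  -- the multiplier system at level `Γ₀(q M)`
  obtain ⟨ψ₀, hψ₀⟩ := M.exists_isMult_of_root (Ψ := Psi hL0) (H := Gamma0 (q * m))
    (fun γ hγ f => smul_Psi_of_mem hL0 γ hγ f) u hu0 h hpow0
  have hres : ∀ (γ : SL(2, ℤ)) (h1 : γ ∈ H1 q m) (h0 : γ ∈ Gamma0 (q * m)),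
      ψ₀ (Additive.ofMul ⟨γ, h0⟩) = ψ₁ (Additive.ofMul ⟨γ, h1⟩) := by
    intro γ h1 h0
    refine algebraMap_zeta_mul_cancel hh0 ?_
    rw [← hψ₀ ⟨γ, h0⟩, ← htr ⟨γ, h1⟩]
  refine T.isKum_of_isMult hL0 (ψ := ψ₀) ⟨h, hh0, hpow0, hψ₀⟩ ?_
  rw [M.mem_homPE]
  refine ⟨fun k g hg => ?_, fun k g hg => ?_, fun k g hg => ?_⟩
  · refine ram_eq_zero_of_pow ψ₀ _ 4 ?_ (Subtype.ext (ram_conj_pow g _ k 4 ram_S_pow_four))
    exact Nat.Coprime.coprime_dvd_right (by norm_num : 4 ∣ 6 ^ 2) (Nat.Coprime.pow_right 2 hn)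
  · exact ram_eq_zero_of_pow ψ₀ _ 6 hn (Subtype.ext (ram_conj_pow g _ k 6 ram_ST_pow_six))
  · have h1 : g⁻¹ * ModularGroup.T ^ k * g ∈ H1 q m :=
      ram_mem_H1 hg (ram_dd_conj_T hq g k (ram_Gamma0_mul_le hg))
    rw [hres _ h1 hg]
    exact (M.mem_homPE.1 hpe1).2.2 k g h1

/-- **(RAM)** in the form of the contract, for any algebra structure given by the inclusion. -/
theorem ram_contract (hq : q.Prime) {n : ℕ} [NeZero n] (hn : n.Coprime 6)
    [Algebra (FB (modularFunctionFieldFull (q * m))) (FB (F1Q q m))]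
    (halg : ∀ x : FB (modularFunctionFieldFull (q * m)),
      algebraMap (FB (modularFunctionFieldFull (q * m))) (FB (F1Q q m)) x =
        alphaB (le_sup_right : modularFunctionFieldFull (q * m) ≤ F1Q q m) x) :
    Ram (FB (modularFunctionFieldFull (q * m))) (FB (F1Q q m)) n := by
  intro f hf
  rw [halg] at hf
  exact ram hq hn f hf

end Fermat.Agent.S43.Free

end
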