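/-
Row 37 (S43), block FREE, leaf UPDN.  `π^* π_* = ∑ δ^j`, `π_* δ = π_*`, `δ π^* = π^*`.
On representatives (`cls_surjective`, `upW_cls`, `dnW_cls`, `auW_cls`): `Cyc.norm_eq`.
-/
import Fermat.Agent.S43.Free.GalCyc

set_option autoImplicit false

namespace Fermat.Agent.S43.Free

open AlgebraicCurve Fermat.Agent.S24 Fermat.Agent.S24.FF Fermat.Agent.S27 Fermat.Agent.S48.BB.M

theorem auW_one {L : Type} [Field L] [Algebra Kbar L] (n : ℕ) (x : W L n) :
    auW (1 : L ≃ₐ[Kbar] L) n x = x := by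
  obtain ⟨u, rfl⟩ := cls_surjective x
  rw [auW_cls]
  exact congrArg S48.BB.M.cls (Subtype.ext (Units.ext rfl))

theorem auW_mul {L : Type} [Field L] [Algebra Kbar L] (D D' : L ≃ₐ[Kbar] L) (n : ℕ) (x : W L n) :
    auW (D * D') n x = auW D n (auW D' n x) := by
  obtain ⟨u, rfl⟩ := cls_surjective x
  rw [auW_cls, auW_cls, auW_cls]
  exact congrArg S48.BB.M.cls (Subtype.ext (Units.ext rfl))

theorem auW_pow {L : Type} [Field L] [Algebra Kbar L] (D : L ≃ₐ[Kbar] L) (j n : ℕ) (x : W L n) :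
    auW (D ^ j) n x = (auW D n)^[j] x := by
  induction j with
  | zero => rw [pow_zero, auW_one, Function.iterate_zero, id]
  | succ j ih => rw [pow_succ', auW_mul, ih, Function.iterate_succ_apply']

theorem upDn_sum_cls {L : Type} [Field L] [Algebra Kbar L] {n : ℕ} (s : Finset ℕ)
    (f : ℕ → kum L n) : ∑ j ∈ s, cls (f j) = cls (∏ j ∈ s, f j) := by
  classical
  induction s using Finset.induction_on with
  | empty => rw [Finset.sum_empty, Finset.prod_empty, cls_one]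
  | insert a s ha ih => rw [Finset.sum_insert ha, Finset.prod_insert ha, cls_mul, ih]

variable {L0 L1 : Type} [Field L0] [Field L1] [Algebra Kbar L0] [Algebra Kbar L1]
  [Algebra L0 L1] [IsScalarTower Kbar L0 L1] [Module.Finite L0 L1]
  [IsFF1 Kbar L0] [IsFF1 Kbar L1] [NonConst Kbar L0]

omit [IsScalarTower Kbar L0 L1] [Module.Finite L0 L1] [IsFF1 Kbar L0] [IsFF1 Kbar L1]
  [NonConst Kbar L0] in
theorem upDn_pow_base (C : Cyc L0 L1) (j : ℕ) (x : L0) :
    (C.D ^ j) (algebraMap L0 L1 x) = algebraMap L0 L1 x := by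
  induction j with
  | zero => rfl
  | succ j ih =>
    rw [pow_succ']
    show C.D ((C.D ^ j) (algebraMap L0 L1 x)) = _
    rw [ih, C.D_base]

omit [IsFF1 Kbar L0] [IsFF1 Kbar L1] [NonConst Kbar L0] in
theorem upDn_norm_D (C : Cyc L0 L1) {y : L1} (hy : y ≠ 0) :
    Algebra.norm L0 (C.D y) = Algebra.norm L0 y := by
  apply (algebraMap L0 L1).injective
  rw [C.norm_eq, C.norm_eq]
  have h1 : ∀ j : ℕ, (C.D ^ j) (C.D y) = (C.D ^ (j + 1)) y := fun j => by
    rw [pow_succ]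
    rfl
  simp only [h1]
  have h2 := Finset.prod_range_succ' (fun j => (C.D ^ j) y) (orderOf C.D)
  rw [Finset.prod_range_succ, pow_orderOf_eq_one, pow_zero] at h2
  exact (mul_right_cancel₀ (b := (1 : L1 ≃ₐ[Kbar] L1) y) hy h2).symm

omit [IsFF1 Kbar L0] [IsFF1 Kbar L1] [NonConst Kbar L0] in
theorem upDn_norm_base (C : Cyc L0 L1) (x : L0) :
    Algebra.norm L0 (algebraMap L0 L1 x) = x ^ orderOf C.D := by
  apply (algebraMap L0 L1).injective
  rw [C.norm_eq, map_pow]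
  simp only [upDn_pow_base]
  rw [Finset.prod_const, Finset.card_range]

theorem up_dn (C : Cyc L0 L1) (n : ℕ) (x : W L1 n) :
    upW L0 L1 n (dnW L0 L1 n x) = ∑ j ∈ Finset.range (orderOf C.D), auW (C.D ^ j) n x := by
  obtain ⟨u, rfl⟩ := cls_surjective x
  rw [dnW_cls, upW_cls]
  simp only [auW_cls]
  rw [upDn_sum_cls]
  refine congrArg S48.BB.M.cls (Subtype.ext (Units.ext ?_))
  rw [Subgroup.val_finsetProd, Units.coe_prod]
  exact C.norm_eq _

theorem dn_au (C : Cyc L0 L1) (n : ℕ) (x : W L1 n) :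
    dnW L0 L1 n (auW C.D n x) = dnW L0 L1 n x := by
  obtain ⟨u, rfl⟩ := cls_surjective x
  rw [auW_cls, dnW_cls, dnW_cls]
  exact congrArg S48.BB.M.cls (Subtype.ext (Units.ext (upDn_norm_D C (Units.ne_zero _))))

theorem au_up (C : Cyc L0 L1) (n : ℕ) (y : W L0 n) :
    auW C.D n (upW L0 L1 n y) = upW L0 L1 n y := by
  obtain ⟨u, rfl⟩ := cls_surjective y
  rw [upW_cls, auW_cls]
  exact congrArg S48.BB.M.cls (Subtype.ext (Units.ext (C.D_base _)))

/-- `π_* π^* = [L1 : L0]` -/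
theorem dn_up (C : Cyc L0 L1) (n : ℕ) (y : W L0 n) :
    dnW L0 L1 n (upW L0 L1 n y) = orderOf C.D • y := by
  obtain ⟨u, rfl⟩ := cls_surjective y
  rw [upW_cls, dnW_cls, ← cls_pow]
  refine congrArg S48.BB.M.cls (Subtype.ext (Units.ext ?_))
  rw [Subgroup.coe_pow, Units.val_pow_eq_pow_val]
  exact upDn_norm_base C _

end Fermat.Agent.S43.Free
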